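/-
S56 / FLAT / RAM block (helper24): DEFINITIONS (no sorry).  Pure local-field ramification theory on
top of the S55 LOCAL API (`lfOrd`, `lfInt`, `lfRamIdx`, `lfInertiaDeg`, ...).

* `rmI q K L s`    : `i_G(s) = min_{y ∈ O_L, s y ≠ y} v_L(s y - y)` (`L`-normalised; junk `0` at `s = 1`)
* `rmIMax q K L`   : `i* = max_{s ≠ 1} i_G(s)`
* `rmPhi q K L i`  : `Φ(i) = i + Σ_{s ≠ 1} min(i, i_G(s))`  (Fontaine's `φ`, `L`-normalised)
* `rmU q K L`      : `u* = Φ(i*) / e(L/K)` (Fontaine's `u_{L/K}` = Serre's largest upper break `+ 1`)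
* `RmPM q K L m`   : Fontaine's property `(P_m)` in `y`-form: for every generator `x` of `O_L` over
  `O_K`, every finite `E/K` and every `y ∈ O_E` with `v_K(P_x(y)) ≥ m`: `L` embeds in `E` over `K`.
-/
import Fermat.Agent.S55.LocalUnramTower

set_option autoImplicit false

namespace Fermat.Agent.S56

open Fermat.Agent.S55 Polynomial

section Defs

variable (q : ℕ) [Fact q.Prime]
  (K : Type) [Field K] [Algebra ℚ_[q] K] [FiniteDimensional ℚ_[q] K]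
  (L : Type) [Field L] [Algebra ℚ_[q] L] [FiniteDimensional ℚ_[q] L]
  [Algebra K L] [IsScalarTower ℚ_[q] K L]

/-- `L/K` is totally ramified. -/
def LfTotRam : Prop := lfInertiaDeg q K L = 1

/-- `L/K` is tamely ramified. -/
def LfTame : Prop := ¬ q ∣ lfRamIdx q K L

/-- `i_G(s) = min { v_L(s y - y) : y ∈ O_L, s y ≠ y }` (junk `0` for `s = 1`). -/
noncomputable def rmI (s : L ≃ₐ[K] L) : ℕ :=
  sInf {n : ℕ | ∃ y : L, y ∈ lfInt q L ∧ s y ≠ y ∧ lfOrd q L (s y - y) = (n : ℤ)}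

/-- `i* = max_{s ≠ 1} i_G(s)` (`0` if `L = K`). -/
noncomputable def rmIMax : ℕ :=
  sSup {n : ℕ | ∃ s : L ≃ₐ[K] L, s ≠ 1 ∧ rmI q K L s = n}

/-- Fontaine's `φ(i) = Σ_{s ∈ G} min(i, i_G(s))` with `i_G(1) = ∞`, `L`-normalised. -/
noncomputable def rmPhi (i : ℚ) : ℚ :=
  i + ∑ᶠ (s : L ≃ₐ[K] L) (_ : s ≠ 1), min i (rmI q K L s : ℚ)

/-- Fontaine's `u_{L/K} = φ(i*) / e(L/K)` (`K`-normalised). -/
noncomputable def rmU : ℚ := rmPhi q K L (rmIMax q K L) / (lfRamIdx q K L : ℚ)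

/-- `x` generates `O_L` over `O_K`. -/
def RmGen (x : L) : Prop :=
  x ∈ lfInt q L ∧ ∀ z : L, z ∈ lfInt q L →
    ∃ g : K[X], (∀ n, g.coeff n ∈ lfInt q K) ∧ aeval x g = z

/-- Fontaine's property `(P_m)` (in `y`-form; `m` is `K`-normalised). -/
def RmPM (m : ℚ) : Prop :=
  ∀ x : L, RmGen q K L x →
    ∀ (E : Type) [Field E] [Algebra ℚ_[q] E] [FiniteDimensional ℚ_[q] E] [Algebra K E]
      [IsScalarTower ℚ_[q] K E] (y : E), y ∈ lfInt q E →
      aeval y (minpoly K x) ≠ 0 →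
      m * (lfRamIdx q K E : ℚ) ≤ (lfOrd q E (aeval y (minpoly K x)) : ℚ) →
      Nonempty (L →ₐ[K] E)

end Defs

end Fermat.Agent.S56
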