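/-
S56 / FLAT / RAM block, leaf MU (helper19): the maximal unramified subextension of a finite
extension `L/K` of `q`-adic fields (`K₀ = K(ζ)`, `ζ` a root of unity of order `|k_L| - 1`), and
total ramification in towers.  Statements verbatim from `Ram/Spec.lean` (helper24, c9614b0).
-/
import Fermat.Agent.S56.Ram.Defs

set_option autoImplicit false
set_option linter.unusedSectionVars false
set_option linter.unusedVariables false
set_option linter.style.haveILetI false

namespace Fermat.Agent.S56

open Fermat.Agent.S55 Polynomial IsLocalRing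

section MU

variable (q : ℕ) [Fact q.Prime]
  (K : Type) [Field K] [Algebra ℚ_[q] K] [FiniteDimensional ℚ_[q] K]
  (L : Type) [Field L] [Algebra ℚ_[q] L] [FiniteDimensional ℚ_[q] L]
  [Algebra K L] [IsScalarTower ℚ_[q] K L]

theorem rm_finiteDimensional_intermediate (E : IntermediateField K L) :
    FiniteDimensional ℚ_[q] ↥E := by
  haveI : FiniteDimensional K L := FiniteDimensional.right ℚ_[q] K L
  exact FiniteDimensional.trans ℚ_[q] K ↥E

/-- the tower `ℚ_q ⊆ E ⊆ L` for an intermediate field `E` of `L/K` (not found by instance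
search) -/
theorem rmmu_isScalarTower (E : IntermediateField K L) :
    @IsScalarTower ℚ_[q] ↥E L Algebra.toSMul Algebra.toSMul Algebra.toSMul :=
  IsScalarTower.of_algebraMap_eq (fun _ => rfl)

/-- the inertia degree is positive -/
theorem rmmu_lfInertiaDeg_pos : 0 < lfInertiaDeg q K L := by
  haveI : FiniteDimensional K L := FiniteDimensional.right ℚ_[q] K L
  have h := lfRamIdx_mul_lfInertiaDeg q K L
  have hpos : 0 < Module.finrank K L := Module.finrank_pos
  rcases Nat.eq_zero_or_pos (lfInertiaDeg q K L) with h0 | h0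
  · rw [h0, mul_zero] at h; omega
  · exact h0

/-- `L` contains a primitive root of unity of order `|k_L| - 1` (Teichmüller). -/
theorem rmmu_exists_primitiveRoot :
    ∃ ζ : L, IsPrimitiveRoot ζ (lfResCard q L - 1) := by
  haveI : Finite (ResidueField (lfInt q L)) := inferInstance
  obtain ⟨u, hu⟩ := IsCyclic.exists_generator (α := (ResidueField (lfInt q L))ˣ)
  obtain ⟨z, hz1, hz2⟩ := lf_exists_root_of_unity_lift q L u
  have hord : orderOf u = lfResCard q L - 1 := by
    rw [orderOf_eq_card_of_forall_mem_zpowers hu, Nat.card_units]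
    rfl
  refine ⟨(z : L), ?_⟩
  rw [IsPrimitiveRoot.iff_def]
  refine ⟨?_, fun d hd => ?_⟩
  · have := congrArg (fun w : lfInt q L => (w : L)) hz1
    simpa using this
  · rw [← hord]
    apply orderOf_dvd_of_pow_eq_one
    apply Units.ext
    rw [Units.val_pow_eq_pow_val, ← hz2, ← map_pow, Units.val_one]
    have hzd : z ^ d = 1 := Subtype.ext (by simpa using hd)
    rw [hzd, map_one]

/-- the generator of a simple algebraic extension `E = K(ζ) ⊆ L` generates `E` as an algebra -/
theorem rmmu_adjoin_subtype_eq_top (E : IntermediateField K L) (ζ : L) (hint : IsIntegral K ζ)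
    (hE : E = IntermediateField.adjoin K {ζ}) (hmem : ζ ∈ E) :
    Algebra.adjoin K {(⟨ζ, hmem⟩ : E)} = ⊤ := by
  rw [eq_top_iff]
  rintro ⟨y, hy⟩ -
  have h1 : y ∈ (IntermediateField.adjoin K {ζ}).toSubalgebra := hE ▸ hy
  rw [IntermediateField.adjoin_simple_toSubalgebra_of_isAlgebraic hint.isAlgebraic] at h1
  have h2 : (Algebra.adjoin K {(⟨ζ, hmem⟩ : E)}).map E.val = Algebra.adjoin K {ζ} := by
    rw [AlgHom.map_adjoin, Set.image_singleton]
    rfl
  rw [← h2] at h1
  obtain ⟨y', hy', hyy'⟩ := h1
  have : y' = ⟨y, hy⟩ := Subtype.ext hyy'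
  rw [← this]
  exact hy'

/-- `K(ζ)`, `ζ` a primitive root of unity of order `|k_L| - 1`, is the maximal unramified
subextension. -/
theorem rmmu_maxUnram_of_eq (E : IntermediateField K L) (ζ : L)
    (hprim : IsPrimitiveRoot ζ (lfResCard q L - 1))
    (hE : E = IntermediateField.adjoin K {ζ}) :
    haveI := rm_finiteDimensional_intermediate q K L E
    LfUnramified q K ↥E ∧ LfTotRam q ↥E L := by
  haveI : FiniteDimensional K L := FiniteDimensional.right ℚ_[q] K L
  haveI := rm_finiteDimensional_intermediate q K L E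
  haveI := rmmu_isScalarTower q K L E
  have hint : IsIntegral K ζ := IsIntegral.of_finite K ζ
  have hmem : ζ ∈ E := hE ▸ IntermediateField.mem_adjoin_simple_self K ζ
  have hf := lfResCard_eq_pow q K L
  have hfpos := rmmu_lfInertiaDeg_pos q K L
  have hprim' : IsPrimitiveRoot (⟨ζ, hmem⟩ : ↥E)
      (lfResCard q K ^ lfInertiaDeg q K L - 1) := by
    rw [← hf]
    refine IsPrimitiveRoot.of_map_of_injective
      (f := algebraMap ↥E L) ?_ (algebraMap ↥E L).injective
    exact hprim
  have htop := rmmu_adjoin_subtype_eq_top K L E ζ hint hE hmem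
  have hunr : LfUnramified q K ↥E :=
    lfUnramified_of_adjoin_root q K _ _ (lu_not_dvd_pow_sub_one q K hfpos) _ hprim' htop
  have hdeg : Module.finrank K ↥E = lfInertiaDeg q K L :=
    lu_finrank_of_adjoin_root q K _ hfpos hprim' htop
  refine ⟨hunr, ?_⟩
  unfold LfTotRam
  have h1 := lfInertiaDeg_tower q K ↥E L
  rw [lu_lfInertiaDeg_of_unramified q K _ hunr, hdeg] at h1
  have h2 : lfInertiaDeg q K L * lfInertiaDeg q ↥E L = lfInertiaDeg q K L * 1 := by
    rw [mul_one]; exact h1.symm
  exact Nat.eq_of_mul_eq_mul_left hfpos h2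

/-- the maximal unramified subextension `K₀` of `L/K`: `K₀/K` unramified, `L/K₀` totally
ramified; every intermediate field contains ... (only existence is needed). -/
theorem rm_exists_maxUnram :
    ∃ K₀ : IntermediateField K L,
      haveI := rm_finiteDimensional_intermediate q K L K₀
      LfUnramified q K ↥K₀ ∧ LfTotRam q ↥K₀ L := by
  obtain ⟨ζ, hprim⟩ := rmmu_exists_primitiveRoot q L
  exact ⟨IntermediateField.adjoin K {ζ}, rmmu_maxUnram_of_eq q K L _ ζ hprim rfl⟩

/-- subextensions of totally ramified extensions are totally ramified (both steps). -/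
theorem rm_totRam_tower (F : Type) [Field F] [Algebra ℚ_[q] F] [FiniteDimensional ℚ_[q] F]
    [Algebra K F] [IsScalarTower ℚ_[q] K F] [Algebra F L] [IsScalarTower ℚ_[q] F L]
    [IsScalarTower K F L] (htr : LfTotRam q K L) : LfTotRam q K F ∧ LfTotRam q F L := by
  unfold LfTotRam at *
  have h := lfInertiaDeg_tower q K F L
  rw [htr] at h
  exact ⟨Nat.eq_one_of_mul_eq_one_right h.symm, Nat.eq_one_of_mul_eq_one_left h.symm⟩

end MU

end Fermat.Agent.S56
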