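/-
S56 / FLAT / RAM block, leaf HB (helper17): Herbrand's quotient formula (Serre, Corps locaux, IV Prop. 3)
and `u_{L₁/K} ≤ u_{L/K}` — the two statements of section HB of `Ram/Spec.lean` (origin/helper24
c9614b0) VERBATIM.  Black boxes (sections TR and MU of the spec): `rm_uniformizer_gen`,
`rmI_eq_uniformizer`, `rmI_le`, `rmI_inv`, `rmI_mul_ge`, `rmI_le_rmIMax`,
`rm_exists_rmI_eq_rmIMax`, `rm_totRam_tower`.  Helper lemmas are prefixed `rmhb_`.
-/
import Fermat.Agent.S56.Ram.TotRam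
import Fermat.Agent.S56.Ram.MaxUnram

set_option autoImplicit false
set_option linter.unusedSectionVars false
set_option linter.unusedVariables false

namespace Fermat.Agent.S56

open Fermat.Agent.S55 Polynomial

/-! ### abstract polynomial lemmas -/

section Abstract

variable {A : Type*} [CommRing A]

/-- if `σ` moves the coefficients of `P` only by multiples of `a` and `P(x) = 0`,
then `a ∣ (σ P)(x)`. -/
theorem rmhb_dvd_eval_map (σ : A →+* A) (a : A) (P : A[X]) (x : A) (hx : P.eval x = 0)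
    (hc : ∀ i, a ∣ σ (P.coeff i) - P.coeff i) : a ∣ (P.map σ).eval x := by
  have h1 : (P.map σ).eval x = (P.map σ).eval x - P.eval x := by rw [hx, sub_zero]
  rw [h1, eval_map, eval₂_eq_sum, eval_eq_sum, Polynomial.sum_def, Polynomial.sum_def,
    ← Finset.sum_sub_distrib]
  refine Finset.dvd_sum fun i _ => ?_
  rw [← sub_mul]
  exact Dvd.dvd.mul_right (hc i) _

/-- a product of distinct linear factors divides every polynomial vanishing at all the roots. -/
theorem rmhb_prod_dvd [IsDomain A] {ι : Type*} [Fintype ι] (r : ι → A)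
    (hr : Function.Injective r) (R : A[X]) (hR : ∀ i, R.eval (r i) = 0) :
    (∏ i : ι, (X - C (r i))) ∣ R := by
  classical
  have hmonic : (∏ i : ι, (X - C (r i))).Monic := monic_prod_of_monic _ _ fun i _ => monic_X_sub_C _
  rw [← modByMonic_eq_zero_iff_dvd hmonic]
  have hdeg : (∏ i : ι, (X - C (r i))).natDegree = Fintype.card ι := by
    rw [natDegree_prod_of_monic _ _ fun i _ => monic_X_sub_C _]
    simp
  by_cases hcard : Fintype.card ι = 0
  · have h1 : (∏ i : ι, (X - C (r i))) = 1 := by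
      have : IsEmpty ι := Fintype.card_eq_zero_iff.mp hcard
      simp
    rw [h1, modByMonic_one]
  refine eq_zero_of_natDegree_lt_card_of_eval_eq_zero _ hr (fun i => ?_) ?_
  · have h2 := modByMonic_add_div R (∏ i : ι, (X - C (r i)))
    have h3 : eval (r i) (∏ j : ι, (X - C (r j))) = 0 := by
      rw [eval_prod]
      exact Finset.prod_eq_zero (Finset.mem_univ i) (by simp)
    have h4 := congrArg (eval (r i)) h2
    rw [eval_add, eval_mul, h3, zero_mul, add_zero, hR i] at h4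
    exact h4
  · rw [← hdeg]
    refine natDegree_modByMonic_lt _ hmonic ?_
    intro h1
    rw [h1, natDegree_one] at hdeg
    exact hcard hdeg.symm

end Abstract


/-! ### valuations and divisibility in the ring of integers -/

section Ord

variable (q : ℕ) [Fact q.Prime]
  (L : Type) [Field L] [Algebra ℚ_[q] L] [FiniteDimensional ℚ_[q] L]

/-- divisibility in the ring of integers in terms of `lfOrd`. -/
theorem rmhb_dvd_iff (a x : lfInt q L) (ha : a ≠ 0) (hx : x ≠ 0) :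
    a ∣ x ↔ lfOrd q L (a : L) ≤ lfOrd q L (x : L) := by
  have ha' : (a : L) ≠ 0 := fun h => ha (Subtype.ext h)
  have hx' : (x : L) ≠ 0 := fun h => hx (Subtype.ext h)
  rw [lrt_dvd_iff q L a x ha, mem_lfInt_iff_lfOrd q L (mul_ne_zero hx' (inv_ne_zero ha')),
    lfOrd_mul q L hx' (inv_ne_zero ha'), lfOrd_inv]
  constructor <;> intro h <;> linarith

theorem rmhb_lfOrd_prod {ι : Type*} (s : Finset ι) (f : ι → L) (hf : ∀ i ∈ s, f i ≠ 0) :
    lfOrd q L (∏ i ∈ s, f i) = ∑ i ∈ s, lfOrd q L (f i) := by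
  classical
  induction s using Finset.induction_on with
  | empty => simp [lfOrd_one]
  | insert a s ha ih =>
    rw [Finset.prod_insert ha, Finset.sum_insert ha,
      lfOrd_mul q L (hf a (Finset.mem_insert_self a s))
        (Finset.prod_ne_zero_iff.mpr fun i hi => hf i (Finset.mem_insert_of_mem hi)),
      ih fun i hi => hf i (Finset.mem_insert_of_mem hi)]

theorem rmhb_lfOrd_sub_comm (x y : L) : lfOrd q L (x - y) = lfOrd q L (y - x) := by
  rw [← neg_sub, lfOrd_neg]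

end Ord

/-! ### restriction to a Galois subextension -/

section Restrict

variable (K : Type) [Field K] (L₁ : Type) [Field L₁] [Algebra K L₁]
  (L : Type) [Field L] [Algebra K L] [Algebra L₁ L] [IsScalarTower K L₁ L] [Normal K L₁]

theorem rmhb_restrict_apply (s : L ≃ₐ[K] L) (x : L₁) :
    s (algebraMap L₁ L x) = algebraMap L₁ L (AlgEquiv.restrictNormalHom L₁ s x) :=
  (AlgEquiv.restrictNormal_commutes s L₁ x).symm

theorem rmhb_restrict_restrictScalars (t : L ≃ₐ[L₁] L) :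
    AlgEquiv.restrictNormalHom L₁ (t.restrictScalars K) = 1 := by
  ext x
  apply (algebraMap L₁ L).injective
  rw [← rmhb_restrict_apply]
  simp

theorem rmhb_exists_of_restrict_eq_one (u : L ≃ₐ[K] L)
    (hu : AlgEquiv.restrictNormalHom L₁ u = 1) :
    ∃ t : L ≃ₐ[L₁] L, t.restrictScalars K = u := by
  refine ⟨AlgEquiv.ofRingEquiv (f := u.toRingEquiv) (fun x => ?_), ?_⟩
  · show u (algebraMap L₁ L x) = algebraMap L₁ L x
    rw [rmhb_restrict_apply, hu]
    rfl
  · ext x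
    rfl

/-- the fibre of the restriction map over `sbar` is the coset `s₀ · Gal(L/L₁)`. -/
theorem rmhb_finsum_fibre {M : Type*} [AddCommMonoid M] (f : (L ≃ₐ[K] L) → M)
    (s₀ : L ≃ₐ[K] L) (sbar : L₁ ≃ₐ[K] L₁) (hs₀ : AlgEquiv.restrictNormalHom L₁ s₀ = sbar) :
    ∑ᶠ (s : L ≃ₐ[K] L) (_ : AlgEquiv.restrictNormalHom L₁ s = sbar), f s =
      ∑ᶠ t : L ≃ₐ[L₁] L, f (s₀ * t.restrictScalars K) := by
  rw [← finsum_mem_univ (fun t : L ≃ₐ[L₁] L => f (s₀ * t.restrictScalars K))]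
  symm
  refine finsum_mem_eq_of_bijOn (t := {s : L ≃ₐ[K] L | AlgEquiv.restrictNormalHom L₁ s = sbar})
    (fun t : L ≃ₐ[L₁] L => s₀ * t.restrictScalars K) ⟨?_, ?_, ?_⟩ (fun _ _ => rfl)
  · intro t _
    show AlgEquiv.restrictNormalHom L₁ (s₀ * t.restrictScalars K) = sbar
    rw [map_mul, rmhb_restrict_restrictScalars, mul_one, hs₀]
  · intro t _ t' _ h
    have h1 : t.restrictScalars K = t'.restrictScalars K := mul_left_cancel h
    ext x
    exact AlgEquiv.congr_fun h1 x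
  · intro s hs
    have hs' : AlgEquiv.restrictNormalHom L₁ s = sbar := hs
    obtain ⟨t, ht⟩ := rmhb_exists_of_restrict_eq_one K L₁ L (s₀⁻¹ * s)
      (by rw [map_mul, map_inv, hs₀, hs', inv_mul_cancel])
    exact ⟨t, Set.mem_univ _, by show s₀ * t.restrictScalars K = s; rw [ht, mul_inv_cancel_left]⟩

end Restrict

/-! ### Herbrand's quotient formula -/

section HBcore

variable (q : ℕ) [Fact q.Prime]
  (K : Type) [Field K] [Algebra ℚ_[q] K] [FiniteDimensional ℚ_[q] K]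
  (L₁ : Type) [Field L₁] [Algebra ℚ_[q] L₁] [FiniteDimensional ℚ_[q] L₁]
  [Algebra K L₁] [IsScalarTower ℚ_[q] K L₁]
  (L : Type) [Field L] [Algebra ℚ_[q] L] [FiniteDimensional ℚ_[q] L]
  [Algebra K L] [IsScalarTower ℚ_[q] K L] [Algebra L₁ L] [IsScalarTower ℚ_[q] L₁ L]
  [IsScalarTower K L₁ L]

/-- the coefficients of `∏_{t ∈ Gal(L/L₁)} (X - t π)` are integers of `L₁`. -/
theorem rmhb_coeff_mem [FiniteDimensional L₁ L] [IsGalois L₁ L] [Fintype (L ≃ₐ[L₁] L)]
    (πA : lfInt q L) (i : ℕ) :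
    ∃ c : L₁, c ∈ lfInt q L₁ ∧ algebraMap L₁ L c =
      (((∏ t : L ≃ₐ[L₁] L, (X - C (t • πA))).coeff i : lfInt q L) : L) := by
  set P : (lfInt q L)[X] := ∏ t : L ≃ₐ[L₁] L, (X - C (t • πA)) with hP
  have hPL : P.map (lfInt q L).subtype = ∏ t : L ≃ₐ[L₁] L, (X - C (t (πA : L))) := by
    rw [hP, Polynomial.map_prod]
    refine Finset.prod_congr rfl fun t _ => ?_
    rw [Polynomial.map_sub, map_X, map_C]
    rfl
  have hcoe : ((P.coeff i : lfInt q L) : L) = (P.map (lfInt q L).subtype).coeff i := by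
    rw [coeff_map]
    rfl
  have hfix : ∀ t' : L ≃ₐ[L₁] L, t' ((P.coeff i : lfInt q L) : L) = ((P.coeff i : lfInt q L) : L) := by
    intro t'
    have h1 : (P.map (lfInt q L).subtype).map (t' : L →+* L) = P.map (lfInt q L).subtype := by
      rw [hPL, Polynomial.map_prod]
      rw [← Equiv.prod_comp (Equiv.mulLeft t') (fun t : L ≃ₐ[L₁] L => (X - C (t (πA : L))))]
      refine Finset.prod_congr rfl fun t _ => ?_
      rw [Polynomial.map_sub, map_X, map_C]
      rfl
    have h2 := congrArg (fun p : L[X] => p.coeff i) h1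
    simp only [coeff_map] at h2
    exact h2
  obtain ⟨c, hc⟩ := (IsGalois.mem_range_algebraMap_iff_fixed (F := L₁) (E := L) _).mpr hfix
  refine ⟨c, ?_, hc⟩
  rw [← algebraMap_mem_lfInt_iff q L₁ L, hc]
  exact (P.coeff i).2

/-- evaluation of a lift to the ring of integers of a polynomial with coefficients in `K`. -/
theorem rmhb_eval_lift (g : K[X]) (Gint : (lfInt q L)[X])
    (hG : Gint.map (lfInt q L).subtype = g.map (algebraMap K L)) (z : lfInt q L) :
    ((Gint.eval z : lfInt q L) : L) = aeval (z : L) g := by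
  have h1 : (lfInt q L).subtype (Gint.eval z) = (Gint.map (lfInt q L).subtype).eval ((lfInt q L).subtype z) := by
    rw [eval_map, eval₂_at_apply]
  rw [hG, eval_map, ← aeval_def] at h1
  exact h1

variable [IsGalois K L] [IsGalois K L₁]

/-- KEY IDENTITY (Serre IV Prop. 3): `v_L(s₀ y - y) = Σ_{t ∈ Gal(L/L₁)} v_L(s₀ t π - π)` for
uniformizers `π` of `L`, `y = π₁` of `L₁`, and `s₀` not in `Gal(L/L₁)`. -/
theorem rmhb_key (htr : LfTotRam q K L) {π : L} (hπ : IsLfUniformizer q L π)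
    {π₁ : L₁} (hπ₁ : IsLfUniformizer q L₁ π₁) (s₀ : L ≃ₐ[K] L)
    (hs : AlgEquiv.restrictNormalHom L₁ s₀ ≠ 1) [Fintype (L ≃ₐ[L₁] L)] :
    lfOrd q L (s₀ (algebraMap L₁ L π₁) - algebraMap L₁ L π₁) =
      ∑ t : L ≃ₐ[L₁] L, lfOrd q L ((s₀ * t.restrictScalars K) π - π) := by
  classical
  have : FiniteDimensional K L := lu_finiteDimensional q K L
  have : FiniteDimensional L₁ L := lu_finiteDimensional q L₁ L
  have : IsGalois L₁ L := IsGalois.tower_top_of_isGalois K L₁ L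
  set sbar := AlgEquiv.restrictNormalHom L₁ s₀ with hsbar
  obtain ⟨htr₁, htr'⟩ := rm_totRam_tower q K L L₁ htr
  have hπmem : π ∈ lfInt q L := lro_uniformizer_mem q L hπ
  have hπ₁mem : π₁ ∈ lfInt q L₁ := lro_uniformizer_mem q L₁ hπ₁
  set y : L := algebraMap L₁ L π₁ with hy
  have hymem : y ∈ lfInt q L := algebraMap_mem_lfInt q L₁ L hπ₁mem
  set πA : lfInt q L := ⟨π, hπmem⟩ with hπA
  set yA : lfInt q L := ⟨y, hymem⟩ with hyA
  have hmove := rmI_eq_uniformizer q K L₁ htr₁ hπ₁ sbar hs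
  have hs₀y : s₀ y = algebraMap L₁ L (sbar π₁) := rmhb_restrict_apply K L₁ L s₀ π₁
  have he'pos : (0 : ℤ) < (lfRamIdx q L₁ L : ℤ) := by exact_mod_cast lfRamIdx_pos q L₁ L
  -- the element `a`
  have ha_coe : ((s₀ • yA - yA : lfInt q L) : L) = algebraMap L₁ L (sbar π₁ - π₁) := by
    rw [map_sub, ← hs₀y]
    rfl
  have hsub_ne : sbar π₁ - π₁ ≠ 0 := sub_ne_zero.mpr hmove.1
  have ha0 : (s₀ • yA - yA : lfInt q L) ≠ 0 := by
    intro h
    have h1 : ((s₀ • yA - yA : lfInt q L) : L) = 0 := by rw [h]; rfl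
    rw [ha_coe] at h1
    exact hsub_ne ((map_eq_zero_iff _ (algebraMap L₁ L).injective).mp h1)
  -- every `s₀ t` moves `π`
  have hst : ∀ t : L ≃ₐ[L₁] L, (s₀ * t.restrictScalars K) π ≠ π := by
    intro t
    refine (rmI_eq_uniformizer q K L htr hπ (s₀ * t.restrictScalars K) ?_).1
    intro h1
    apply hs
    have h2 := congrArg (AlgEquiv.restrictNormalHom L₁) h1
    rw [map_mul, rmhb_restrict_restrictScalars, mul_one, map_one] at h2
    exact h2
  -- the polynomial `P`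
  set σ : lfInt q L →+* lfInt q L := MulSemiringAction.toRingHom (L ≃ₐ[K] L) (lfInt q L) s₀ with hσ
  set P : (lfInt q L)[X] := ∏ t : L ≃ₐ[L₁] L, (X - C (t • πA)) with hP
  have hPσ : P.map σ = ∏ t : L ≃ₐ[L₁] L, (X - C (s₀ • t • πA)) := by
    rw [hP, Polynomial.map_prod]
    refine Finset.prod_congr rfl fun t _ => ?_
    rw [Polynomial.map_sub, map_X, map_C]
    rfl
  have hP0 : P.eval πA = 0 := by
    rw [hP, eval_prod]
    refine Finset.prod_eq_zero (Finset.mem_univ (1 : L ≃ₐ[L₁] L)) ?_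
    rw [eval_sub, eval_X, eval_C, one_smul, sub_self]
  have hb_eval : (P.map σ).eval πA = ∏ t : L ≃ₐ[L₁] L, (πA - s₀ • t • πA) := by
    rw [hPσ, eval_prod]
    refine Finset.prod_congr rfl fun t _ => ?_
    rw [eval_sub, eval_X, eval_C]
  have hb_coe : (((P.map σ).eval πA : lfInt q L) : L) =
      ∏ t : L ≃ₐ[L₁] L, (π - (s₀ * t.restrictScalars K) π) := by
    rw [hb_eval]
    rw [← ValuationSubring.subtype_apply, map_prod]
    rfl
  have hb_ne : ∀ t ∈ (Finset.univ : Finset (L ≃ₐ[L₁] L)), π - (s₀ * t.restrictScalars K) π ≠ 0 :=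
    fun t _ => sub_ne_zero.mpr (hst t).symm
  have hb0 : (P.map σ).eval πA ≠ 0 := by
    intro h
    have h1 : (((P.map σ).eval πA : lfInt q L) : L) = 0 := by rw [h]; rfl
    rw [hb_coe] at h1
    exact (Finset.prod_ne_zero_iff.mpr hb_ne) h1
  -- direction 1 : `a ∣ b`
  have hdvd1 : (s₀ • yA - yA) ∣ (P.map σ).eval πA := by
    refine rmhb_dvd_eval_map σ _ P πA hP0 fun i => ?_
    obtain ⟨c, hcmem, hc⟩ := rmhb_coeff_mem q L₁ L πA i
    have hx_coe : ((σ (P.coeff i) - P.coeff i : lfInt q L) : L) = algebraMap L₁ L (sbar c - c) := by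
      rw [map_sub, ← rmhb_restrict_apply K L₁ L s₀ c, hc]
      rfl
    by_cases hfix : sbar c = c
    · have : σ (P.coeff i) - P.coeff i = 0 := by
        apply Subtype.ext
        rw [hx_coe, hfix, sub_self, map_zero]
        rfl
      rw [this]
      exact dvd_zero _
    · have hx0 : σ (P.coeff i) - P.coeff i ≠ 0 := by
        intro h
        have h1 : ((σ (P.coeff i) - P.coeff i : lfInt q L) : L) = 0 := by rw [h]; rfl
        rw [hx_coe] at h1
        exact (sub_ne_zero.mpr hfix) ((map_eq_zero_iff _ (algebraMap L₁ L).injective).mp h1)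
      rw [rmhb_dvd_iff q L _ _ ha0 hx0, ha_coe, hx_coe, lfOrd_algebraMap q L₁ L,
        lfOrd_algebraMap q L₁ L]
      have h1 := rmI_le q K L₁ sbar hcmem hfix
      rw [hmove.2] at h1
      exact mul_le_mul_of_nonneg_left h1 he'pos.le
  -- direction 2 : `b ∣ a`
  have hdvd2 : (P.map σ).eval πA ∣ (s₀ • yA - yA) := by
    obtain ⟨g, hgint, -, hgy⟩ := rm_uniformizer_gen q K L htr hπ y hymem
    have hlift : g.map (algebraMap K L) ∈ lifts (lfInt q L).subtype := by
      rw [lifts_iff_coeff_lifts]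
      intro n
      refine ⟨⟨algebraMap K L (g.coeff n), algebraMap_mem_lfInt q K L (hgint n)⟩, ?_⟩
      rw [coeff_map]
      rfl
    obtain ⟨Gint, hG⟩ := (mem_lifts _).mp hlift
    set R : (lfInt q L)[X] := Gint - C (s₀ • yA) with hR
    have hty : ∀ t : L ≃ₐ[L₁] L, (s₀ * t.restrictScalars K) y = s₀ y := by
      intro t
      show s₀ (t (algebraMap L₁ L π₁)) = s₀ y
      rw [t.commutes]
    have hroot : ∀ t : L ≃ₐ[L₁] L, R.eval (s₀ • t • πA) = 0 := by
      intro t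
      apply Subtype.ext
      rw [hR, eval_sub, eval_C]
      show ((Gint.eval (s₀ • t • πA) : lfInt q L) : L) - s₀ y = 0
      rw [rmhb_eval_lift q K L g Gint hG]
      have h1 : ((s₀ • t • πA : lfInt q L) : L) = (s₀ * t.restrictScalars K) π := rfl
      rw [h1, aeval_algHom_apply, hgy, hty, sub_self]
    have hinj : Function.Injective fun t : L ≃ₐ[L₁] L => s₀ • t • πA := by
      intro t t' h
      have h1 : s₀ (t π) = s₀ (t' π) := congrArg (fun z : lfInt q L => (z : L)) h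
      have h2 : t π = t' π := s₀.injective h1
      by_contra hne
      have h3 : t⁻¹ * t' ≠ 1 := by
        intro h4
        apply hne
        rw [inv_mul_eq_one] at h4
        exact h4
      apply (rmI_eq_uniformizer q L₁ L htr' hπ (t⁻¹ * t') h3).1
      show t⁻¹ (t' π) = π
      rw [← h2]
      exact t.symm_apply_apply π
    have hQR : (P.map σ) ∣ R := by
      rw [hPσ]
      exact rmhb_prod_dvd (fun t : L ≃ₐ[L₁] L => s₀ • t • πA) hinj R hroot
    obtain ⟨h, hh⟩ := hQR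
    have hRπ : R.eval πA = yA - s₀ • yA := by
      apply Subtype.ext
      rw [hR, eval_sub, eval_C]
      show ((Gint.eval πA : lfInt q L) : L) - s₀ y = y - s₀ y
      rw [rmhb_eval_lift q K L g Gint hG]
      show aeval π g - s₀ y = y - s₀ y
      rw [hgy]
    have h5 : (P.map σ).eval πA ∣ yA - s₀ • yA := by
      rw [← hRπ, hh, eval_mul]
      exact dvd_mul_right _ _
    rw [← neg_sub]
    exact (dvd_neg).mpr h5
  -- conclusion
  have h1 := (rmhb_dvd_iff q L _ _ ha0 hb0).mp hdvd1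
  have h2 := (rmhb_dvd_iff q L _ _ hb0 ha0).mp hdvd2
  have h3 : lfOrd q L ((s₀ • yA - yA : lfInt q L) : L) = lfOrd q L (((P.map σ).eval πA : lfInt q L) : L) :=
    le_antisymm h1 h2
  have h4 : ((s₀ • yA - yA : lfInt q L) : L) = s₀ y - y := rfl
  rw [h4, hb_coe, rmhb_lfOrd_prod q L _ _ hb_ne] at h3
  rw [h3]
  refine Finset.sum_congr rfl fun t _ => ?_
  exact rmhb_lfOrd_sub_comm q L _ _

/-- Herbrand's quotient formula, integer form, over the coset `s₀ · Gal(L/L₁)`. -/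
theorem rmhb_quotient_int (htr : LfTotRam q K L) (s₀ : L ≃ₐ[K] L)
    (hs : AlgEquiv.restrictNormalHom L₁ s₀ ≠ 1) [Fintype (L ≃ₐ[L₁] L)] :
    (lfRamIdx q L₁ L : ℤ) * (rmI q K L₁ (AlgEquiv.restrictNormalHom L₁ s₀) : ℤ) =
      ∑ t : L ≃ₐ[L₁] L, (rmI q K L (s₀ * t.restrictScalars K) : ℤ) := by
  obtain ⟨π, hπ⟩ := exists_isLfUniformizer q L
  obtain ⟨π₁, hπ₁⟩ := exists_isLfUniformizer q L₁
  obtain ⟨htr₁, htr'⟩ := rm_totRam_tower q K L L₁ htr
  have hkey := rmhb_key q K L₁ L htr hπ hπ₁ s₀ hs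
  have hmove := rmI_eq_uniformizer q K L₁ htr₁ hπ₁ _ hs
  rw [rmhb_restrict_apply K L₁ L s₀ π₁, ← map_sub, lfOrd_algebraMap q L₁ L, ← hmove.2] at hkey
  rw [hkey]
  refine Finset.sum_congr rfl fun t _ => ?_
  refine ((rmI_eq_uniformizer q K L htr hπ (s₀ * t.restrictScalars K) ?_).2).symm
  intro h1
  apply hs
  have h2 := congrArg (AlgEquiv.restrictNormalHom L₁) h1
  rw [map_mul, rmhb_restrict_restrictScalars, mul_one, map_one] at h2
  exact h2

end HBcore

/-! ### the two statements of section HB of `Ram/Spec.lean` -/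

section HB

variable (q : ℕ) [Fact q.Prime]
  (K : Type) [Field K] [Algebra ℚ_[q] K] [FiniteDimensional ℚ_[q] K]
  (L₁ : Type) [Field L₁] [Algebra ℚ_[q] L₁] [FiniteDimensional ℚ_[q] L₁]
  [Algebra K L₁] [IsScalarTower ℚ_[q] K L₁]
  (L : Type) [Field L] [Algebra ℚ_[q] L] [FiniteDimensional ℚ_[q] L]
  [Algebra K L] [IsScalarTower ℚ_[q] K L] [Algebra L₁ L] [IsScalarTower ℚ_[q] L₁ L]
  [IsScalarTower K L₁ L] [IsGalois K L] [IsGalois K L₁]

/-- Herbrand (Serre IV Prop. 3): `e(L/L₁) · i_{G/H}(s̄) = Σ_{s ↦ s̄} i_G(s)`. -/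
theorem rm_herbrand_quotient (htr : LfTotRam q K L) (sbar : L₁ ≃ₐ[K] L₁) (hs : sbar ≠ 1) :
    (lfRamIdx q L₁ L : ℚ) * (rmI q K L₁ sbar : ℚ) =
      ∑ᶠ (s : L ≃ₐ[K] L) (_ : AlgEquiv.restrictNormalHom L₁ s = sbar), (rmI q K L s : ℚ) := by
  classical
  have : FiniteDimensional L₁ L := lu_finiteDimensional q L₁ L
  let _ : Fintype (L ≃ₐ[L₁] L) := Fintype.ofFinite _
  obtain ⟨s₀, hs₀⟩ := AlgEquiv.restrictNormalHom_surjective (F := K) (K₁ := L₁) L sbar
  rw [rmhb_finsum_fibre K L₁ L _ s₀ sbar hs₀, finsum_eq_sum_of_fintype]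
  have h := rmhb_quotient_int q K L₁ L htr s₀ (by rw [hs₀]; exact hs)
  rw [hs₀] at h
  exact_mod_cast h

/-- `Φ(i*) = i* + Σ_{s ≠ 1} i_G(s)` as a finite sum. -/
theorem rmhb_rmPhi_max [Fintype (L ≃ₐ[K] L)] [DecidableEq (L ≃ₐ[K] L)] :
    rmPhi q K L (rmIMax q K L) = ((rmIMax q K L + ∑ s ∈ Finset.univ.filter
      (fun s : L ≃ₐ[K] L => s ≠ 1), rmI q K L s : ℕ) : ℚ) := by
  unfold rmPhi
  have h1 : ∑ᶠ (s : L ≃ₐ[K] L) (_ : s ≠ 1), min ((rmIMax q K L : ℕ) : ℚ) (rmI q K L s : ℚ) =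
      ∑ s ∈ Finset.univ.filter (fun s : L ≃ₐ[K] L => s ≠ 1), (rmI q K L s : ℚ) := by
    have h2 : {s : L ≃ₐ[K] L | s ≠ 1} =
        ↑(Finset.univ.filter (fun s : L ≃ₐ[K] L => s ≠ 1)) := by
      ext s
      simp
    have h3 : ∑ᶠ (s : L ≃ₐ[K] L) (_ : s ≠ 1), min ((rmIMax q K L : ℕ) : ℚ) (rmI q K L s : ℚ) =
        ∑ᶠ (s : L ≃ₐ[K] L) (_ : s ∈ {s : L ≃ₐ[K] L | s ≠ 1}),
          min ((rmIMax q K L : ℕ) : ℚ) (rmI q K L s : ℚ) := rfl
    rw [h3, h2, finsum_mem_coe_finset]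
    refine Finset.sum_congr rfl fun s hs => ?_
    have hs1 : s ≠ 1 := (Finset.mem_filter.mp hs).2
    exact min_eq_right (by exact_mod_cast rmI_le_rmIMax q K L s hs1)
  rw [h1]
  push_cast
  rfl

/-- the largest upper break does not increase in a Galois quotient. -/
theorem rmU_le_of_tower (htr : LfTotRam q K L) : rmU q K L₁ ≤ rmU q K L := by
  classical
  have : FiniteDimensional K L := lu_finiteDimensional q K L
  have : FiniteDimensional K L₁ := lu_finiteDimensional q K L₁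
  have : FiniteDimensional L₁ L := lu_finiteDimensional q L₁ L
  let _ : Fintype (L ≃ₐ[K] L) := Fintype.ofFinite _
  let _ : Fintype (L₁ ≃ₐ[K] L₁) := Fintype.ofFinite _
  let _ : Fintype (L ≃ₐ[L₁] L) := Fintype.ofFinite _
  have he : lfRamIdx q K L = lfRamIdx q K L₁ * lfRamIdx q L₁ L := lfRamIdx_tower q K L₁ L
  have he₁pos : 0 < lfRamIdx q K L₁ := lfRamIdx_pos q K L₁
  have he'pos : 0 < lfRamIdx q L₁ L := lfRamIdx_pos q L₁ L
  unfold rmU
  rw [rmhb_rmPhi_max q K L, rmhb_rmPhi_max q K L₁]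
  set ρ : (L ≃ₐ[K] L) →* (L₁ ≃ₐ[K] L₁) := AlgEquiv.restrictNormalHom L₁ with hρ
  -- Herbrand in Finset form
  have hH : ∀ σ : L₁ ≃ₐ[K] L₁, σ ≠ 1 → lfRamIdx q L₁ L * rmI q K L₁ σ =
      ∑ s ∈ Finset.univ.filter (fun s : L ≃ₐ[K] L => ρ s = σ), rmI q K L s := by
    intro σ hσ
    obtain ⟨s₀, hs₀⟩ := AlgEquiv.restrictNormalHom_surjective (F := K) (K₁ := L₁) L σ
    have h := rmhb_quotient_int q K L₁ L htr s₀ (by rw [hs₀]; exact hσ)
    rw [hs₀] at h
    have h2 : ∑ s ∈ Finset.univ.filter (fun s : L ≃ₐ[K] L => ρ s = σ), rmI q K L s =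
        ∑ t : L ≃ₐ[L₁] L, rmI q K L (s₀ * t.restrictScalars K) := by
      have h3 := rmhb_finsum_fibre K L₁ L (fun s => rmI q K L s) s₀ σ hs₀
      rw [finsum_eq_sum_of_fintype (fun t : L ≃ₐ[L₁] L => rmI q K L (s₀ * t.restrictScalars K))] at h3
      rw [← h3]
      have h4 : {s : L ≃ₐ[K] L | AlgEquiv.restrictNormalHom L₁ s = σ} =
          ↑(Finset.univ.filter (fun s : L ≃ₐ[K] L => ρ s = σ)) := by
        ext s
        simp [hρ]
      have h5 : ∑ᶠ (s : L ≃ₐ[K] L) (_ : AlgEquiv.restrictNormalHom L₁ s = σ), rmI q K L s =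
          ∑ᶠ (s : L ≃ₐ[K] L) (_ : s ∈ {s : L ≃ₐ[K] L | AlgEquiv.restrictNormalHom L₁ s = σ}),
            rmI q K L s := rfl
      rw [h5, h4, finsum_mem_coe_finset]
    rw [h2]
    exact_mod_cast h
  -- the main inequality in `ℕ`
  have hmain : lfRamIdx q L₁ L * (rmIMax q K L₁ + ∑ σ ∈ Finset.univ.filter
      (fun σ : L₁ ≃ₐ[K] L₁ => σ ≠ 1), rmI q K L₁ σ) ≤
      rmIMax q K L + ∑ s ∈ Finset.univ.filter (fun s : L ≃ₐ[K] L => s ≠ 1), rmI q K L s := by
    -- split the sum over `s ≠ 1`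
    have hsplit : ∑ s ∈ Finset.univ.filter (fun s : L ≃ₐ[K] L => s ≠ 1), rmI q K L s =
        ∑ s ∈ Finset.univ.filter (fun s : L ≃ₐ[K] L => s ≠ 1 ∧ ρ s = 1), rmI q K L s +
        ∑ s ∈ Finset.univ.filter (fun s : L ≃ₐ[K] L => ρ s ≠ 1), rmI q K L s := by
      rw [← Finset.sum_filter_add_sum_filter_not (Finset.univ.filter (fun s : L ≃ₐ[K] L => s ≠ 1))
        (fun s => ρ s = 1)]
      congr 1
      · rw [Finset.filter_filter]
      · rw [Finset.filter_filter]
        refine Finset.sum_congr ?_ fun _ _ => rfl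
        ext s
        simp only [Finset.mem_filter, Finset.mem_univ, true_and]
        constructor
        · exact fun h => h.2
        · intro h
          refine ⟨?_, h⟩
          intro h1
          rw [h1, map_one] at h
          exact h rfl
    -- the sum over `ρ s ≠ 1` by fibres
    have hfib : ∑ s ∈ Finset.univ.filter (fun s : L ≃ₐ[K] L => ρ s ≠ 1), rmI q K L s =
        ∑ σ ∈ Finset.univ.filter (fun σ : L₁ ≃ₐ[K] L₁ => σ ≠ 1),
          lfRamIdx q L₁ L * rmI q K L₁ σ := by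
      rw [← Finset.sum_fiberwise_of_maps_to (s := Finset.univ.filter (fun s : L ≃ₐ[K] L => ρ s ≠ 1))
        (t := Finset.univ.filter (fun σ : L₁ ≃ₐ[K] L₁ => σ ≠ 1)) (g := ρ)
        (fun s hs => by
          simp only [Finset.mem_filter, Finset.mem_univ, true_and] at hs ⊢
          exact hs)]
      refine Finset.sum_congr rfl fun σ hσ => ?_
      have hσ1 : σ ≠ 1 := (Finset.mem_filter.mp hσ).2
      rw [hH σ hσ1, Finset.filter_filter]
      refine Finset.sum_congr ?_ fun _ _ => rfl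
      ext s
      simp only [Finset.mem_filter, Finset.mem_univ, true_and]
      constructor
      · exact fun h => h.2
      · intro h
        exact ⟨by rw [h]; exact hσ1, h⟩
    rw [mul_add, Finset.mul_sum, hsplit, hfib, ← add_assoc]
    refine Nat.add_le_add_right ?_ _
    -- key inequality
    by_cases hne : ∃ σ : L₁ ≃ₐ[K] L₁, σ ≠ 1
    · obtain ⟨σ, hσ1, hσmax⟩ := rm_exists_rmI_eq_rmIMax q K L₁ hne
      rw [← hσmax, hH σ hσ1]
      set F := Finset.univ.filter (fun s : L ≃ₐ[K] L => ρ s = σ) with hF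
      have hFne : F.Nonempty := by
        obtain ⟨s₀, hs₀⟩ := AlgEquiv.restrictNormalHom_surjective (F := K) (K₁ := L₁) L σ
        exact ⟨s₀, by simp [hF, hρ, hs₀]⟩
      obtain ⟨s₀, hs₀F, hs₀max⟩ := Finset.exists_max_image F (fun s => rmI q K L s) hFne
      have hρs₀ : ρ s₀ = σ := (Finset.mem_filter.mp hs₀F).2
      have hs₀1 : s₀ ≠ 1 := by
        intro h
        rw [h, map_one] at hρs₀
        exact hσ1 hρs₀.symm
      rw [← Finset.add_sum_erase F _ hs₀F]
      refine Nat.add_le_add (rmI_le_rmIMax q K L s₀ hs₀1) ?_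
      calc ∑ s ∈ F.erase s₀, rmI q K L s
          ≤ ∑ s ∈ F.erase s₀, rmI q K L (s₀⁻¹ * s) := by
            refine Finset.sum_le_sum fun s hs => ?_
            obtain ⟨hss₀, hsF⟩ := Finset.mem_erase.mp hs
            have hρs : ρ s = σ := (Finset.mem_filter.mp hsF).2
            have hs1 : s ≠ 1 := by
              intro h
              rw [h, map_one] at hρs
              exact hσ1 hρs.symm
            have h1 := rmI_mul_ge q K L s₀⁻¹ s (inv_ne_one.mpr hs₀1) hs1
              (by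
                intro h
                apply hss₀
                rw [inv_mul_eq_one] at h
                exact h.symm)
            rw [rmI_inv, min_eq_right (hs₀max s hsF)] at h1
            exact h1
        _ = ∑ u ∈ (F.erase s₀).image (fun s => s₀⁻¹ * s), rmI q K L u := by
            rw [Finset.sum_image]
            intro a _ b _ h
            exact mul_left_cancel h
        _ ≤ ∑ s ∈ Finset.univ.filter (fun s : L ≃ₐ[K] L => s ≠ 1 ∧ ρ s = 1), rmI q K L s := by
            refine Finset.sum_le_sum_of_subset ?_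
            intro u hu
            obtain ⟨s, hs, rfl⟩ := Finset.mem_image.mp hu
            obtain ⟨hss₀, hsF⟩ := Finset.mem_erase.mp hs
            have hρs : ρ s = σ := (Finset.mem_filter.mp hsF).2
            simp only [Finset.mem_filter, Finset.mem_univ, true_and]
            refine ⟨?_, by rw [map_mul, map_inv, hρs₀, hρs, inv_mul_cancel]⟩
            intro h
            apply hss₀
            rw [inv_mul_eq_one] at h
            exact h.symm
    · have h0 : rmIMax q K L₁ = 0 := by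
        unfold rmIMax
        have : {n : ℕ | ∃ s : L₁ ≃ₐ[K] L₁, s ≠ 1 ∧ rmI q K L₁ s = n} = ∅ := by
          ext n
          simp only [Set.mem_ofPred_eq, Set.mem_empty_iff_false, iff_false]
          rintro ⟨s, hs, -⟩
          exact hne ⟨s, hs⟩
        rw [this]
        exact csSup_empty
      rw [h0, mul_zero]
      exact Nat.zero_le _
  -- conclusion
  have he₁Q : (0 : ℚ) < (lfRamIdx q K L₁ : ℚ) := by exact_mod_cast he₁pos
  have he'Q : (0 : ℚ) < (lfRamIdx q L₁ L : ℚ) := by exact_mod_cast he'pos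
  have heQ : (lfRamIdx q K L : ℚ) = (lfRamIdx q K L₁ : ℚ) * (lfRamIdx q L₁ L : ℚ) := by
    rw [he]
    push_cast
    rfl
  rw [heQ, div_le_div_iff₀ he₁Q (mul_pos he₁Q he'Q)]
  have hmainQ : ((lfRamIdx q L₁ L * (rmIMax q K L₁ + ∑ σ ∈ Finset.univ.filter
      (fun σ : L₁ ≃ₐ[K] L₁ => σ ≠ 1), rmI q K L₁ σ) : ℕ) : ℚ) ≤
      ((rmIMax q K L + ∑ s ∈ Finset.univ.filter (fun s : L ≃ₐ[K] L => s ≠ 1), rmI q K L s : ℕ) : ℚ) := by
    exact_mod_cast hmain
  rw [Nat.cast_mul] at hmainQ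
  calc ((rmIMax q K L₁ + ∑ σ ∈ Finset.univ.filter (fun σ : L₁ ≃ₐ[K] L₁ => σ ≠ 1),
          rmI q K L₁ σ : ℕ) : ℚ) * ((lfRamIdx q K L₁ : ℚ) * (lfRamIdx q L₁ L : ℚ))
      = (lfRamIdx q K L₁ : ℚ) * ((lfRamIdx q L₁ L : ℚ) * ((rmIMax q K L₁ + ∑ σ ∈ Finset.univ.filter
          (fun σ : L₁ ≃ₐ[K] L₁ => σ ≠ 1), rmI q K L₁ σ : ℕ) : ℚ)) := by ring
    _ ≤ (lfRamIdx q K L₁ : ℚ) * ((rmIMax q K L + ∑ s ∈ Finset.univ.filter
          (fun s : L ≃ₐ[K] L => s ≠ 1), rmI q K L s : ℕ) : ℚ) :=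
        mul_le_mul_of_nonneg_left hmainQ he₁Q.le
    _ = ((rmIMax q K L + ∑ s ∈ Finset.univ.filter (fun s : L ≃ₐ[K] L => s ≠ 1),
          rmI q K L s : ℕ) : ℚ) * (lfRamIdx q K L₁ : ℚ) := by ring

end HB

end Fermat.Agent.S56
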