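/-
S56 / FLAT / RAM block (helper24): valuation toolbox on top of the S55 LOCAL API.

`RmGe q K m x` : `v_K(x) ≥ m` with the convention `v(0) = ∞` (the S55 `lfOrd` has the junk value
`lfOrd 0 = 0`).  Closed under sums, compatible with products; the "dominant term" lemma
`rm_ord_add_of_gt`; sums of terms with pairwise distinct valuations `rm_sum_distinct`.
-/
import Fermat.Agent.S56.Ram.Defs

set_option autoImplicit false
set_option linter.unusedSectionVars false

namespace Fermat.Agent.S56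

open Fermat.Agent.S55 Polynomial

section Val

variable (q : ℕ) [Fact q.Prime]
  (K : Type) [Field K] [Algebra ℚ_[q] K] [FiniteDimensional ℚ_[q] K]

/-- `v_K(x) ≥ m`, with `v(0) = ∞`. -/
def RmGe (m : ℤ) (x : K) : Prop := x = 0 ∨ m ≤ lfOrd q K x

variable {q K}

theorem rmGe_zero (m : ℤ) : RmGe q K m 0 := Or.inl rfl

theorem rmGe_iff_of_ne_zero {m : ℤ} {x : K} (hx : x ≠ 0) : RmGe q K m x ↔ m ≤ lfOrd q K x := by
  unfold RmGe
  constructor
  · rintro (h | h)
    · exact absurd h hx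
    · exact h
  · exact fun h => Or.inr h

theorem rmGe_of_le {m : ℤ} {x : K} (h : m ≤ lfOrd q K x) : RmGe q K m x := Or.inr h

theorem rmGe_self (x : K) : RmGe q K (lfOrd q K x) x := Or.inr le_rfl

theorem RmGe.le_ord {m : ℤ} {x : K} (h : RmGe q K m x) (hx : x ≠ 0) : m ≤ lfOrd q K x :=
  (rmGe_iff_of_ne_zero hx).mp h

theorem RmGe.mono {m m' : ℤ} {x : K} (h : RmGe q K m x) (hm : m' ≤ m) : RmGe q K m' x := by
  rcases h with h | h
  · exact Or.inl h
  · exact Or.inr (hm.trans h)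

theorem RmGe.add {m : ℤ} {x y : K} (hx : RmGe q K m x) (hy : RmGe q K m y) :
    RmGe q K m (x + y) := by
  by_cases hx0 : x = 0
  · rw [hx0, zero_add]; exact hy
  by_cases hy0 : y = 0
  · rw [hy0, add_zero]; exact hx
  by_cases hxy : x + y = 0
  · exact Or.inl hxy
  · refine Or.inr (le_trans ?_ (lfOrd_add_ge q K hx0 hy0 hxy))
    exact le_min (hx.le_ord hx0) (hy.le_ord hy0)

theorem RmGe.neg {m : ℤ} {x : K} (hx : RmGe q K m x) : RmGe q K m (-x) := by
  rcases hx with h | h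
  · exact Or.inl (by rw [h, neg_zero])
  · exact Or.inr (by rwa [lfOrd_neg])

theorem RmGe.sub {m : ℤ} {x y : K} (hx : RmGe q K m x) (hy : RmGe q K m y) :
    RmGe q K m (x - y) := by
  rw [sub_eq_add_neg]; exact hx.add hy.neg

theorem RmGe.mul {a b : ℤ} {x y : K} (hx : RmGe q K a x) (hy : RmGe q K b y) :
    RmGe q K (a + b) (x * y) := by
  by_cases hx0 : x = 0
  · rw [hx0, zero_mul]; exact rmGe_zero _
  by_cases hy0 : y = 0
  · rw [hy0, mul_zero]; exact rmGe_zero _
  refine Or.inr ?_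
  rw [lfOrd_mul q K hx0 hy0]
  exact add_le_add (hx.le_ord hx0) (hy.le_ord hy0)

theorem RmGe.pow {a : ℤ} {x : K} (hx : RmGe q K a x) (n : ℕ) : RmGe q K (n * a) (x ^ n) := by
  by_cases hx0 : x = 0
  · rcases Nat.eq_zero_or_pos n with hn | hn
    · subst hn
      refine Or.inr ?_
      rw [pow_zero, lfOrd_one]; simp
    · rw [hx0, zero_pow hn.ne']; exact rmGe_zero _
  · refine Or.inr ?_
    rw [lfOrd_pow]
    exact mul_le_mul_of_nonneg_left (hx.le_ord hx0) (by positivity)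

theorem RmGe.sum {ι : Type*} {m : ℤ} (s : Finset ι) (f : ι → K)
    (h : ∀ i ∈ s, RmGe q K m (f i)) : RmGe q K m (∑ i ∈ s, f i) := by
  classical
  induction s using Finset.induction_on with
  | empty => rw [Finset.sum_empty]; exact rmGe_zero _
  | insert a s ha ih =>
    rw [Finset.sum_insert ha]
    exact (h a (Finset.mem_insert_self a s)).add
      (ih (fun i hi => h i (Finset.mem_insert_of_mem hi)))

theorem rmGe_zero_iff_mem_lfInt {x : K} : RmGe q K 0 x ↔ x ∈ lfInt q K := by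
  by_cases hx : x = 0
  · rw [hx]
    exact ⟨fun _ => (lfInt q K).zero_mem, fun _ => rmGe_zero _⟩
  · rw [rmGe_iff_of_ne_zero hx, mem_lfInt_iff_lfOrd q K hx]

theorem RmGe.mul_int {a : ℤ} {x y : K} (hx : RmGe q K a x) (hy : y ∈ lfInt q K) :
    RmGe q K a (x * y) := by
  have := hx.mul (rmGe_zero_iff_mem_lfInt.mpr hy)
  rwa [add_zero] at this

theorem RmGe.int_mul {a : ℤ} {x y : K} (hy : y ∈ lfInt q K) (hx : RmGe q K a x) :
    RmGe q K a (y * x) := by
  rw [mul_comm]; exact hx.mul_int hy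

/-- DOMINANT TERM: if `v(y) > v(x)` then `v(x + y) = v(x)`. -/
theorem rm_ord_add_of_gt {x y : K} (hx : x ≠ 0) (hy : RmGe q K (lfOrd q K x + 1) y) :
    x + y ≠ 0 ∧ lfOrd q K (x + y) = lfOrd q K x := by
  by_cases hy0 : y = 0
  · rw [hy0, add_zero]; exact ⟨hx, rfl⟩
  have hlt : lfOrd q K x < lfOrd q K y := by
    have := hy.le_ord hy0
    omega
  have h := lfOrd_add_eq_of_lt q K hx hy0 hlt
  refine ⟨?_, h⟩
  intro h0
  have hyx : y = -x := by linear_combination h0
  rw [hyx, lfOrd_neg] at hlt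
  exact lt_irrefl _ hlt

/-- if `x ≠ 0` and `v(x) < m ≤ v(y)` then `x + y` is not `≥ m`. -/
theorem rm_not_rmGe_add {m : ℤ} {x y : K} (hx : x ≠ 0) (hxm : lfOrd q K x < m)
    (hy : RmGe q K m y) : ¬ RmGe q K m (x + y) := by
  intro h
  obtain ⟨h1, h2⟩ := rm_ord_add_of_gt (q := q) (K := K) hx (hy.mono (by omega))
  have := h.le_ord h1
  omega

/-- SUMS WITH PAIRWISE DISTINCT VALUATIONS: the sum is non-zero and its valuation is the minimum. -/
theorem rm_sum_distinct {ι : Type*} (s : Finset ι) (hs : s.Nonempty) (f : ι → K)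
    (hne : ∀ i ∈ s, f i ≠ 0)
    (hinj : ∀ i ∈ s, ∀ j ∈ s, lfOrd q K (f i) = lfOrd q K (f j) → i = j) :
    ∑ i ∈ s, f i ≠ 0 ∧ ∃ i ∈ s, lfOrd q K (∑ i ∈ s, f i) = lfOrd q K (f i) ∧
      ∀ j ∈ s, lfOrd q K (f i) ≤ lfOrd q K (f j) := by
  classical
  obtain ⟨i, hi, hmin⟩ := Finset.exists_min_image s (fun i => lfOrd q K (f i)) hs
  have hsplit : ∑ j ∈ s, f j = f i + ∑ j ∈ s.erase i, f j := by
    rw [Finset.add_sum_erase s f hi]
  have hrest : RmGe q K (lfOrd q K (f i) + 1) (∑ j ∈ s.erase i, f j) := by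
    apply RmGe.sum
    intro j hj
    have hjs : j ∈ s := Finset.mem_of_mem_erase hj
    have hji : j ≠ i := Finset.ne_of_mem_erase hj
    refine Or.inr ?_
    have h1 := hmin j hjs
    have h2 : lfOrd q K (f i) ≠ lfOrd q K (f j) := fun h => hji (hinj i hi j hjs h).symm
    omega
  obtain ⟨h1, h2⟩ := rm_ord_add_of_gt (q := q) (K := K) (hne i hi) hrest
  rw [hsplit]
  exact ⟨h1, i, hi, h2, hmin⟩

end Val

section ValTower

variable (q : ℕ) [Fact q.Prime]
  (K : Type) [Field K] [Algebra ℚ_[q] K] [FiniteDimensional ℚ_[q] K]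
  (L : Type) [Field L] [Algebra ℚ_[q] L] [FiniteDimensional ℚ_[q] L]
  [Algebra K L] [IsScalarTower ℚ_[q] K L]

variable {q K}

theorem RmGe.algebraMap {m : ℤ} {x : K} (hx : RmGe q K m x) :
    RmGe q L ((lfRamIdx q K L : ℤ) * m) (algebraMap K L x) := by
  rcases hx with h | h
  · exact Or.inl (by rw [h, map_zero])
  · refine Or.inr ?_
    rw [lfOrd_algebraMap]
    exact mul_le_mul_of_nonneg_left h (by positivity)

variable {L}

theorem RmGe.algEquiv {m : ℤ} {x : L} (hx : RmGe q L m x) (s : L ≃ₐ[K] L) :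
    RmGe q L m (s x) := by
  rcases hx with h | h
  · exact Or.inl (by rw [h, map_zero])
  · exact Or.inr (by rwa [lfOrd_algEquiv])

end ValTower

end Fermat.Agent.S56
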