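/-
S56 / FLAT / RAM block (helper24), leaf TR: totally ramified (Galois) extensions of local fields.
Statements VERBATIM from `Ram/Spec.lean`, section TR.
-/
import Fermat.Agent.S56.Ram.Val
import Fermat.Agent.S55.LocalRingTwo

set_option autoImplicit false
set_option linter.unusedSectionVars false
set_option linter.unusedVariables false

namespace Fermat.Agent.S56

open Fermat.Agent.S55 Polynomial

section TR

variable (q : ℕ) [Fact q.Prime]
  (K : Type) [Field K] [Algebra ℚ_[q] K] [FiniteDimensional ℚ_[q] K]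
  (L : Type) [Field L] [Algebra ℚ_[q] L] [FiniteDimensional ℚ_[q] L]
  [Algebra K L] [IsScalarTower ℚ_[q] K L]

/-- `e(L/K) = [L:K]` for a totally ramified extension. -/
theorem rm_ramIdx_eq_finrank (htr : LfTotRam q K L) : lfRamIdx q K L = Module.finrank K L := by
  have h := lfRamIdx_mul_lfInertiaDeg q K L
  unfold LfTotRam at htr
  rw [htr, mul_one] at h
  exact h

/-- valuation of `a π^i`. -/
theorem rm_tr_ord_term {π : L} (hπ : IsLfUniformizer q L π) {a : K} (ha : a ≠ 0) (i : ℕ) :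
    algebraMap K L a * π ^ i ≠ 0 ∧
      lfOrd q L (algebraMap K L a * π ^ i) = (lfRamIdx q K L : ℤ) * lfOrd q K a + i := by
  have hπ0 : π ≠ 0 := IsLfUniformizer.ne_zero q L hπ
  have ha' : algebraMap K L a ≠ 0 := lfv_algebraMap_ne_zero K L ha
  refine ⟨mul_ne_zero ha' (pow_ne_zero _ hπ0), ?_⟩
  rw [lfOrd_mul q L ha' (pow_ne_zero _ hπ0), lfOrd_algebraMap, lfOrd_pow]
  have : lfOrd q L π = 1 := hπ
  rw [this, mul_one]

/-- CORE: the elements `a_i π^i`, `i < e`, have pairwise distinct valuations. -/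
theorem rm_tr_core {π : L} (hπ : IsLfUniformizer q L π) (a : ℕ → K) (s : Finset ℕ)
    (hs : ∀ i ∈ s, i < lfRamIdx q K L) (hne : ∃ i ∈ s, a i ≠ 0) :
    ∑ i ∈ s, algebraMap K L (a i) * π ^ i ≠ 0 ∧
      ∃ i ∈ s, a i ≠ 0 ∧
        lfOrd q L (∑ i ∈ s, algebraMap K L (a i) * π ^ i) =
          (lfRamIdx q K L : ℤ) * lfOrd q K (a i) + i ∧
        ∀ j ∈ s, a j ≠ 0 →
          (lfRamIdx q K L : ℤ) * lfOrd q K (a i) + i ≤ (lfRamIdx q K L : ℤ) * lfOrd q K (a j) + j := by
  classical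
  set e := lfRamIdx q K L with he
  set t := s.filter (fun i => a i ≠ 0) with ht
  have hsum : ∑ i ∈ s, algebraMap K L (a i) * π ^ i = ∑ i ∈ t, algebraMap K L (a i) * π ^ i := by
    rw [ht, Finset.sum_filter]
    apply Finset.sum_congr rfl
    intro i _
    by_cases h : a i = 0
    · simp [h]
    · simp [h]
  have htne : t.Nonempty := by
    obtain ⟨i, hi, hai⟩ := hne
    exact ⟨i, Finset.mem_filter.mpr ⟨hi, hai⟩⟩
  have hmem : ∀ i ∈ t, i ∈ s ∧ a i ≠ 0 := fun i hi => Finset.mem_filter.mp hi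
  obtain ⟨h1, i, hi, h2, h3⟩ := rm_sum_distinct (q := q) (K := L) t htne
    (fun i => algebraMap K L (a i) * π ^ i)
    (fun i hi => (rm_tr_ord_term q K L hπ (hmem i hi).2 i).1)
    (by
      intro i hi j hj hij
      rw [(rm_tr_ord_term q K L hπ (hmem i hi).2 i).2,
        (rm_tr_ord_term q K L hπ (hmem j hj).2 j).2] at hij
      have hie := hs i (hmem i hi).1
      have hje := hs j (hmem j hj).1
      have h1 : ((e : ℤ) * lfOrd q K (a i) + i) % e = i := by
        rw [add_comm, Int.add_mul_emod_self_left]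
        exact Int.emod_eq_of_lt (by positivity) (by exact_mod_cast hie)
      have h2 : ((e : ℤ) * lfOrd q K (a j) + j) % e = j := by
        rw [add_comm, Int.add_mul_emod_self_left]
        exact Int.emod_eq_of_lt (by positivity) (by exact_mod_cast hje)
      rw [hij, h2] at h1
      exact_mod_cast h1.symm)
  rw [hsum]
  refine ⟨h1, i, (hmem i hi).1, (hmem i hi).2, ?_, ?_⟩
  · rw [h2, (rm_tr_ord_term q K L hπ (hmem i hi).2 i).2]
  · intro j hj haj
    have hjt : j ∈ t := Finset.mem_filter.mpr ⟨hj, haj⟩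
    have := h3 j hjt
    rwa [(rm_tr_ord_term q K L hπ (hmem i hi).2 i).2,
      (rm_tr_ord_term q K L hπ haj j).2] at this

/-- the powers `π^i`, `i < e`, are linearly independent over `K` (range form). -/
theorem rm_tr_linIndep {π : L} (hπ : IsLfUniformizer q L π) (a : ℕ → K)
    (h : ∑ i ∈ Finset.range (lfRamIdx q K L), algebraMap K L (a i) * π ^ i = 0) :
    ∀ i, i < lfRamIdx q K L → a i = 0 := by
  intro i hi
  by_contra hai
  exact (rm_tr_core q K L hπ a (Finset.range (lfRamIdx q K L))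
    (fun i hi => Finset.mem_range.mp hi) ⟨i, Finset.mem_range.mpr hi, hai⟩).1 h

/-- the truncated polynomial `Σ_{j<n} a_j X^j`. -/
noncomputable def rmTrunc (a : ℕ → K) (n : ℕ) : K[X] := ∑ j ∈ Finset.range n, C (a j) * X ^ j

theorem rmTrunc_coeff (a : ℕ → K) (n k : ℕ) :
    (rmTrunc K a n).coeff k = if k < n then a k else 0 := by
  unfold rmTrunc
  rw [Polynomial.finsetSum_coeff]
  simp only [coeff_C_mul_X_pow]
  rw [Finset.sum_ite_eq (Finset.range n) k (fun j => a j)]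
  simp only [Finset.mem_range]

theorem rmTrunc_natDegree_lt (a : ℕ → K) {n : ℕ} (hn : 0 < n) : (rmTrunc K a n).natDegree < n := by
  have h : (rmTrunc K a n).natDegree ≤ n - 1 := by
    unfold rmTrunc
    apply Polynomial.natDegree_sum_le_of_forall_le
    intro j hj
    have := Finset.mem_range.mp hj
    exact (natDegree_C_mul_X_pow_le (a j) j).trans (by omega)
  omega

theorem rmTrunc_aeval (a : ℕ → K) (n : ℕ) (x : L) :
    aeval x (rmTrunc K a n) = ∑ j ∈ Finset.range n, algebraMap K L (a j) * x ^ j := by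
  unfold rmTrunc
  rw [map_sum]
  apply Finset.sum_congr rfl
  intro j _
  rw [map_mul, aeval_C, map_pow, aeval_X]

/-- Fin-form of linear independence. -/
theorem rm_tr_linearIndependent (htr : LfTotRam q K L) {π : L} (hπ : IsLfUniformizer q L π) :
    LinearIndependent K (fun i : Fin (Module.finrank K L) => π ^ (i : ℕ)) := by
  have he := rm_ramIdx_eq_finrank q K L htr
  rw [Fintype.linearIndependent_iff]
  intro g hg i
  let a : ℕ → K := fun j => if h : j < Module.finrank K L then g ⟨j, h⟩ else 0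
  have ha : ∀ i : Fin (Module.finrank K L), a i = g i := fun i => by
    simp only [a, dif_pos i.2, Fin.eta]
  have h1 : ∑ j ∈ Finset.range (Module.finrank K L), algebraMap K L (a j) * π ^ j = 0 := by
    rw [← Fin.sum_univ_eq_sum_range (fun j => algebraMap K L (a j) * π ^ j) (Module.finrank K L),
      ← hg]
    apply Finset.sum_congr rfl
    intro i _
    rw [ha i, Algebra.smul_def]
  rw [← he] at h1
  have := rm_tr_linIndep q K L hπ a h1 i (by rw [he]; exact i.2)
  rw [← ha i]; exact this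

/-- every `z ∈ L` is `Σ_{j<n} a_j π^j` with `a_j ∈ K`. -/
theorem rm_tr_exists_repr (htr : LfTotRam q K L) {π : L} (hπ : IsLfUniformizer q L π) (z : L) :
    ∃ a : ℕ → K, z = ∑ j ∈ Finset.range (Module.finrank K L), algebraMap K L (a j) * π ^ j := by
  have hfd : FiniteDimensional K L := FiniteDimensional.right ℚ_[q] K L
  have hnon : Nonempty (Fin (Module.finrank K L)) := ⟨⟨0, Module.finrank_pos⟩⟩
  have hli := rm_tr_linearIndependent q K L htr hπ
  have hB : ∀ i, (basisOfLinearIndependentOfCardEqFinrank hli (by rw [Fintype.card_fin])) i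
      = π ^ (i : ℕ) := fun i => by
    rw [coe_basisOfLinearIndependentOfCardEqFinrank]
  generalize basisOfLinearIndependentOfCardEqFinrank hli (by rw [Fintype.card_fin]) = B at hB
  let a : ℕ → K := fun j => if h : j < Module.finrank K L then B.repr z ⟨j, h⟩ else 0
  have ha : ∀ i : Fin (Module.finrank K L), a i = B.repr z i := fun i => by
    simp only [a, dif_pos i.2, Fin.eta]
  refine ⟨a, ?_⟩
  rw [← Fin.sum_univ_eq_sum_range (fun j => algebraMap K L (a j) * π ^ j) (Module.finrank K L)]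
  conv_lhs => rw [← B.sum_repr z]
  apply Finset.sum_congr rfl
  intro i _
  rw [ha i, Algebra.smul_def, hB i]

/-- coefficients of an integer are integers. -/
theorem rm_tr_coeff_int (htr : LfTotRam q K L) {π : L} (hπ : IsLfUniformizer q L π) (a : ℕ → K)
    (hz : ∑ j ∈ Finset.range (Module.finrank K L), algebraMap K L (a j) * π ^ j ∈ lfInt q L)
    (j : ℕ) (hj : j < Module.finrank K L) : a j ∈ lfInt q K := by
  have he := rm_ramIdx_eq_finrank q K L htr
  by_cases haj : a j = 0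
  · rw [haj]; exact (lfInt q K).zero_mem
  rw [← he] at hz hj
  obtain ⟨h1, i, hi, hai, h2, h3⟩ := rm_tr_core q K L hπ a (Finset.range (lfRamIdx q K L))
    (fun i hi => Finset.mem_range.mp hi) ⟨j, Finset.mem_range.mpr hj, haj⟩
  have h4 := (mem_lfInt_iff_lfOrd q L h1).mp hz
  have h5 := h3 j (Finset.mem_range.mpr hj) haj
  rw [mem_lfInt_iff_lfOrd q K haj]
  by_contra hneg
  rw [not_le] at hneg
  have h6 : (lfRamIdx q K L : ℤ) * lfOrd q K (a j) ≤ (lfRamIdx q K L : ℤ) * (-1) :=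
    mul_le_mul_of_nonneg_left (by omega) (by positivity)
  have h7 : (j : ℤ) < (lfRamIdx q K L : ℤ) := by exact_mod_cast hj
  omega

/-- a uniformizer of a totally ramified extension generates the ring of integers, with a
representation of degree `< [L:K]`. -/
theorem rm_uniformizer_gen (htr : LfTotRam q K L) {π : L} (hπ : IsLfUniformizer q L π)
    (z : L) (hz : z ∈ lfInt q L) :
    ∃ g : K[X], (∀ n, g.coeff n ∈ lfInt q K) ∧ g.natDegree < Module.finrank K L ∧
      aeval π g = z := by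
  have hfd : FiniteDimensional K L := FiniteDimensional.right ℚ_[q] K L
  obtain ⟨a, ha⟩ := rm_tr_exists_repr q K L htr hπ z
  refine ⟨rmTrunc K a (Module.finrank K L), ?_, rmTrunc_natDegree_lt K a Module.finrank_pos, ?_⟩
  · intro k
    rw [rmTrunc_coeff]
    split_ifs with hk
    · exact rm_tr_coeff_int q K L htr hπ a (ha ▸ hz) k hk
    · exact (lfInt q K).zero_mem
  · rw [rmTrunc_aeval, ← ha]

theorem rm_rmGen_uniformizer (htr : LfTotRam q K L) {π : L} (hπ : IsLfUniformizer q L π) :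
    RmGen q K L π := by
  refine ⟨lro_uniformizer_mem q L hπ, fun z hz => ?_⟩
  obtain ⟨g, hg1, _, hg2⟩ := rm_uniformizer_gen q K L htr hπ z hz
  exact ⟨g, hg1, hg2⟩

/-- the minimal polynomial of a uniformizer is an Eisenstein polynomial of degree `[L:K]`. -/
theorem rm_minpoly_uniformizer (htr : LfTotRam q K L) {π : L} (hπ : IsLfUniformizer q L π) :
    (minpoly K π).natDegree = Module.finrank K L ∧
      (∀ n, n < Module.finrank K L → (minpoly K π).coeff n ∈ lfInt q K ∧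
        ((minpoly K π).coeff n = 0 ∨ 0 < lfOrd q K ((minpoly K π).coeff n))) ∧
      lfOrd q K ((minpoly K π).coeff 0) = 1 ∧ (minpoly K π).coeff 0 ≠ 0 := by
  have hfd : FiniteDimensional K L := FiniteDimensional.right ℚ_[q] K L
  have he := rm_ramIdx_eq_finrank q K L htr
  have hint : IsIntegral K π := Algebra.IsIntegral.isIntegral π
  have hπ0 : π ≠ 0 := IsLfUniformizer.ne_zero q L hπ
  have hπ1 : lfOrd q L π = 1 := hπ
  have hmonic := minpoly.monic hint
  have hle : (minpoly K π).natDegree ≤ Module.finrank K L := minpoly.natDegree_le π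
  have haev : ∑ i ∈ Finset.range ((minpoly K π).natDegree + 1),
      algebraMap K L ((minpoly K π).coeff i) * π ^ i = 0 := by
    have h := minpoly.aeval K π
    rw [aeval_eq_sum_range] at h
    rw [← h]
    apply Finset.sum_congr rfl
    intro i _
    rw [Algebra.smul_def]
  have hdeg : (minpoly K π).natDegree = Module.finrank K L := by
    by_contra hne
    have hlt : (minpoly K π).natDegree < lfRamIdx q K L := by
      rw [he]; exact lt_of_le_of_ne hle hne
    exact (rm_tr_core q K L hπ (minpoly K π).coeff (Finset.range ((minpoly K π).natDegree + 1))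
      (fun i hi => by have := Finset.mem_range.mp hi; omega)
      ⟨(minpoly K π).natDegree, Finset.mem_range.mpr (Nat.lt_succ_self _), by
        rw [coeff_natDegree, hmonic.leadingCoeff]; exact one_ne_zero⟩).1 haev
  rw [hdeg, ← he, Finset.sum_range_succ] at haev
  have hlead : (minpoly K π).coeff (lfRamIdx q K L) = 1 := by
    rw [he, ← hdeg, coeff_natDegree, hmonic.leadingCoeff]
  rw [hlead, map_one, one_mul] at haev
  have hS : ∑ i ∈ Finset.range (lfRamIdx q K L),
      algebraMap K L ((minpoly K π).coeff i) * π ^ i = - π ^ (lfRamIdx q K L) := by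
    linear_combination haev
  have hne : ∃ i ∈ Finset.range (lfRamIdx q K L), (minpoly K π).coeff i ≠ 0 := by
    by_contra hcon
    push Not at hcon
    rw [Finset.sum_eq_zero (fun i hi => by rw [hcon i hi, map_zero, zero_mul])] at hS
    exact pow_ne_zero _ hπ0 (neg_eq_zero.mp hS.symm)
  obtain ⟨h1, i, hi, hci, h2, h3⟩ := rm_tr_core q K L hπ (minpoly K π).coeff
    (Finset.range (lfRamIdx q K L)) (fun i hi => Finset.mem_range.mp hi) hne
  rw [hS, lfOrd_neg, lfOrd_pow, hπ1, mul_one] at h2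
  have hie : i < lfRamIdx q K L := Finset.mem_range.mp hi
  have hepos : 0 < lfRamIdx q K L := lfRamIdx_pos q K L
  have hi0 : i = 0 := by
    have h4 : ((lfRamIdx q K L : ℤ) * lfOrd q K ((minpoly K π).coeff i) + i) % (lfRamIdx q K L) = i := by
      rw [add_comm, Int.add_mul_emod_self_left]
      exact Int.emod_eq_of_lt (by positivity) (by exact_mod_cast hie)
    rw [← h2, Int.emod_self] at h4
    exact_mod_cast h4.symm
  subst hi0
  have hv0 : lfOrd q K ((minpoly K π).coeff 0) = 1 := by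
    have h5 : (lfRamIdx q K L : ℤ) * lfOrd q K ((minpoly K π).coeff 0) = (lfRamIdx q K L : ℤ) * 1 := by
      rw [mul_one]; simpa using h2.symm
    exact mul_left_cancel₀ (by exact_mod_cast hepos.ne') h5
  refine ⟨hdeg, ?_, hv0, hci⟩
  intro j hj
  rw [← he] at hj
  by_cases hcj : (minpoly K π).coeff j = 0
  · rw [hcj]; exact ⟨(lfInt q K).zero_mem, Or.inl rfl⟩
  have h6 := h3 j (Finset.mem_range.mpr hj) hcj
  rw [hv0] at h6
  have hpos : 0 < lfOrd q K ((minpoly K π).coeff j) := by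
    by_contra hneg
    rw [not_lt] at hneg
    have h7 : (lfRamIdx q K L : ℤ) * lfOrd q K ((minpoly K π).coeff j) ≤ (lfRamIdx q K L : ℤ) * 0 :=
      mul_le_mul_of_nonneg_left hneg (by positivity)
    have h8 : (j : ℤ) < (lfRamIdx q K L : ℤ) := by exact_mod_cast hj
    simp only [Nat.cast_zero, add_zero, mul_one, mul_zero] at h6 h7
    omega
  exact ⟨(mem_lfInt_iff_lfOrd q K hcj).mpr hpos.le, Or.inr hpos⟩

/-- a root `y` (in any finite extension `E` of `K`) of an Eisenstein-shaped polynomial of degree `n`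
has `n · v_E(y) = e(E/K)`; in particular `n ≤ e(E/K)`. -/
theorem rm_eisenstein_root (E : Type) [Field E] [Algebra ℚ_[q] E] [FiniteDimensional ℚ_[q] E]
    [Algebra K E] [IsScalarTower ℚ_[q] K E] (Q : K[X]) (hQ : Q.Monic) (hdeg : 0 < Q.natDegree)
    (hcoeff : ∀ n, n < Q.natDegree → Q.coeff n = 0 ∨ 0 < lfOrd q K (Q.coeff n))
    (h0 : lfOrd q K (Q.coeff 0) = 1) (h00 : Q.coeff 0 ≠ 0) (y : E) (hy : aeval y Q = 0) :
    y ≠ 0 ∧ (Q.natDegree : ℤ) * lfOrd q E y = (lfRamIdx q K E : ℤ) := by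
  have hy0 : y ≠ 0 := by
    intro h
    rw [h, ← coeff_zero_eq_aeval_zero'] at hy
    exact lfv_algebraMap_ne_zero K E h00 hy
  refine ⟨hy0, ?_⟩
  obtain ⟨m, hm⟩ : ∃ m, Q.natDegree = m + 1 := ⟨Q.natDegree - 1, by omega⟩
  have hepos : (1 : ℤ) ≤ (lfRamIdx q K E : ℤ) := by exact_mod_cast lfRamIdx_pos q K E
  -- the terms
  have hterm : ∀ i, i < Q.natDegree → ∀ M : ℤ,
      M ≤ (lfRamIdx q K E : ℤ) + i * lfOrd q E y →
      RmGe q E M (algebraMap K E (Q.coeff i) * y ^ i) := by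
    intro i hi M hM
    rcases hcoeff i hi with hc | hc
    · rw [hc, map_zero, zero_mul]; exact rmGe_zero _
    · have hc0 : Q.coeff i ≠ 0 := by
        intro h; rw [h, lfOrd_zero] at hc; exact lt_irrefl _ hc
      refine Or.inr ?_
      rw [lfOrd_mul q E (lfv_algebraMap_ne_zero K E hc0) (pow_ne_zero _ hy0), lfOrd_algebraMap,
        lfOrd_pow]
      have : (lfRamIdx q K E : ℤ) * 1 ≤ (lfRamIdx q K E : ℤ) * lfOrd q K (Q.coeff i) :=
        mul_le_mul_of_nonneg_left (by omega) (by positivity)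
      omega
  have haev : ∑ i ∈ Finset.range (Q.natDegree),
      algebraMap K E (Q.coeff i) * y ^ i + y ^ Q.natDegree = 0 := by
    have h := hy
    rw [aeval_eq_sum_range, Finset.sum_range_succ, coeff_natDegree, hQ.leadingCoeff, one_smul] at h
    rw [← h]
    congr 1
    apply Finset.sum_congr rfl
    intro i _
    rw [Algebra.smul_def]
  -- Step A : `v(y) ≥ 1`
  have hw : 1 ≤ lfOrd q E y := by
    by_contra hneg
    rw [not_le] at hneg
    have hS : RmGe q E ((Q.natDegree : ℤ) * lfOrd q E y + 1)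
        (∑ i ∈ Finset.range (Q.natDegree), algebraMap K E (Q.coeff i) * y ^ i) := by
      apply RmGe.sum
      intro i hi
      have hi' := Finset.mem_range.mp hi
      apply hterm i hi'
      have h1 : ((Q.natDegree : ℤ) - i) * lfOrd q E y ≤ 0 :=
        mul_nonpos_of_nonneg_of_nonpos (by
          have : (i : ℤ) < (Q.natDegree : ℤ) := by exact_mod_cast hi'
          omega) (by omega)
      nlinarith
    have hyn : y ^ Q.natDegree = - ∑ i ∈ Finset.range (Q.natDegree),
        algebraMap K E (Q.coeff i) * y ^ i := by linear_combination haev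
    have h2 := hS.neg
    rw [← hyn] at h2
    have h3 := h2.le_ord (pow_ne_zero _ hy0)
    rw [lfOrd_pow] at h3
    omega
  -- Step B
  rw [hm, Finset.sum_range_succ'] at haev
  have hT : RmGe q E (lfOrd q E (algebraMap K E (Q.coeff 0)) + 1)
      (∑ i ∈ Finset.range m, algebraMap K E (Q.coeff (i + 1)) * y ^ (i + 1)) := by
    apply RmGe.sum
    intro i hi
    have hi' := Finset.mem_range.mp hi
    apply hterm (i + 1) (by omega)
    rw [lfOrd_algebraMap, h0, mul_one]
    have : (1 : ℤ) * 1 ≤ ((i + 1 : ℕ) : ℤ) * lfOrd q E y :=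
      mul_le_mul (by exact_mod_cast Nat.succ_le_succ (Nat.zero_le i)) hw (by norm_num)
        (by positivity)
    omega
  obtain ⟨h4, h5⟩ := rm_ord_add_of_gt (q := q) (K := E) (lfv_algebraMap_ne_zero K E h00) hT
  have hyn : y ^ (m + 1) = - (algebraMap K E (Q.coeff 0) +
      ∑ i ∈ Finset.range m, algebraMap K E (Q.coeff (i + 1)) * y ^ (i + 1)) := by
    simp only [pow_zero, mul_one] at haev
    linear_combination haev
  have h6 : lfOrd q E (y ^ (m + 1)) = lfOrd q E (algebraMap K E (Q.coeff 0)) := by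
    rw [hyn, lfOrd_neg, h5]
  rw [lfOrd_pow, lfOrd_algebraMap, h0, mul_one] at h6
  rw [hm]; exact h6

/-- every non-trivial automorphism moves an integer. -/
theorem rm_exists_moved (s : L ≃ₐ[K] L) (hs : s ≠ 1) : ∃ y : L, y ∈ lfInt q L ∧ s y ≠ y := by
  have h1 : ∃ z : L, s z ≠ z := by
    by_contra hcon
    push Not at hcon
    exact hs (AlgEquiv.ext hcon)
  obtain ⟨z, hz⟩ := h1
  rcases (lfInt q L).mem_or_inv_mem z with h | h
  · exact ⟨z, h, hz⟩
  · refine ⟨z⁻¹, h, ?_⟩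
    rw [map_inv₀]
    intro h2
    exact hz (inv_injective h2)

/-- `g(a) - g(b)` is divisible by `a - b` (valuation form). -/
theorem rm_aeval_sub (g : K[X]) (hg : ∀ n, g.coeff n ∈ lfInt q K) {a b : L}
    (ha : a ∈ lfInt q L) (hb : b ∈ lfInt q L) {m : ℤ} (h : RmGe q L m (a - b)) :
    RmGe q L m (aeval a g - aeval b g) := by
  rw [aeval_eq_sum_range, aeval_eq_sum_range, ← Finset.sum_sub_distrib]
  apply RmGe.sum
  intro i _
  rw [← smul_sub, Algebra.smul_def]
  apply RmGe.int_mul (algebraMap_mem_lfInt q K L (hg i))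
  rw [← geom_sum₂_mul]
  apply RmGe.int_mul _ h
  apply Subring.sum_mem
  intro j _
  exact mul_mem (pow_mem ha _) (pow_mem hb _)

theorem rm_sub_mem_lfInt (s : L ≃ₐ[K] L) {y : L} (hy : y ∈ lfInt q L) : s y - y ∈ lfInt q L :=
  (lfInt q L).sub_mem (algEquiv_mem_lfInt q K L s hy) hy

theorem rm_mem_rmI_set (s : L ≃ₐ[K] L) {y : L} (hy : y ∈ lfInt q L) (hsy : s y ≠ y) :
    (lfOrd q L (s y - y)).toNat ∈
      {n : ℕ | ∃ y : L, y ∈ lfInt q L ∧ s y ≠ y ∧ lfOrd q L (s y - y) = (n : ℤ)} := by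
  refine ⟨y, hy, hsy, ?_⟩
  have h0 : 0 ≤ lfOrd q L (s y - y) :=
    (mem_lfInt_iff_lfOrd q L (sub_ne_zero.mpr hsy)).mp (rm_sub_mem_lfInt q K L s hy)
  omega

variable [IsGalois K L]

/-- `i_G(s)` is computed on a uniformizer. -/
theorem rmI_eq_uniformizer (htr : LfTotRam q K L) {π : L} (hπ : IsLfUniformizer q L π)
    (s : L ≃ₐ[K] L) (hs : s ≠ 1) :
    s π ≠ π ∧ (rmI q K L s : ℤ) = lfOrd q L (s π - π) := by
  have hπint : π ∈ lfInt q L := lro_uniformizer_mem q L hπ
  have hmove : s π ≠ π := by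
    intro h
    obtain ⟨y, hy, hsy⟩ := rm_exists_moved q K L s hs
    obtain ⟨g, _, _, hg⟩ := rm_uniformizer_gen q K L htr hπ y hy
    apply hsy
    rw [← hg, ← aeval_algHom_apply, h]
  refine ⟨hmove, ?_⟩
  have hmem := rm_mem_rmI_set q K L s hπint hmove
  have h0 : 0 ≤ lfOrd q L (s π - π) :=
    (mem_lfInt_iff_lfOrd q L (sub_ne_zero.mpr hmove)).mp (rm_sub_mem_lfInt q K L s hπint)
  have hle : rmI q K L s ≤ (lfOrd q L (s π - π)).toNat := Nat.sInf_le hmem
  have hge : (lfOrd q L (s π - π)).toNat ≤ rmI q K L s := by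
    obtain ⟨y, hy, hsy, hn⟩ := Nat.sInf_mem (⟨_, hmem⟩ : Set.Nonempty
      {n : ℕ | ∃ y : L, y ∈ lfInt q L ∧ s y ≠ y ∧ lfOrd q L (s y - y) = (n : ℤ)})
    obtain ⟨g, hg1, _, hg⟩ := rm_uniformizer_gen q K L htr hπ y hy
    have h1 := rm_aeval_sub q K L g hg1 (algEquiv_mem_lfInt q K L s hπint) hπint
      (rmGe_self (q := q) (K := L) (s π - π))
    rw [hg, aeval_algHom_apply, hg] at h1
    have h2 := h1.le_ord (sub_ne_zero.mpr hsy)
    have h3 : (rmI q K L s : ℤ) = lfOrd q L (s y - y) := hn.symm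
    omega
  omega

/-- `v_L(s y - y) ≥ i_G(s)` for every integer `y` moved by `s`. -/
theorem rmI_le (s : L ≃ₐ[K] L) {y : L} (hy : y ∈ lfInt q L) (hsy : s y ≠ y) :
    (rmI q K L s : ℤ) ≤ lfOrd q L (s y - y) := by
  have hmem := rm_mem_rmI_set q K L s hy hsy
  have h0 : 0 ≤ lfOrd q L (s y - y) :=
    (mem_lfInt_iff_lfOrd q L (sub_ne_zero.mpr hsy)).mp (rm_sub_mem_lfInt q K L s hy)
  have hle : rmI q K L s ≤ (lfOrd q L (s y - y)).toNat := Nat.sInf_le hmem
  omega

/-- `RmGe`-form of `rmI_le` (no hypothesis `s y ≠ y`). -/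
theorem rmI_rmGe (s : L ≃ₐ[K] L) {y : L} (hy : y ∈ lfInt q L) :
    RmGe q L (rmI q K L s : ℤ) (s y - y) := by
  by_cases hsy : s y = y
  · rw [hsy, sub_self]; exact rmGe_zero _
  · exact Or.inr (rmI_le q K L s hy hsy)

theorem rmI_pos (htr : LfTotRam q K L) (s : L ≃ₐ[K] L) (hs : s ≠ 1) : 1 ≤ rmI q K L s := by
  obtain ⟨π, hπ⟩ := exists_isLfUniformizer q L
  obtain ⟨h1, h2⟩ := rmI_eq_uniformizer q K L htr hπ s hs
  have hπ1 : lfOrd q L π = 1 := hπ
  have h3 : RmGe q L 1 (s π - π) := by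
    apply RmGe.sub
    · exact Or.inr (by rw [lfOrd_algEquiv, hπ1])
    · exact Or.inr (by rw [hπ1])
  have h4 := h3.le_ord (sub_ne_zero.mpr h1)
  omega

/-- integral case of `rm_ord_sub_ge`, in `RmGe` form. -/
theorem rm_ord_sub_ge_int (htr : LfTotRam q K L) (s : L ≃ₐ[K] L) (hs : s ≠ 1) {z : L} (hz : z ≠ 0)
    (hz0 : 0 ≤ lfOrd q L z) :
    RmGe q L (lfOrd q L z + (rmI q K L s : ℤ) - 1) (s z - z) := by
  obtain ⟨π, hπ⟩ := exists_isLfUniformizer q L
  have hπ0 : π ≠ 0 := IsLfUniformizer.ne_zero q L hπ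
  have hπ1 : lfOrd q L π = 1 := hπ
  obtain ⟨hmove, hI⟩ := rmI_eq_uniformizer q K L htr hπ s hs
  obtain ⟨u, hu, hzu⟩ := exists_unit_mul_zpow q L hπ hz
  obtain ⟨k, hk⟩ : ∃ k : ℕ, lfOrd q L z = (k : ℤ) := ⟨(lfOrd q L z).toNat, by omega⟩
  rw [hk, zpow_natCast] at hzu
  rw [mem_lfUnits_iff] at hu
  have huint : (u : L) ∈ lfInt q L := by
    rw [mem_lfInt_iff_lfOrd q L u.ne_zero, hu]
  have hsplit : s z - z = (s (u : L) - u) * (s π) ^ k + (u : L) * ((s π) ^ k - π ^ k) := by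
    rw [hzu, map_mul, map_pow]; ring
  rw [hsplit, hk]
  apply RmGe.add
  · have h1 := (rmI_rmGe q K L s huint).mul
      (RmGe.pow (rmGe_of_le (by rw [lfOrd_algEquiv, hπ1]) : RmGe q L 1 (s π)) k)
    exact h1.mono (by omega)
  · apply RmGe.int_mul huint
    rw [← geom_sum₂_mul]
    rcases Nat.eq_zero_or_pos k with hk0 | hk0
    · subst hk0
      rw [Finset.range_zero, Finset.sum_empty, zero_mul]; exact rmGe_zero _
    have h2 : RmGe q L ((k : ℤ) - 1) (∑ j ∈ Finset.range k, (s π) ^ j * π ^ (k - 1 - j)) := by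
      apply RmGe.sum
      intro j hj
      have hj' := Finset.mem_range.mp hj
      have h3 := (RmGe.pow (rmGe_of_le (by rw [lfOrd_algEquiv, hπ1]) : RmGe q L 1 (s π)) j).mul
        (RmGe.pow (rmGe_of_le (by rw [hπ1]) : RmGe q L 1 π) (k - 1 - j))
      refine h3.mono ?_
      have : ((k - 1 - j : ℕ) : ℤ) = (k : ℤ) - 1 - j := by omega
      rw [this]; omega
    have h4 := h2.mul (rmGe_self (q := q) (K := L) (s π - π))
    rw [← hI] at h4
    exact h4.mono (by omega)

/-- in a totally ramified extension, `v_L(s z - z) ≥ v_L(z) + i_G(s) - 1` for all `z ≠ 0`. -/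
theorem rm_ord_sub_ge (htr : LfTotRam q K L) (s : L ≃ₐ[K] L) (hs : s ≠ 1) {z : L} (hz : z ≠ 0)
    (hsz : s z ≠ z) : lfOrd q L z + (rmI q K L s : ℤ) - 1 ≤ lfOrd q L (s z - z) := by
  rcases le_or_gt 0 (lfOrd q L z) with h0 | h0
  · exact (rm_ord_sub_ge_int q K L htr s hs hz h0).le_ord (sub_ne_zero.mpr hsz)
  · have hzi : z⁻¹ ≠ 0 := inv_ne_zero hz
    have hsz0 : s z ≠ 0 := (map_ne_zero s).mpr hz
    have h1 := rm_ord_sub_ge_int q K L htr s hs hzi (by rw [lfOrd_inv]; omega)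
    have h2 : s z - z = - ((s z⁻¹ - z⁻¹) * (z * s z)) := by
      rw [map_inv₀]; field_simp; ring
    have h3 : s z⁻¹ - z⁻¹ ≠ 0 := by
      intro h
      rw [h, zero_mul, neg_zero] at h2
      exact hsz (sub_eq_zero.mp h2)
    have h4 := h1.le_ord h3
    rw [h2, lfOrd_neg, lfOrd_mul q L h3 (mul_ne_zero hz hsz0), lfOrd_mul q L hz hsz0,
      lfOrd_algEquiv]
    rw [lfOrd_inv] at h4
    omega

theorem rmI_set_inv_subset (s : L ≃ₐ[K] L) :
    {n : ℕ | ∃ y : L, y ∈ lfInt q L ∧ s⁻¹ y ≠ y ∧ lfOrd q L (s⁻¹ y - y) = (n : ℤ)} ⊆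
      {n : ℕ | ∃ y : L, y ∈ lfInt q L ∧ s y ≠ y ∧ lfOrd q L (s y - y) = (n : ℤ)} := by
  rintro n ⟨y, hy, hsy, hn⟩
  have h1 : s (s⁻¹ y) = y := by
    rw [← AlgEquiv.mul_apply, mul_inv_cancel, AlgEquiv.one_apply]
  refine ⟨s⁻¹ y, algEquiv_mem_lfInt q K L s⁻¹ hy, ?_, ?_⟩
  · rw [h1]; exact fun h => hsy h.symm
  · rw [h1, ← hn, ← lfOrd_neg, neg_sub]

theorem rmI_inv (s : L ≃ₐ[K] L) : rmI q K L s⁻¹ = rmI q K L s := by
  unfold rmI
  congr 1
  apply Set.Subset.antisymm (rmI_set_inv_subset q K L s)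
  have := rmI_set_inv_subset q K L s⁻¹
  rwa [inv_inv] at this

theorem rmI_set_conj_subset (s t : L ≃ₐ[K] L) :
    {n : ℕ | ∃ y : L, y ∈ lfInt q L ∧ (t * s * t⁻¹) y ≠ y ∧
        lfOrd q L ((t * s * t⁻¹) y - y) = (n : ℤ)} ⊆
      {n : ℕ | ∃ y : L, y ∈ lfInt q L ∧ s y ≠ y ∧ lfOrd q L (s y - y) = (n : ℤ)} := by
  rintro n ⟨y, hy, hsy, hn⟩
  have h1 : (t * s * t⁻¹) y - y = t (s (t⁻¹ y) - t⁻¹ y) := by
    have h2 : t (t⁻¹ y) = y := by
      rw [← AlgEquiv.mul_apply, mul_inv_cancel, AlgEquiv.one_apply]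
    rw [map_sub, h2, AlgEquiv.mul_apply, AlgEquiv.mul_apply]
  refine ⟨t⁻¹ y, algEquiv_mem_lfInt q K L t⁻¹ hy, ?_, ?_⟩
  · intro h
    rw [h, sub_self, map_zero] at h1
    exact hsy (sub_eq_zero.mp h1)
  · rw [← hn, h1, lfOrd_algEquiv]

theorem rmI_conj (s t : L ≃ₐ[K] L) : rmI q K L (t * s * t⁻¹) = rmI q K L s := by
  unfold rmI
  congr 1
  apply Set.Subset.antisymm (rmI_set_conj_subset q K L s t)
  have := rmI_set_conj_subset q K L (t * s * t⁻¹) t⁻¹
  have h2 : t⁻¹ * (t * s * t⁻¹) * t⁻¹⁻¹ = s := by group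
  rwa [h2] at this

/-- ultrametric inequality for `i_G`. -/
theorem rmI_mul_ge (s t : L ≃ₐ[K] L) (hs : s ≠ 1) (ht : t ≠ 1) (hst : s * t ≠ 1) :
    min (rmI q K L s) (rmI q K L t) ≤ rmI q K L (s * t) := by
  obtain ⟨y0, hy0, hsy0⟩ := rm_exists_moved q K L (s * t) hst
  obtain ⟨y, hy, hsy, hn⟩ := Nat.sInf_mem (⟨_, rm_mem_rmI_set q K L (s * t) hy0 hsy0⟩ :
    Set.Nonempty {n : ℕ | ∃ y : L, y ∈ lfInt q L ∧ (s * t) y ≠ y ∧
      lfOrd q L ((s * t) y - y) = (n : ℤ)})
  have hn' : lfOrd q L ((s * t) y - y) = (rmI q K L (s * t) : ℤ) := hn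
  have hty : t y ∈ lfInt q L := algEquiv_mem_lfInt q K L t hy
  have h1 : RmGe q L ((min (rmI q K L s) (rmI q K L t) : ℕ) : ℤ) ((s * t) y - y) := by
    have hsplit : (s * t) y - y = (s (t y) - t y) + (t y - y) := by
      rw [AlgEquiv.mul_apply]; ring
    rw [hsplit]
    apply RmGe.add
    · exact (rmI_rmGe q K L s hty).mono (by exact_mod_cast min_le_left _ _)
    · exact (rmI_rmGe q K L t hy).mono (by exact_mod_cast min_le_right _ _)
  have h2 := h1.le_ord (sub_ne_zero.mpr hsy)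
  rw [hn'] at h2
  exact_mod_cast h2

theorem rmIMax_set_bddAbove :
    BddAbove {n : ℕ | ∃ s : L ≃ₐ[K] L, s ≠ 1 ∧ rmI q K L s = n} := by
  have hfd : FiniteDimensional K L := FiniteDimensional.right ℚ_[q] K L
  have hfin : Finite (L ≃ₐ[K] L) := inferInstance
  apply Set.Finite.bddAbove
  apply (Set.finite_range (fun s : L ≃ₐ[K] L => rmI q K L s)).subset
  rintro n ⟨s, _, hs⟩
  exact ⟨s, hs⟩

theorem rmI_le_rmIMax (s : L ≃ₐ[K] L) (hs : s ≠ 1) : rmI q K L s ≤ rmIMax q K L :=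
  le_csSup (rmIMax_set_bddAbove q K L) ⟨s, hs, rfl⟩

theorem rm_exists_rmI_eq_rmIMax (hne : ∃ s : L ≃ₐ[K] L, s ≠ 1) :
    ∃ s : L ≃ₐ[K] L, s ≠ 1 ∧ rmI q K L s = rmIMax q K L := by
  obtain ⟨s, hs⟩ := hne
  have hmem : sSup {n : ℕ | ∃ s : L ≃ₐ[K] L, s ≠ 1 ∧ rmI q K L s = n} ∈
      {n : ℕ | ∃ s : L ≃ₐ[K] L, s ≠ 1 ∧ rmI q K L s = n} :=
    Nat.sSup_mem ⟨rmI q K L s, s, hs, rfl⟩ (rmIMax_set_bddAbove q K L)
  exact hmem

/-- `Φ` as a `Finset` sum. -/
theorem rmPhi_eq_sum [Fintype (L ≃ₐ[K] L)] [DecidableEq (L ≃ₐ[K] L)] (i : ℚ) :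
    rmPhi q K L i = i + ∑ s ∈ (Finset.univ : Finset (L ≃ₐ[K] L)).erase 1,
      min i (rmI q K L s : ℚ) := by
  unfold rmPhi
  congr 1
  apply finsum_cond_eq_sum_of_cond_iff
  intro s _
  simp

/-- `Φ` is monotone. -/
theorem rmPhi_mono {i j : ℚ} (h : i ≤ j) : rmPhi q K L i ≤ rmPhi q K L j := by
  classical
  have hfd : FiniteDimensional K L := FiniteDimensional.right ℚ_[q] K L
  have hfin : Finite (L ≃ₐ[K] L) := inferInstance
  let _ : Fintype (L ≃ₐ[K] L) := Fintype.ofFinite _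
  rw [rmPhi_eq_sum, rmPhi_eq_sum]
  apply add_le_add h
  apply Finset.sum_le_sum
  intro s _
  exact min_le_min_right _ h

/-- the jump of `Φ` just below `i*`: at least two elements (`1` and a maximal one) move. -/
theorem rmPhi_pred_le (hne : ∃ s : L ≃ₐ[K] L, s ≠ 1) {i : ℕ} (hi : i < rmIMax q K L) :
    rmPhi q K L i ≤ rmPhi q K L (rmIMax q K L) - 2 := by
  classical
  have hfd : FiniteDimensional K L := FiniteDimensional.right ℚ_[q] K L
  have hfin : Finite (L ≃ₐ[K] L) := inferInstance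
  let _ : Fintype (L ≃ₐ[K] L) := Fintype.ofFinite _
  obtain ⟨s₀, hs₀, hmax⟩ := rm_exists_rmI_eq_rmIMax q K L hne
  rw [rmPhi_eq_sum, rmPhi_eq_sum]
  have hi' : (i : ℚ) + 1 ≤ (rmIMax q K L : ℚ) := by exact_mod_cast hi
  have hterm : ∀ s ∈ (Finset.univ : Finset (L ≃ₐ[K] L)).erase 1,
      (0 : ℚ) ≤ min (rmIMax q K L : ℚ) (rmI q K L s : ℚ) - min (i : ℚ) (rmI q K L s : ℚ) := by
    intro s _
    have := min_le_min_right (rmI q K L s : ℚ) (le_trans (by linarith) hi' : (i : ℚ) ≤ rmIMax q K L)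
    linarith
  have h1 := Finset.single_le_sum hterm (Finset.mem_erase.mpr ⟨hs₀, Finset.mem_univ s₀⟩)
  rw [Finset.sum_sub_distrib, hmax, min_self] at h1
  have h2 : min (i : ℚ) (rmIMax q K L : ℚ) = i := min_eq_left (by linarith)
  rw [h2] at h1
  linarith

theorem lfOrd_prod {ι : Type*} (s : Finset ι) (f : ι → L) (hf : ∀ i ∈ s, f i ≠ 0) :
    lfOrd q L (∏ i ∈ s, f i) = ∑ i ∈ s, lfOrd q L (f i) := by
  classical
  induction s using Finset.induction_on with
  | empty => rw [Finset.prod_empty, Finset.sum_empty, lfOrd_one]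
  | insert a s ha ih =>
    rw [Finset.prod_insert ha, Finset.sum_insert ha,
      lfOrd_mul q L (hf a (Finset.mem_insert_self a s))
        (Finset.prod_ne_zero_iff.mpr (fun i hi => hf i (Finset.mem_insert_of_mem hi))),
      ih (fun i hi => hf i (Finset.mem_insert_of_mem hi))]

/-- the conjugates of a uniformizer are pairwise distinct. -/
theorem rm_conj_injective (htr : LfTotRam q K L) {π : L} (hπ : IsLfUniformizer q L π) :
    Function.Injective (fun s : L ≃ₐ[K] L => s π) := by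
  intro s t hst
  by_contra hne
  have h1 : t⁻¹ * s ≠ 1 := by
    intro h
    apply hne
    have : s = t := by
      have h2 := congrArg (fun x => t * x) h
      simpa [← mul_assoc] using h2
    exact this
  have h2 := (rmI_eq_uniformizer q K L htr hπ (t⁻¹ * s) h1).1
  apply h2
  have hst' : s π = t π := hst
  rw [AlgEquiv.mul_apply, hst', ← AlgEquiv.mul_apply, inv_mul_cancel, AlgEquiv.one_apply]

/-- the minimal polynomial of a uniformizer splits as `∏_s (X - s π)`. -/
theorem rm_minpoly_map_eq_prod [Fintype (L ≃ₐ[K] L)] (htr : LfTotRam q K L) {π : L}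
    (hπ : IsLfUniformizer q L π) :
    (minpoly K π).map (algebraMap K L) = ∏ s : L ≃ₐ[K] L, (X - C (s π)) := by
  classical
  have hfd : FiniteDimensional K L := FiniteDimensional.right ℚ_[q] K L
  have hint : IsIntegral K π := Algebra.IsIntegral.isIntegral π
  have hmonic : ((minpoly K π).map (algebraMap K L)).Monic := (minpoly.monic hint).map _
  have hQmonic : (∏ s : L ≃ₐ[K] L, (X - C (s π))).Monic :=
    monic_prod_of_monic _ _ (fun s _ => monic_X_sub_C (s π))
  have hQdeg : (∏ s : L ≃ₐ[K] L, (X - C (s π))).natDegree = Module.finrank K L := by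
    rw [natDegree_prod_of_monic _ _ (fun s _ => monic_X_sub_C (s π))]
    simp only [natDegree_X_sub_C, Finset.sum_const, Finset.card_univ, smul_eq_mul, mul_one]
    rw [← Nat.card_eq_fintype_card]
    exact IsGalois.card_aut_eq_finrank K L
  have hPdeg : ((minpoly K π).map (algebraMap K L)).natDegree = Module.finrank K L := by
    rw [natDegree_map]; exact (rm_minpoly_uniformizer q K L htr hπ).1
  have hdvd : (∏ s : L ≃ₐ[K] L, (X - C (s π))) ∣ (minpoly K π).map (algebraMap K L) := by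
    apply Finset.prod_dvd_of_coprime
    · intro s _ t _ hst
      exact pairwise_coprime_X_sub_C (rm_conj_injective q K L htr hπ) hst
    · intro s _
      rw [dvd_iff_isRoot, IsRoot.def, eval_map_algebraMap, aeval_algHom_apply, minpoly.aeval,
        map_zero]
  exact eq_of_monic_of_dvd_of_natDegree_le hQmonic hmonic hdvd (by rw [hPdeg, hQdeg])

/-- KEY FORMULA: for an integer `y ∈ L` which is not a conjugate of the uniformizer `π`,
`v_L(P_π(y)) = Φ(i₀)` with `i₀ = max_s v_L(y - s π)` a natural number. -/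
theorem rm_ord_aeval_minpoly (htr : LfTotRam q K L) {π : L} (hπ : IsLfUniformizer q L π)
    {y : L} (hy : y ∈ lfInt q L) (hP : aeval y (minpoly K π) ≠ 0) :
    ∃ i₀ : ℕ, (lfOrd q L (aeval y (minpoly K π)) : ℚ) = rmPhi q K L (i₀ : ℚ) := by
  classical
  have hfd : FiniteDimensional K L := FiniteDimensional.right ℚ_[q] K L
  have hfin : Finite (L ≃ₐ[K] L) := inferInstance
  let _ : Fintype (L ≃ₐ[K] L) := Fintype.ofFinite _
  have hπint : π ∈ lfInt q L := lro_uniformizer_mem q L hπ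
  have hprod : aeval y (minpoly K π) = ∏ s : L ≃ₐ[K] L, (y - s π) := by
    rw [← eval_map_algebraMap, rm_minpoly_map_eq_prod q K L htr hπ, eval_prod]
    simp only [eval_sub, eval_X, eval_C]
  have hne : ∀ s : L ≃ₐ[K] L, y - s π ≠ 0 := by
    intro s h
    apply hP
    rw [hprod]
    exact Finset.prod_eq_zero (Finset.mem_univ s) h
  obtain ⟨s₀, -, hmax⟩ := Finset.exists_max_image (Finset.univ : Finset (L ≃ₐ[K] L))
    (fun s => lfOrd q L (y - s π)) ⟨1, Finset.mem_univ _⟩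
  have hi0 : 0 ≤ lfOrd q L (y - s₀ π) :=
    (mem_lfInt_iff_lfOrd q L (hne s₀)).mp
      ((lfInt q L).sub_mem hy (algEquiv_mem_lfInt q K L s₀ hπint))
  obtain ⟨i₀, hi₀⟩ : ∃ i₀ : ℕ, lfOrd q L (y - s₀ π) = (i₀ : ℤ) :=
    ⟨(lfOrd q L (y - s₀ π)).toNat, by omega⟩
  refine ⟨i₀, ?_⟩
  -- each factor
  have hfac : ∀ s : L ≃ₐ[K] L, s ≠ s₀ →
      lfOrd q L (y - s π) = min (i₀ : ℤ) (rmI q K L (s₀⁻¹ * s) : ℤ) := by
    intro s hs
    have h1 : s₀⁻¹ * s ≠ 1 := by
      intro h
      apply hs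
      have h2 := congrArg (fun x => s₀ * x) h
      simpa [← mul_assoc] using h2
    obtain ⟨hmv, hI⟩ := rmI_eq_uniformizer q K L htr hπ (s₀⁻¹ * s) h1
    have hb : s₀ π - s π = - s₀ ((s₀⁻¹ * s) π - π) := by
      rw [map_sub, AlgEquiv.mul_apply, ← AlgEquiv.mul_apply s₀, mul_inv_cancel,
        AlgEquiv.one_apply]
      ring
    have hb0 : s₀ π - s π ≠ 0 := by
      rw [hb, neg_ne_zero, Ne, map_eq_zero_iff _ s₀.injective]
      exact sub_ne_zero.mpr hmv
    have hbord : lfOrd q L (s₀ π - s π) = (rmI q K L (s₀⁻¹ * s) : ℤ) := by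
      rw [hb, lfOrd_neg, lfOrd_algEquiv, hI]
    have hsplit : y - s π = (y - s₀ π) + (s₀ π - s π) := by ring
    have hle : lfOrd q L (y - s π) ≤ (i₀ : ℤ) := by
      rw [← hi₀]; exact hmax s (Finset.mem_univ s)
    rcases lt_trichotomy (rmI q K L (s₀⁻¹ * s) : ℤ) (i₀ : ℤ) with hlt | heq | hgt
    · rw [min_eq_right hlt.le, hsplit, add_comm,
        lfOrd_add_eq_of_lt q L hb0 (hne s₀) (by rw [hbord, hi₀]; exact hlt), hbord]
    · rw [heq, min_self]
      have h3 := lfOrd_add_ge q L (hne s₀) hb0 (by rw [← hsplit]; exact hne s)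
      rw [← hsplit, hbord, hi₀, heq, min_self] at h3
      omega
    · rw [min_eq_left hgt.le, hsplit,
        lfOrd_add_eq_of_lt q L (hne s₀) hb0 (by rw [hbord, hi₀]; exact hgt), hi₀]
  rw [hprod, lfOrd_prod q L _ _ (fun s _ => hne s), rmPhi_eq_sum,
    ← Finset.add_sum_erase _ _ (Finset.mem_univ s₀), hi₀]
  push_cast
  congr 1
  -- reindex `t = s₀⁻¹ s`
  have hre : ∑ s ∈ (Finset.univ : Finset (L ≃ₐ[K] L)).erase s₀, ((lfOrd q L (y - s π) : ℤ) : ℚ) =
      ∑ s ∈ (Finset.univ : Finset (L ≃ₐ[K] L)).erase s₀,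
        min (i₀ : ℚ) (rmI q K L (s₀⁻¹ * s) : ℚ) := by
    apply Finset.sum_congr rfl
    intro s hs
    rw [hfac s (Finset.ne_of_mem_erase hs)]
    push_cast
    rfl
  rw [hre]
  apply Finset.sum_bij (fun s _ => s₀⁻¹ * s)
  · intro s hs
    refine Finset.mem_erase.mpr ⟨?_, Finset.mem_univ _⟩
    intro h
    apply Finset.ne_of_mem_erase hs
    have h2 := congrArg (fun x => s₀ * x) h
    simpa [← mul_assoc] using h2
  · intro s _ t _ h
    exact mul_left_cancel h
  · intro t ht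
    refine ⟨s₀ * t, Finset.mem_erase.mpr ⟨?_, Finset.mem_univ _⟩, by group⟩
    intro h
    apply Finset.ne_of_mem_erase ht
    have : s₀ * t = s₀ * 1 := by rw [h, mul_one]
    exact mul_left_cancel this
  · intro s _
    rfl

end TR

end Fermat.Agent.S56
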