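/-
S56 / FLAT / RAM block, leaf KU (helper26): cyclic Kummer extensions of degree `q`.
Proves section KU of `Ram/Spec.lean` (helper24 c9614b0) verbatim: the level trichotomy, the two
"not a `q`-th power" criteria, the two break computations and `(q - 1) v(ζ - 1) = v(q)`.
Black boxes consumed from `Ram/TotRam.lean`: `rm_ramIdx_eq_finrank`, `rmI_eq_uniformizer`.
-/
import Fermat.Agent.S56.Ram.TotRam
import Fermat.Agent.S55.LocalKummerIndexCore

set_option autoImplicit false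
set_option linter.unusedSectionVars false
set_option linter.unusedVariables false

namespace Fermat.Agent.S56

open Fermat.Agent.S55 Polynomial IsLocalRing

/-! ## valuation inequalities that tolerate `0` -/

section Ge

variable (q : ℕ) [Fact q.Prime]
  (K : Type) [Field K] [Algebra ℚ_[q] K] [FiniteDimensional ℚ_[q] K]

/-- `x = 0` or `v(x) ≥ n`. -/
def RmkGe (n : ℤ) (x : K) : Prop := x = 0 ∨ n ≤ lfOrd q K x

variable {q K}

theorem rmkGe_zero (n : ℤ) : RmkGe q K n 0 := Or.inl rfl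

theorem rmkGe_of_le {n : ℤ} {x : K} (h : n ≤ lfOrd q K x) : RmkGe q K n x := Or.inr h

theorem RmkGe.le {n : ℤ} {x : K} (h : RmkGe q K n x) (hx : x ≠ 0) : n ≤ lfOrd q K x :=
  h.resolve_left hx

theorem RmkGe.mono {n m : ℤ} {x : K} (h : RmkGe q K n x) (hmn : m ≤ n) : RmkGe q K m x := by
  rcases h with h | h
  · exact Or.inl h
  · exact Or.inr (hmn.trans h)

theorem RmkGe.add {n : ℤ} {x y : K} (hx : RmkGe q K n x) (hy : RmkGe q K n y) :
    RmkGe q K n (x + y) := by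
  by_cases hx0 : x = 0
  · rwa [hx0, zero_add]
  by_cases hy0 : y = 0
  · rwa [hy0, add_zero]
  by_cases hxy : x + y = 0
  · exact Or.inl hxy
  · exact Or.inr ((le_min (hx.le hx0) (hy.le hy0)).trans (lfOrd_add_ge q K hx0 hy0 hxy))

theorem RmkGe.neg {n : ℤ} {x : K} (hx : RmkGe q K n x) : RmkGe q K n (-x) := by
  rcases hx with h | h
  · exact Or.inl (by rw [h, neg_zero])
  · exact Or.inr (by rwa [lfOrd_neg])

theorem RmkGe.sub {n : ℤ} {x y : K} (hx : RmkGe q K n x) (hy : RmkGe q K n y) :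
    RmkGe q K n (x - y) := by
  rw [sub_eq_add_neg]
  exact hx.add hy.neg

theorem RmkGe.mul {n m : ℤ} {x y : K} (hx : RmkGe q K n x) (hy : RmkGe q K m y) :
    RmkGe q K (n + m) (x * y) := by
  by_cases hx0 : x = 0
  · rw [hx0, zero_mul]; exact rmkGe_zero _
  by_cases hy0 : y = 0
  · rw [hy0, mul_zero]; exact rmkGe_zero _
  · refine Or.inr ?_
    rw [lfOrd_mul q K hx0 hy0]
    exact add_le_add (hx.le hx0) (hy.le hy0)

theorem RmkGe.pow {n : ℤ} {x : K} (hx : RmkGe q K n x) (k : ℕ) :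
    RmkGe q K ((k : ℤ) * n) (x ^ k) := by
  by_cases hx0 : x = 0
  · rcases Nat.eq_zero_or_pos k with hk | hk
    · subst hk
      refine Or.inr ?_
      rw [pow_zero, lfOrd_one]; simp
    · rw [hx0, zero_pow hk.ne']; exact rmkGe_zero _
  · refine Or.inr ?_
    rw [lfOrd_pow]
    exact mul_le_mul_of_nonneg_left (hx.le hx0) (by positivity)

theorem rmkGe_sum {ι : Type*} (s : Finset ι) {n : ℤ} (f : ι → K)
    (h : ∀ i ∈ s, RmkGe q K n (f i)) : RmkGe q K n (∑ i ∈ s, f i) := by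
  classical
  induction s using Finset.induction_on with
  | empty => rw [Finset.sum_empty]; exact rmkGe_zero _
  | insert a s ha ih =>
    rw [Finset.sum_insert ha]
    exact (h a (Finset.mem_insert_self _ _)).add
      (ih (fun i hi => h i (Finset.mem_insert_of_mem hi)))

theorem rmkGe_zero_iff_mem {x : K} : RmkGe q K 0 x ↔ x ∈ lfInt q K := by
  by_cases hx : x = 0
  · rw [hx]
    exact ⟨fun _ => (lfInt q K).zero_mem, fun _ => rmkGe_zero _⟩
  · rw [mem_lfInt_iff_lfOrd q K hx]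
    exact ⟨fun h => h.le hx, fun h => Or.inr h⟩

theorem rmkGe_one : RmkGe q K 0 (1 : K) := Or.inr (by rw [lfOrd_one])

/-- adding something of strictly larger valuation does not change the valuation. -/
theorem rmk_lfOrd_add_eq {x y : K} (hx : x ≠ 0) (hy : RmkGe q K (lfOrd q K x + 1) y) :
    x + y ≠ 0 ∧ lfOrd q K (x + y) = lfOrd q K x := by
  by_cases hy0 : y = 0
  · rw [hy0, add_zero]; exact ⟨hx, rfl⟩
  have hlt : lfOrd q K x < lfOrd q K y := by have := hy.le hy0; omega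
  refine ⟨?_, lfOrd_add_eq_of_lt q K hx hy0 hlt⟩
  intro h0
  have : y = -x := by linear_combination h0
  rw [this, lfOrd_neg] at hlt
  exact lt_irrefl _ hlt

end Ge

section Basic

variable (q : ℕ) [Fact q.Prime]
  (K : Type) [Field K] [Algebra ℚ_[q] K] [FiniteDimensional ℚ_[q] K]

theorem rmk_lfOrd_natCast (n : ℕ) (hn : ¬ q ∣ n) : lfOrd q K (n : K) = 0 := by
  have h : ((n : ℕ) : K) = algebraMap ℚ_[q] K (n : ℚ_[q]) := (map_natCast _ n).symm
  unfold lfOrd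
  rw [h, lfv_lfVq_algebraMap, Padic.valuation_natCast, padicValNat.eq_zero_of_not_dvd hn]
  simp

include q in
theorem rmk_natCast_ne_zero (n : ℕ) (hn : n ≠ 0) : (n : K) ≠ 0 := by
  have := lrt_charZero q K
  exact_mod_cast hn

theorem rmk_natCast_mem (n : ℕ) : (n : K) ∈ lfInt q K := natCast_mem _ n

theorem rmk_intCast_mem (n : ℤ) : (n : K) ∈ lfInt q K := intCast_mem _ n

/-- a root of unity has valuation `0`. -/
theorem rmk_lfOrd_of_pow_eq_one {ζ : K} {n : ℕ} (hn : n ≠ 0) (h : ζ ^ n = 1) : lfOrd q K ζ = 0 := by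
  have h1 := lfOrd_pow q K ζ n
  rw [h, lfOrd_one] at h1
  have hn' : (n : ℤ) ≠ 0 := by exact_mod_cast hn
  rcases mul_eq_zero.mp h1.symm with h2 | h2
  · exact absurd h2 hn'
  · exact h2

theorem rmk_mem_of_pow_eq_one {ζ : K} {n : ℕ} (hn : n ≠ 0) (h : ζ ^ n = 1) : ζ ∈ lfInt q K := by
  have h0 : ζ ≠ 0 := by
    rintro rfl
    rw [zero_pow hn] at h
    exact zero_ne_one h
  rw [mem_lfInt_iff_lfOrd q K h0, rmk_lfOrd_of_pow_eq_one q K hn h]

/-- `v(ζ^j - 1) ≥ v(ζ - 1)` -/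
theorem rmk_ge_pow_sub_one {ζ : K} {n : ℕ} (hn : n ≠ 0) (h : ζ ^ n = 1) (j : ℕ) :
    RmkGe q K (lfOrd q K (ζ - 1)) (ζ ^ j - 1) := by
  have h1 : ζ ^ j - 1 = (ζ - 1) * ∑ i ∈ Finset.range j, ζ ^ i := (mul_geom_sum ζ j).symm
  rw [h1]
  have h2 : RmkGe q K 0 (∑ i ∈ Finset.range j, ζ ^ i) :=
    rmkGe_zero_iff_mem.mpr (sum_mem fun i _ => pow_mem (rmk_mem_of_pow_eq_one q K hn h) i)
  have h3 := (rmkGe_of_le (le_refl (lfOrd q K (ζ - 1)))).mul h2
  rwa [add_zero] at h3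

theorem rmk_isPrimitiveRoot_of_ne_one {ζ : K} (h : ζ ^ q = 1) (h1 : ζ ≠ 1) :
    IsPrimitiveRoot ζ q := by
  have := orderOf_eq_prime h h1
  rw [← this]
  exact IsPrimitiveRoot.orderOf ζ

/-- all primitive `q`-th roots of unity have the same `v(ζ - 1)`. -/
theorem rmk_ord_sub_one_le {ζ η : K} (hζ : IsPrimitiveRoot ζ q) (hη : IsPrimitiveRoot η q) :
    lfOrd q K (ζ - 1) ≤ lfOrd q K (η - 1) := by
  have hq0 : q ≠ 0 := (Fact.out : q.Prime).ne_zero
  obtain ⟨j, -, hj⟩ := hζ.eq_pow_of_pow_eq_one hη.pow_eq_one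
  have hne : η - 1 ≠ 0 := sub_ne_zero.mpr (hη.ne_one (Fact.out : q.Prime).one_lt)
  have := rmk_ge_pow_sub_one q K hq0 hζ.pow_eq_one j
  rw [hj] at this
  exact this.le hne

theorem rmk_ord_sub_one_eq {ζ η : K} (hζ : IsPrimitiveRoot ζ q) (hη : IsPrimitiveRoot η q) :
    lfOrd q K (ζ - 1) = lfOrd q K (η - 1) :=
  le_antisymm (rmk_ord_sub_one_le q K hζ hη) (rmk_ord_sub_one_le q K hη hζ)

end Basic

section Basic

variable (q : ℕ) [Fact q.Prime]
  (K : Type) [Field K] [Algebra ℚ_[q] K] [FiniteDimensional ℚ_[q] K]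

theorem rmk_lfOrd_prod {ι : Type*} (s : Finset ι) (f : ι → K) (h : ∀ i ∈ s, f i ≠ 0) :
    lfOrd q K (∏ i ∈ s, f i) = ∑ i ∈ s, lfOrd q K (f i) := by
  classical
  induction s using Finset.induction_on with
  | empty => rw [Finset.prod_empty, Finset.sum_empty, lfOrd_one]
  | insert a s ha ih =>
    rw [Finset.prod_insert ha, Finset.sum_insert ha,
      lfOrd_mul q K (h a (Finset.mem_insert_self _ _))
        (Finset.prod_ne_zero_iff.mpr fun i hi => h i (Finset.mem_insert_of_mem hi)),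
      ih (fun i hi => h i (Finset.mem_insert_of_mem hi))]

theorem rmk_ord_zeta_sub_one {ζ : K} (hζ : IsPrimitiveRoot ζ q) :
    ((q : ℤ) - 1) * lfOrd q K (ζ - 1) = lfOrd q K (q : K) := by
  have hqp : q.Prime := Fact.out
  obtain ⟨n, hn⟩ : ∃ n, q = n + 1 := ⟨q - 1, by have := hqp.one_lt; omega⟩
  have hζ' : IsPrimitiveRoot ζ (n + 1) := hn ▸ hζ
  have hprod := hζ'.prod_one_sub_pow_eq_order
  have hcast : ((n : K) + 1) = ((q : ℕ) : K) := by rw [hn]; push_cast; ring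
  rw [hcast] at hprod
  have hfac : ∀ k ∈ Finset.range n, (1 - ζ ^ (k + 1)) ≠ 0 ∧
      lfOrd q K (1 - ζ ^ (k + 1)) = lfOrd q K (ζ - 1) := by
    intro k hk
    rw [Finset.mem_range] at hk
    have hcop : (k + 1).Coprime q := by
      rw [Nat.coprime_comm, hqp.coprime_iff_not_dvd]
      intro hd
      have := Nat.le_of_dvd (Nat.succ_pos k) hd
      omega
    have hη : IsPrimitiveRoot (ζ ^ (k + 1)) q := hζ.pow_of_coprime _ hcop
    have hne : ζ ^ (k + 1) ≠ 1 := hη.ne_one hqp.one_lt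
    refine ⟨sub_ne_zero.mpr (Ne.symm hne), ?_⟩
    rw [← lfOrd_neg, neg_sub]
    exact rmk_ord_sub_one_eq q K hη hζ
  rw [← hprod, rmk_lfOrd_prod q K _ _ (fun k hk => (hfac k hk).1),
    Finset.sum_congr rfl (fun k hk => (hfac k hk).2), Finset.sum_const, Finset.card_range]
  have hq1 : (q : ℤ) - 1 = (n : ℤ) := by rw [hn]; push_cast; ring
  rw [hq1, nsmul_eq_mul]

end Basic

section Level

variable (q : ℕ) [Fact q.Prime]
  (K : Type) [Field K] [Algebra ℚ_[q] K] [FiniteDimensional ℚ_[q] K]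

theorem rmkGe_prime : RmkGe q K (lfOrd q K (q : K)) (q : K) := rmkGe_of_le le_rfl

/-- `(1 + y)^q = 1 + y^q + e` with `v(e) ≥ v(q) + n` if `v(y) ≥ n ≥ 0`. -/
theorem rmk_one_add_pow {y : K} {n : ℤ} (hn : 0 ≤ n) (hy : RmkGe q K n y) :
    ∃ e : K, RmkGe q K (lfOrd q K (q : K) + n) e ∧ (1 + y) ^ q = 1 + y ^ q + e := by
  have hy0 : y ∈ lfInt q K := rmkGe_zero_iff_mem.mp (hy.mono hn)
  obtain ⟨w, hw⟩ := lki_one_add_pow (R := lfInt q K) (Fact.out : q.Prime) ⟨y, hy0⟩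
  have hw' : (1 + y) ^ q = 1 + (q : K) * y * (1 + y * (w : K)) + y ^ q := by
    have := congrArg (fun z : lfInt q K => (z : K)) hw
    simpa using this
  refine ⟨(q : K) * y * (1 + y * (w : K)), ?_, by rw [hw']; ring⟩
  have h1 : RmkGe q K 0 (1 + y * (w : K)) :=
    rmkGe_zero_iff_mem.mpr (add_mem (one_mem _) (mul_mem hy0 w.2))
  have h2 := ((rmkGe_prime q K).mul hy).mul h1
  rwa [add_zero] at h2

/-- if `(1 + y)^q = 1 + x` with `1 ≤ v(x) < v(q)` then `q v(y) = v(x)`. -/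
theorem rmk_level_root {x y : K} (hx : x ≠ 0) (h1 : 1 ≤ lfOrd q K x)
    (h2 : lfOrd q K x < lfOrd q K (q : K)) (hxy : (1 + y) ^ q = 1 + x) :
    y ≠ 0 ∧ (q : ℤ) * lfOrd q K y = lfOrd q K x := by
  have hqp : q.Prime := Fact.out
  have hy0 : y ≠ 0 := by
    rintro rfl
    rw [add_zero, one_pow] at hxy
    exact hx (by linear_combination -hxy)
  refine ⟨hy0, ?_⟩
  -- `v(1 + y) = 0`
  have hv1 : lfOrd q K (1 + x) = 0 := by
    have := (rmk_lfOrd_add_eq (q := q) (K := K) (x := 1) (y := x) one_ne_zero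
      (by rw [lfOrd_one]; exact rmkGe_of_le (by omega))).2
    rw [this, lfOrd_one]
  have hc : lfOrd q K (1 + y) = 0 := by
    have h := lfOrd_pow q K (1 + y) q
    rw [hxy, hv1] at h
    have hq' : (q : ℤ) ≠ 0 := by exact_mod_cast hqp.ne_zero
    rcases mul_eq_zero.mp h.symm with h' | h'
    · exact absurd h' hq'
    · exact h'
  have hc0 : 1 + y ≠ 0 := by
    intro h0
    rw [h0, zero_pow hqp.ne_zero] at hxy
    rw [← hxy, lfOrd_zero] at hv1
    have : x = -1 := by linear_combination -hxy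
    rw [this, lfOrd_neg, lfOrd_one] at h1
    omega
  have hcm : 1 + y ∈ lfInt q K := by rw [mem_lfInt_iff_lfOrd q K hc0, hc]
  have hym : y ∈ lfInt q K := by
    have := sub_mem hcm (one_mem (lfInt q K))
    rwa [add_sub_cancel_left] at this
  have hj : 0 ≤ lfOrd q K y := (mem_lfInt_iff_lfOrd q K hy0).mp hym
  obtain ⟨e, he, hexp⟩ := rmk_one_add_pow q K hj (rmkGe_of_le (le_refl (lfOrd q K y)))
  have hx' : x = y ^ q + e := by linear_combination hexp - hxy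
  have hyq : lfOrd q K (y ^ q) = (q : ℤ) * lfOrd q K y := lfOrd_pow q K y q
  by_cases hcase : (q : ℤ) * lfOrd q K y < lfOrd q K (q : K) + lfOrd q K y
  · have := (rmk_lfOrd_add_eq (q := q) (K := K) (x := y ^ q) (y := e) (pow_ne_zero q hy0)
      (he.mono (by rw [hyq]; omega))).2
    rw [← hx', hyq] at this
    exact this.symm
  · exfalso
    rw [not_lt] at hcase
    have h3 : RmkGe q K (lfOrd q K (q : K) + lfOrd q K y) (y ^ q) :=
      rmkGe_of_le (by rw [hyq]; exact hcase)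
    have h4 := (h3.add he).le (hx' ▸ hx)
    rw [← hx'] at h4
    omega

end Level

section KUa

variable (q : ℕ) [Fact q.Prime]
  (F : Type) [Field F] [Algebra ℚ_[q] F] [FiniteDimensional ℚ_[q] F]

/-- elements of bad shape (A) or (B) are not `q`-th powers (in any local field). -/
theorem rm_not_pow_of_ord (b : F) (hb : b ≠ 0) (h : ¬ (q : ℤ) ∣ lfOrd q F b) (c : F) :
    c ^ q ≠ b := by
  intro hc
  apply h
  rw [← hc, lfOrd_pow]
  exact dvd_mul_right _ _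

theorem rm_not_pow_of_level (x : F) (hx : x ≠ 0) (h1 : 1 ≤ lfOrd q F x)
    (h2 : lfOrd q F x < lfOrd q F (q : F)) (h3 : ¬ (q : ℤ) ∣ lfOrd q F x) (c : F) :
    c ^ q ≠ 1 + x := by
  intro hc
  have hxy : (1 + (c - 1)) ^ q = 1 + x := by rw [add_sub_cancel, hc]
  obtain ⟨-, h⟩ := rmk_level_root q F hx h1 h2 hxy
  exact h3 ⟨_, h.symm⟩

/-- `(q - 1) · v_F(ζ - 1) = v_F(q)`. -/
theorem rm_ord_zeta_sub_one {ζ : F} (hζ : IsPrimitiveRoot ζ q) :
    ((q : ℤ) - 1) * lfOrd q F (ζ - 1) = lfOrd q F (q : F) :=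
  rmk_ord_zeta_sub_one q F hζ

end KUa

section Tri

variable (q : ℕ) [Fact q.Prime]
  (K : Type) [Field K] [Algebra ℚ_[q] K] [FiniteDimensional ℚ_[q] K]

/-- the residue field is perfect: every integer is a `q`-th power modulo the maximal ideal. -/
theorem rmk_exists_pow_congr (u : K) (hu : u ∈ lfInt q K) :
    ∃ a : K, a ∈ lfInt q K ∧ RmkGe q K 1 (u - a ^ q) := by
  have hinj : Function.Injective (frobenius (ResidueField (lfInt q K)) q) :=
    frobenius_inj (ResidueField (lfInt q K)) q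
  have hsurj : Function.Surjective (frobenius (ResidueField (lfInt q K)) q) :=
    Finite.surjective_of_injective hinj
  obtain ⟨abar, habar⟩ := hsurj (residue (lfInt q K) ⟨u, hu⟩)
  obtain ⟨a, rfl⟩ := residue_surjective abar
  refine ⟨(a : K), a.2, ?_⟩
  have h1 : residue (lfInt q K) (⟨u, hu⟩ - a ^ q) = 0 := by
    rw [map_sub, map_pow, ← habar, frobenius_def, sub_self]
  rw [residue_eq_zero_iff, mem_maximalIdeal_lfInt_iff] at h1
  have h2 : ((⟨u, hu⟩ - a ^ q : lfInt q K) : K) = u - (a : K) ^ q := by simp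
  rw [h2] at h1
  by_cases h0 : u - (a : K) ^ q = 0
  · exact Or.inl h0
  · refine Or.inr ?_
    have := (spectralNorm_lt_one_iff_lfOrd q K h0).mp h1
    omega

/-- base case of the level induction: `b c^q ≡ 1 mod 𝔪` for a suitable `c`. -/
theorem rmk_level_base (b : K) (hb : b ≠ 0) (hdiv : (q : ℤ) ∣ lfOrd q K b) :
    ∃ c : K, c ≠ 0 ∧ RmkGe q K 1 (b * c ^ q - 1) := by
  have hqp : q.Prime := Fact.out
  obtain ⟨m, hm⟩ := hdiv
  obtain ⟨π, hπ⟩ := exists_isLfUniformizer q K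
  have hπ0 : π ≠ 0 := IsLfUniformizer.ne_zero q K hπ
  have hπ1 : lfOrd q K π = 1 := hπ
  have hz0 : π ^ (-m) ≠ 0 := zpow_ne_zero _ hπ0
  have hzq0 : (π ^ (-m)) ^ q ≠ 0 := pow_ne_zero _ hz0
  have hb1 : b * (π ^ (-m)) ^ q ≠ 0 := mul_ne_zero hb hzq0
  have hv1 : lfOrd q K (b * (π ^ (-m)) ^ q) = 0 := by
    rw [lfOrd_mul q K hb hzq0, lfOrd_pow, lfOrd_zpow, hπ1, hm]
    ring
  have hmem : b * (π ^ (-m)) ^ q ∈ lfInt q K := by
    rw [mem_lfInt_iff_lfOrd q K hb1, hv1]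
  obtain ⟨a, ha, hge⟩ := rmk_exists_pow_congr q K _ hmem
  have ha0 : a ≠ 0 := by
    rintro rfl
    rw [zero_pow hqp.ne_zero, sub_zero] at hge
    have := hge.le hb1
    omega
  have hva : lfOrd q K a = 0 := by
    have h0 : 0 ≤ lfOrd q K a := (mem_lfInt_iff_lfOrd q K ha0).mp ha
    by_contra hne
    have h1 : RmkGe q K 1 (a ^ q) := by
      refine rmkGe_of_le ?_
      rw [lfOrd_pow]
      have hq1 : (1 : ℤ) ≤ (q : ℤ) := by exact_mod_cast hqp.one_lt.le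
      have h2 : 1 ≤ lfOrd q K a := by omega
      nlinarith
    have h3 := hge.add h1
    rw [sub_add_cancel] at h3
    have := h3.le hb1
    omega
  have haq0 : a ^ q ≠ 0 := pow_ne_zero _ ha0
  refine ⟨π ^ (-m) * a⁻¹, mul_ne_zero hz0 (inv_ne_zero ha0), ?_⟩
  have hid : b * (π ^ (-m) * a⁻¹) ^ q - 1 = (b * (π ^ (-m)) ^ q - a ^ q) * (a ^ q)⁻¹ := by
    rw [mul_pow, inv_pow, sub_mul, mul_inv_cancel₀ haq0, mul_assoc]
  rw [hid]
  have h4 : RmkGe q K 0 ((a ^ q)⁻¹) := by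
    refine rmkGe_of_le ?_
    rw [lfOrd_inv, lfOrd_pow, hva]
    simp
  have h5 := hge.mul h4
  rwa [add_zero] at h5

end Tri

section Tri

variable (q : ℕ) [Fact q.Prime]
  (K : Type) [Field K] [Algebra ℚ_[q] K] [FiniteDimensional ℚ_[q] K]

/-- raising the level by one when the level `n` is divisible by `q`. -/
theorem rmk_level_raise (b c : K) (hc : c ≠ 0) (j : ℕ) (hj : 1 ≤ j)
    (hlt : ((q * j : ℕ) : ℤ) + 1 ≤ lfOrd q K (q : K))
    (hx0 : b * c ^ q - 1 ≠ 0) (hv : lfOrd q K (b * c ^ q - 1) = ((q * j : ℕ) : ℤ)) :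
    ∃ c' : K, c' ≠ 0 ∧ RmkGe q K (((q * j : ℕ) : ℤ) + 1) (b * c' ^ q - 1) := by
  have hqp : q.Prime := Fact.out
  obtain ⟨x', hx'⟩ : ∃ x' : K, x' = b * c ^ q - 1 := ⟨_, rfl⟩
  rw [← hx'] at hx0 hv
  obtain ⟨π, hπ⟩ := exists_isLfUniformizer q K
  have hπ0 : π ≠ 0 := IsLfUniformizer.ne_zero q K hπ
  have hπ1 : lfOrd q K π = 1 := hπ
  have hπn0 : π ^ (q * j) ≠ 0 := pow_ne_zero _ hπ0
  have hπn : lfOrd q K (π ^ (q * j)) = ((q * j : ℕ) : ℤ) := by
    rw [lfOrd_pow, hπ1, mul_one]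
  obtain ⟨u, hu⟩ : ∃ u : K, u = x' * (π ^ (q * j))⁻¹ := ⟨_, rfl⟩
  have hu0 : u ≠ 0 := by rw [hu]; exact mul_ne_zero hx0 (inv_ne_zero hπn0)
  have hvu : lfOrd q K u = 0 := by
    rw [hu, lfOrd_mul q K hx0 (inv_ne_zero hπn0), lfOrd_inv, hπn, hv]; ring
  have hum : -u ∈ lfInt q K := by
    apply neg_mem
    rw [mem_lfInt_iff_lfOrd q K hu0, hvu]
  obtain ⟨a, ha, hge⟩ := rmk_exists_pow_congr q K _ hum
  have hπu : π ^ (q * j) * u = x' := by
    rw [hu, mul_comm x', ← mul_assoc, mul_inv_cancel₀ hπn0, one_mul]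
  -- `t = π^j a`
  have htge : RmkGe q K (j : ℤ) (π ^ j * a) := by
    have h1 : RmkGe q K (j : ℤ) (π ^ j) := rmkGe_of_le (by rw [lfOrd_pow, hπ1, mul_one])
    have h2 := h1.mul (rmkGe_zero_iff_mem.mpr ha)
    rwa [add_zero] at h2
  obtain ⟨e, he, hexp⟩ := rmk_one_add_pow q K (Int.natCast_nonneg j) htge
  have htq : (π ^ j * a) ^ q = π ^ (q * j) * a ^ q := by
    rw [mul_pow, ← pow_mul, mul_comm j q]
  have hd0 : 1 + π ^ j * a ≠ 0 :=
    (rmk_lfOrd_add_eq (q := q) (K := K) one_ne_zero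
      (by rw [lfOrd_one]; exact htge.mono (by omega))).1
  refine ⟨c * (1 + π ^ j * a), mul_ne_zero hc hd0, ?_⟩
  have hid : b * (c * (1 + π ^ j * a)) ^ q - 1 =
      π ^ (q * j) * (u + a ^ q) + e + x' * ((π ^ j * a) ^ q + e) := by
    rw [mul_pow, hexp]
    linear_combination (-(1 : K) - (π ^ j * a) ^ q - e) * hx' - hπu + htq
  rw [hid]
  have hge' : RmkGe q K 1 (u + a ^ q) := by
    have := hge.neg
    rwa [neg_sub, sub_neg_eq_add, add_comm] at this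
  have hn1 : (1 : ℤ) ≤ ((q * j : ℕ) : ℤ) := by
    have : 1 ≤ q * j := Nat.one_le_iff_ne_zero.mpr (Nat.mul_ne_zero hqp.ne_zero (by omega))
    exact_mod_cast this
  have t1 : RmkGe q K (((q * j : ℕ) : ℤ) + 1) (π ^ (q * j) * (u + a ^ q)) :=
    (rmkGe_of_le hπn.ge).mul hge'
  have t2 : RmkGe q K (((q * j : ℕ) : ℤ) + 1) e := he.mono (by omega)
  have t3 : RmkGe q K 1 ((π ^ j * a) ^ q + e) := by
    refine RmkGe.add ?_ (he.mono (by omega))
    refine (htge.pow q).mono ?_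
    push_cast at hn1 ⊢
    exact hn1
  have t4 : RmkGe q K (((q * j : ℕ) : ℤ) + 1) (x' * ((π ^ j * a) ^ q + e)) :=
    (rmkGe_of_le hv.ge).mul t3
  exact (t1.add t2).add t4

end Tri

section Tri

variable (q : ℕ) [Fact q.Prime]
  (K : Type) [Field K] [Algebra ℚ_[q] K] [FiniteDimensional ℚ_[q] K]

theorem rmk_level_induction (b : K) (hb : b ≠ 0) (hdiv : (q : ℤ) ∣ lfOrd q K b) (n : ℕ)
    (hn1 : 1 ≤ n) (hn : (n : ℤ) ≤ lfOrd q K (q : K)) :
    (∃ c x : K, c ≠ 0 ∧ x ≠ 0 ∧ b * c ^ q = 1 + x ∧ 1 ≤ lfOrd q K x ∧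
      lfOrd q K x < lfOrd q K (q : K) ∧ ¬ (q : ℤ) ∣ lfOrd q K x) ∨
    (∃ c : K, c ≠ 0 ∧ RmkGe q K (n : ℤ) (b * c ^ q - 1)) := by
  induction n, hn1 using Nat.le_induction with
  | base => exact Or.inr (by simpa using rmk_level_base q K b hb hdiv)
  | succ n hn1 ih =>
    rcases ih (by push_cast at hn; omega) with hB | ⟨c, hc, hge⟩
    · exact Or.inl hB
    by_cases hx0 : b * c ^ q - 1 = 0
    · exact Or.inr ⟨c, hc, Or.inl hx0⟩
    have hv := hge.le hx0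
    by_cases hv' : ((n + 1 : ℕ) : ℤ) ≤ lfOrd q K (b * c ^ q - 1)
    · exact Or.inr ⟨c, hc, Or.inr hv'⟩
    have hveq : lfOrd q K (b * c ^ q - 1) = (n : ℤ) := by push_cast at hv'; omega
    by_cases hd : q ∣ n
    · obtain ⟨j, rfl⟩ := hd
      have hj : 1 ≤ j := by
        rcases Nat.eq_zero_or_pos j with h | h
        · subst h; simp at hn1
        · exact h
      obtain ⟨c', hc', hge'⟩ := rmk_level_raise q K b c hc j hj (by push_cast at hn ⊢; omega) hx0 hveq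
      refine Or.inr ⟨c', hc', ?_⟩
      push_cast at hge' ⊢
      exact hge'
    · refine Or.inl ⟨c, b * c ^ q - 1, hc, hx0, by ring, by omega, by push_cast at hn; omega, ?_⟩
      rw [hveq]
      exact fun h => hd (Int.natCast_dvd_natCast.mp h)

end Tri

section KUb

variable (q : ℕ) [Fact q.Prime]
  (F : Type) [Field F] [Algebra ℚ_[q] F] [FiniteDimensional ℚ_[q] F]

/-- LEVEL TRICHOTOMY for `b ∈ Fˣ` (finite residue field): modulo `q`-th powers, `b` is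
(A) of valuation prime to `q`, or (B) `1 + x` with `v(x) = k`, `q ∤ k`, `1 ≤ k < v(q)`, or
(C) `≡ 1 mod q`. -/
theorem rm_level_trichotomy (b : F) (hb : b ≠ 0) :
    (¬ (q : ℤ) ∣ lfOrd q F b) ∨
    (∃ c x : F, c ≠ 0 ∧ x ≠ 0 ∧ b * c ^ q = 1 + x ∧ 1 ≤ lfOrd q F x ∧
      lfOrd q F x < lfOrd q F (q : F) ∧ ¬ (q : ℤ) ∣ lfOrd q F x) ∨
    (∃ c : F, c ≠ 0 ∧ (b * c ^ q = 1 ∨ lfOrd q F (q : F) ≤ lfOrd q F (b * c ^ q - 1))) := by
  by_cases hdiv : (q : ℤ) ∣ lfOrd q F b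
  · right
    have hpos := lro_lfOrd_prime_pos q F
    have hn : ((lfOrd q F (q : F)).toNat : ℤ) = lfOrd q F (q : F) := Int.toNat_of_nonneg hpos.le
    rcases rmk_level_induction q F b hb hdiv (lfOrd q F (q : F)).toNat (by omega) hn.le with
      hB | ⟨c, hc, hge⟩
    · exact Or.inl hB
    · refine Or.inr ⟨c, hc, ?_⟩
      rcases hge with h | h
      · exact Or.inl (sub_eq_zero.mp h)
      · exact Or.inr (hn ▸ h)
  · exact Or.inl hdiv

end KUb

section Const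

variable (q : ℕ) [Fact q.Prime]
  (K : Type) [Field K] [Algebra ℚ_[q] K] [FiniteDimensional ℚ_[q] K]
  (L : Type) [Field L] [Algebra ℚ_[q] L] [FiniteDimensional ℚ_[q] L]
  [Algebra K L] [IsScalarTower ℚ_[q] K L] [IsGalois K L]

/-- a totally ramified Galois extension with a single lower break `i` has `u = i`. -/
theorem rmk_rmU_of_const (htr : LfTotRam q K L) (hne : ∃ s : L ≃ₐ[K] L, s ≠ 1) (i : ℕ)
    (h : ∀ s : L ≃ₐ[K] L, s ≠ 1 → rmI q K L s = i) : rmU q K L = (i : ℚ) := by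
  classical
  have : FiniteDimensional K L := FiniteDimensional.right ℚ_[q] K L
  have : Fintype (L ≃ₐ[K] L) := Fintype.ofFinite _
  obtain ⟨s₀, hs₀⟩ := hne
  have hmax : rmIMax q K L = i := by
    have hset : {n : ℕ | ∃ s : L ≃ₐ[K] L, s ≠ 1 ∧ rmI q K L s = n} = {i} := by
      ext n
      simp only [Set.mem_ofPred_eq, Set.mem_singleton_iff]
      constructor
      · rintro ⟨s, hs, rfl⟩
        exact h s hs
      · rintro rfl
        exact ⟨s₀, hs₀, h s₀ hs₀⟩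
    unfold rmIMax
    rw [hset, csSup_singleton]
  have hcard : Fintype.card (L ≃ₐ[K] L) = Module.finrank K L := by
    rw [← Nat.card_eq_fintype_card]
    exact IsGalois.card_aut_eq_finrank K L
  have hphi : rmPhi q K L (i : ℚ) = (Module.finrank K L : ℚ) * (i : ℚ) := by
    unfold rmPhi
    have h1 : ∀ s : L ≃ₐ[K] L, (∑ᶠ (_ : s ≠ 1), min (i : ℚ) (rmI q K L s : ℚ)) =
        if s ≠ 1 then (i : ℚ) else 0 := by
      intro s
      rw [finsum_eq_if]
      by_cases hs : s = 1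
      · simp [hs]
      · simp [hs, h s hs]
    rw [finsum_congr h1, finsum_eq_sum_of_fintype, Finset.sum_ite, Finset.sum_const_zero, add_zero,
      Finset.sum_const, Finset.filter_ne', Finset.card_erase_of_mem (Finset.mem_univ _),
      Finset.card_univ, hcard, nsmul_eq_mul]
    have hpos : 1 ≤ Module.finrank K L := Module.finrank_pos
    push_cast [Nat.cast_sub hpos]
    ring
  unfold rmU
  rw [hmax, hphi, rm_ramIdx_eq_finrank q K L htr]
  have hpos : (0 : ℚ) < (Module.finrank K L : ℚ) := by exact_mod_cast Module.finrank_pos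
  field_simp

end Const

section Aux

variable (q : ℕ) [Fact q.Prime]

/-- Bezout with a natural first coefficient. -/
theorem rmk_bezout (a : ℤ) (h : ¬ (q : ℤ) ∣ a) :
    ∃ (r : ℕ) (t : ℤ), (r : ℤ) * a + t * (q : ℤ) = 1 ∧ ¬ q ∣ r := by
  have hqp : q.Prime := Fact.out
  have hq0 : (0 : ℤ) < (q : ℤ) := by exact_mod_cast hqp.pos
  obtain ⟨u, v, huv⟩ : IsCoprime (q : ℤ) a :=
    (Nat.prime_iff_prime_int.mp hqp).irreducible.coprime_iff_not_dvd.mpr h
  have hmod : 0 ≤ v % (q : ℤ) := Int.emod_nonneg _ hq0.ne'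
  refine ⟨(v % (q : ℤ)).toNat, u + a * (v / (q : ℤ)), ?_, ?_⟩
  · rw [Int.toNat_of_nonneg hmod]
    have := Int.emod_add_mul_ediv v (q : ℤ)
    linear_combination huv + a * this
  · intro hd
    have hd' : (q : ℤ) ∣ v % (q : ℤ) := by
      have : (q : ℤ) ∣ ((v % (q : ℤ)).toNat : ℤ) := Int.natCast_dvd_natCast.mpr hd
      rwa [Int.toNat_of_nonneg hmod] at this
    have hv : (q : ℤ) ∣ v := by
      obtain ⟨c, hc⟩ := hd'
      have := Int.emod_add_mul_ediv v (q : ℤ)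
      exact ⟨c + v / (q : ℤ), by linear_combination (-1 : ℤ) * this + hc⟩
    have : (q : ℤ) ∣ 1 := by
      rw [← huv]
      exact dvd_add (dvd_mul_left _ _) (dvd_mul_of_dvd_left hv _)
    have h1 : (q : ℤ) ≤ 1 := Int.le_of_dvd one_pos this
    have h2 : (2 : ℤ) ≤ q := by exact_mod_cast hqp.two_le
    omega

variable (K : Type) [Field K] [Algebra ℚ_[q] K] [FiniteDimensional ℚ_[q] K]

/-- `v(u^r - 1) = v(u - 1)` if `v(u - 1) ≥ 1` and `q ∤ r`. -/
theorem rmk_lfOrd_pow_sub_one {u : K} (hu : u - 1 ≠ 0) (h1 : 1 ≤ lfOrd q K (u - 1)) (r : ℕ)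
    (hr : ¬ q ∣ r) : u ^ r - 1 ≠ 0 ∧ lfOrd q K (u ^ r - 1) = lfOrd q K (u - 1) := by
  have hr0 : r ≠ 0 := by rintro rfl; exact hr (dvd_zero _)
  have hfac : u ^ r - 1 = (u - 1) * ∑ i ∈ Finset.range r, u ^ i := (mul_geom_sum u r).symm
  have hsum : (∑ i ∈ Finset.range r, u ^ i) = (r : K) + ∑ i ∈ Finset.range r, (u ^ i - 1) := by
    rw [Finset.sum_sub_distrib, Finset.sum_const, Finset.card_range, nsmul_eq_mul, mul_one]
    ring
  have hu1 : RmkGe q K 1 (u - 1) := rmkGe_of_le h1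
  have hum : u ∈ lfInt q K := by
    have : u = 1 + (u - 1) := by ring
    rw [this]
    exact add_mem (one_mem _) (rmkGe_zero_iff_mem.mp (hu1.mono zero_le_one))
  have hterm : ∀ i ∈ Finset.range r, RmkGe q K 1 (u ^ i - 1) := by
    intro i _
    have h2 : u ^ i - 1 = (u - 1) * ∑ j ∈ Finset.range i, u ^ j := (mul_geom_sum u i).symm
    rw [h2]
    have h3 : RmkGe q K 0 (∑ j ∈ Finset.range i, u ^ j) :=
      rmkGe_zero_iff_mem.mpr (sum_mem fun j _ => pow_mem hum j)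
    have := hu1.mul h3
    rwa [add_zero] at this
  have hr0' : (r : K) ≠ 0 := rmk_natCast_ne_zero q K r hr0
  have hrv : lfOrd q K (r : K) = 0 := rmk_lfOrd_natCast q K r hr
  obtain ⟨hs0, hsv⟩ := rmk_lfOrd_add_eq (q := q) (K := K) hr0'
    (by rw [hrv]; exact rmkGe_sum _ _ hterm)
  rw [← hsum] at hs0 hsv
  refine ⟨by rw [hfac]; exact mul_ne_zero hu hs0, ?_⟩
  rw [hfac, lfOrd_mul q K hu hs0, hsv, hrv, add_zero]

end Aux

section Kum

variable (q : ℕ) [Fact q.Prime]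
  (F : Type) [Field F] [Algebra ℚ_[q] F] [FiniteDimensional ℚ_[q] F]
  (L₁ : Type) [Field L₁] [Algebra ℚ_[q] L₁] [FiniteDimensional ℚ_[q] L₁]
  [Algebra F L₁] [IsScalarTower ℚ_[q] F L₁]

/-- the Galois group moves a Kummer generator by roots of unity. -/
theorem rmk_kummer_action (b : F) (β : L₁) (hβ0 : β ≠ 0) (hβ : β ^ q = algebraMap F L₁ b)
    (s : L₁ ≃ₐ[F] L₁) : ∃ η : L₁, η ^ q = 1 ∧ s β = η * β := by
  refine ⟨s β / β, ?_, (div_mul_cancel₀ _ hβ0).symm⟩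
  have h0 : algebraMap F L₁ b ≠ 0 := hβ ▸ pow_ne_zero q hβ0
  rw [div_pow, ← map_pow, hβ, s.commutes, div_self h0]

/-- `v_L(η - 1) = e · v_F(ζ - 1)` for all primitive `q`-th roots of unity. -/
theorem rmk_ord_root_sub_one {ζ : F} (hζ : IsPrimitiveRoot ζ q) {η : L₁} (hη : η ^ q = 1)
    (hη1 : η ≠ 1) :
    lfOrd q L₁ (η - 1) = (lfRamIdx q F L₁ : ℤ) * lfOrd q F (ζ - 1) := by
  have hqp : q.Prime := Fact.out
  have hη' : IsPrimitiveRoot η q := rmk_isPrimitiveRoot_of_ne_one q L₁ hη hη1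
  have h1 := rmk_ord_zeta_sub_one q L₁ hη'
  have h2 := rmk_ord_zeta_sub_one q F hζ
  have hcast : ((q : ℕ) : L₁) = algebraMap F L₁ ((q : ℕ) : F) := (map_natCast _ q).symm
  rw [hcast, lfOrd_algebraMap, ← h2] at h1
  have hq1 : ((q : ℤ) - 1) ≠ 0 := by
    have : (2 : ℤ) ≤ q := by exact_mod_cast hqp.two_le
    omega
  apply mul_left_cancel₀ hq1
  rw [h1]
  ring

/-- existence of a nontrivial automorphism in degree `q`. -/
theorem rmk_exists_ne_one [IsGalois F L₁] (hdeg : Module.finrank F L₁ = q) :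
    ∃ s : L₁ ≃ₐ[F] L₁, s ≠ 1 := by
  have hqp : q.Prime := Fact.out
  have : FiniteDimensional F L₁ := FiniteDimensional.right ℚ_[q] F L₁
  by_contra hcon
  simp only [not_exists, not_not] at hcon
  have : Subsingleton (L₁ ≃ₐ[F] L₁) := ⟨fun a b => (hcon a).trans (hcon b).symm⟩
  have h1 : Nat.card (L₁ ≃ₐ[F] L₁) = 1 := Nat.card_unique
  rw [IsGalois.card_aut_eq_finrank F L₁, hdeg] at h1
  exact hqp.one_lt.ne' h1

end Kum

section KUc

variable (q : ℕ) [Fact q.Prime]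
  (F : Type) [Field F] [Algebra ℚ_[q] F] [FiniteDimensional ℚ_[q] F]

variable (L₁ : Type) [Field L₁] [Algebra ℚ_[q] L₁] [FiniteDimensional ℚ_[q] L₁]
  [Algebra F L₁] [IsScalarTower ℚ_[q] F L₁] [IsGalois F L₁]

/-- BREAK of a totally ramified cyclic Kummer extension of degree `q`, shape (A):
`u = 1 + q · v_F(ζ - 1)`. -/
theorem rmU_kummer_ord (hq2 : q ≠ 2) {ζ : F} (hζ : IsPrimitiveRoot ζ q) (htr : LfTotRam q F L₁)
    (hdeg : Module.finrank F L₁ = q) (b : F) (β : L₁) (hβ : β ^ q = algebraMap F L₁ b)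
    (hb : ¬ (q : ℤ) ∣ lfOrd q F b) :
    rmU q F L₁ = 1 + (q : ℚ) * (lfOrd q F (ζ - 1) : ℚ) := by
  have hqp : q.Prime := Fact.out
  have hq0 : (q : ℤ) ≠ 0 := by exact_mod_cast hqp.ne_zero
  have hb0 : b ≠ 0 := by
    rintro rfl
    exact hb (by rw [lfOrd_zero]; exact dvd_zero _)
  have hβ0 : β ≠ 0 := by
    rintro rfl
    rw [zero_pow hqp.ne_zero] at hβ
    exact lfv_algebraMap_ne_zero F L₁ hb0 hβ.symm
  have hram : lfRamIdx q F L₁ = q := by rw [rm_ramIdx_eq_finrank q F L₁ htr, hdeg]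
  -- `v_L(β) = v_F(b)`
  have hvβ : lfOrd q L₁ β = lfOrd q F b := by
    have h1 := lfOrd_pow q L₁ β q
    rw [hβ, lfOrd_algebraMap, hram] at h1
    exact (mul_left_cancel₀ hq0 h1).symm
  obtain ⟨r, t, hrt, -⟩ := rmk_bezout q (lfOrd q F b) hb
  obtain ⟨πF, hπF⟩ := exists_isLfUniformizer q F
  have hπF0 : πF ≠ 0 := IsLfUniformizer.ne_zero q F hπF
  have hπF1 : lfOrd q F πF = 1 := hπF
  have hπFL0 : algebraMap F L₁ πF ≠ 0 := lfv_algebraMap_ne_zero F L₁ hπF0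
  have hz0 : (algebraMap F L₁ πF) ^ t ≠ 0 := zpow_ne_zero _ hπFL0
  have hπL : IsLfUniformizer q L₁ (β ^ r * (algebraMap F L₁ πF) ^ t) := by
    unfold IsLfUniformizer
    rw [lfOrd_mul q L₁ (pow_ne_zero r hβ0) hz0, lfOrd_pow, lfOrd_zpow, lfOrd_algebraMap, hram,
      hπF1, hvβ, mul_one]
    exact hrt
  have hπL0 := IsLfUniformizer.ne_zero q L₁ hπL
  have hne := rmk_exists_ne_one q F L₁ hdeg
  have hI : ∀ s : L₁ ≃ₐ[F] L₁, s ≠ 1 →
      (rmI q F L₁ s : ℤ) = (q : ℤ) * lfOrd q F (ζ - 1) + 1 := by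
    intro s hs
    obtain ⟨hmove, hI⟩ := rmI_eq_uniformizer q F L₁ htr hπL s hs
    obtain ⟨η, hη, hsβ⟩ := rmk_kummer_action q F L₁ b β hβ0 hβ s
    have hsπ : s (β ^ r * (algebraMap F L₁ πF) ^ t) =
        η ^ r * (β ^ r * (algebraMap F L₁ πF) ^ t) := by
      rw [map_mul, map_pow, map_zpow₀, s.commutes, hsβ, mul_pow, mul_assoc]
    have hdiff : s (β ^ r * (algebraMap F L₁ πF) ^ t) - β ^ r * (algebraMap F L₁ πF) ^ t =
        (η ^ r - 1) * (β ^ r * (algebraMap F L₁ πF) ^ t) := by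
      rw [hsπ]; ring
    have hηr1 : η ^ r ≠ 1 := by
      intro h1
      apply hmove
      rw [hsπ, h1, one_mul]
    have hηrq : (η ^ r) ^ q = 1 := by rw [← pow_mul, mul_comm, pow_mul, hη, one_pow]
    have hv := rmk_ord_root_sub_one q F L₁ hζ hηrq hηr1
    rw [hram] at hv
    rw [hI, hdiff, lfOrd_mul q L₁ (sub_ne_zero.mpr hηr1) hπL0, hv, hπL]
  obtain ⟨s₀, hs₀⟩ := hne
  have hconst : ∀ s : L₁ ≃ₐ[F] L₁, s ≠ 1 → rmI q F L₁ s = rmI q F L₁ s₀ := by
    intro s hs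
    have := (hI s hs).trans (hI s₀ hs₀).symm
    exact_mod_cast this
  rw [rmk_rmU_of_const q F L₁ htr ⟨s₀, hs₀⟩ (rmI q F L₁ s₀) hconst]
  have h := hI s₀ hs₀
  have h' : ((rmI q F L₁ s₀ : ℤ) : ℚ) = (((q : ℤ) * lfOrd q F (ζ - 1) + 1 : ℤ) : ℚ) := by
    rw [h]
  push_cast at h'
  rw [h']
  ring

end KUc

section KUd

variable (q : ℕ) [Fact q.Prime]
  (F : Type) [Field F] [Algebra ℚ_[q] F] [FiniteDimensional ℚ_[q] F]

variable (L₁ : Type) [Field L₁] [Algebra ℚ_[q] L₁] [FiniteDimensional ℚ_[q] L₁]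
  [Algebra F L₁] [IsScalarTower ℚ_[q] F L₁] [IsGalois F L₁]

/-- BREAK, shape (B): `u = 1 + q · v_F(ζ - 1) - k`. -/
theorem rmU_kummer_level (hq2 : q ≠ 2) {ζ : F} (hζ : IsPrimitiveRoot ζ q) (htr : LfTotRam q F L₁)
    (hdeg : Module.finrank F L₁ = q) (x : F) (hx : x ≠ 0) (β : L₁)
    (hβ : β ^ q = algebraMap F L₁ (1 + x)) (h1 : 1 ≤ lfOrd q F x)
    (h2 : lfOrd q F x < lfOrd q F (q : F)) (h3 : ¬ (q : ℤ) ∣ lfOrd q F x) :
    rmU q F L₁ = 1 + (q : ℚ) * (lfOrd q F (ζ - 1) : ℚ) - (lfOrd q F x : ℚ) := by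
  have hqp : q.Prime := Fact.out
  have hq0 : (q : ℤ) ≠ 0 := by exact_mod_cast hqp.ne_zero
  have hqpos : (0 : ℤ) < (q : ℤ) := by exact_mod_cast hqp.pos
  have hram : lfRamIdx q F L₁ = q := by rw [rm_ramIdx_eq_finrank q F L₁ htr, hdeg]
  -- `1 + x` is a unit
  obtain ⟨hb0, hvb⟩ := rmk_lfOrd_add_eq (q := q) (K := F) (x := 1) (y := x) one_ne_zero
    (by rw [lfOrd_one]; exact rmkGe_of_le (by omega))
  rw [lfOrd_one] at hvb
  have hβ0 : β ≠ 0 := by
    rintro rfl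
    rw [zero_pow hqp.ne_zero] at hβ
    exact lfv_algebraMap_ne_zero F L₁ hb0 hβ.symm
  have hvβ : lfOrd q L₁ β = 0 := by
    have h := lfOrd_pow q L₁ β q
    rw [hβ, lfOrd_algebraMap, hvb, mul_zero] at h
    rcases mul_eq_zero.mp h.symm with h' | h'
    · exact absurd h' hq0
    · exact h'
  -- `y = β - 1` has `v_L(y) = k`
  have hxL0 : algebraMap F L₁ x ≠ 0 := lfv_algebraMap_ne_zero F L₁ hx
  have hvxL : lfOrd q L₁ (algebraMap F L₁ x) = (q : ℤ) * lfOrd q F x := by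
    rw [lfOrd_algebraMap, hram]
  have hcast : ((q : ℕ) : L₁) = algebraMap F L₁ ((q : ℕ) : F) := (map_natCast _ q).symm
  have hvqL : lfOrd q L₁ ((q : ℕ) : L₁) = (q : ℤ) * lfOrd q F ((q : ℕ) : F) := by
    rw [hcast, lfOrd_algebraMap, hram]
  have hxy : (1 + (β - 1)) ^ q = 1 + algebraMap F L₁ x := by
    rw [add_sub_cancel, hβ, map_add, map_one]
  obtain ⟨hy0, hvy⟩ := rmk_level_root q L₁ hxL0 (by rw [hvxL]; nlinarith)
    (by rw [hvxL, hvqL]; exact mul_lt_mul_of_pos_left h2 hqpos) hxy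
  rw [hvxL] at hvy
  have hvy' : lfOrd q L₁ (β - 1) = lfOrd q F x := mul_left_cancel₀ hq0 hvy
  -- the uniformizer
  obtain ⟨r, t, hrt, hr⟩ := rmk_bezout q (lfOrd q F x) h3
  obtain ⟨πF, hπF⟩ := exists_isLfUniformizer q F
  have hπF0 : πF ≠ 0 := IsLfUniformizer.ne_zero q F hπF
  have hπF1 : lfOrd q F πF = 1 := hπF
  have hπFL0 : algebraMap F L₁ πF ≠ 0 := lfv_algebraMap_ne_zero F L₁ hπF0
  have hz0 : (algebraMap F L₁ πF) ^ t ≠ 0 := zpow_ne_zero _ hπFL0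
  have hπL : IsLfUniformizer q L₁ ((β - 1) ^ r * (algebraMap F L₁ πF) ^ t) := by
    unfold IsLfUniformizer
    rw [lfOrd_mul q L₁ (pow_ne_zero r hy0) hz0, lfOrd_pow, lfOrd_zpow, lfOrd_algebraMap, hram,
      hπF1, hvy', mul_one]
    exact hrt
  have hπL0 := IsLfUniformizer.ne_zero q L₁ hπL
  -- `z = v_F(ζ - 1) > 0` and `k < q z`
  have hz := rmk_ord_zeta_sub_one q F hζ
  have hzpos : 0 < lfOrd q F (ζ - 1) := by
    have hq1 : (0 : ℤ) < (q : ℤ) - 1 := by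
      have : (2 : ℤ) ≤ q := by exact_mod_cast hqp.two_le
      omega
    have hpos := lro_lfOrd_prime_pos q F
    rw [← hz] at hpos
    by_contra hle
    rw [not_lt] at hle
    nlinarith
  have hne := rmk_exists_ne_one q F L₁ hdeg
  have hI : ∀ s : L₁ ≃ₐ[F] L₁, s ≠ 1 →
      (rmI q F L₁ s : ℤ) = (q : ℤ) * lfOrd q F (ζ - 1) - lfOrd q F x + 1 := by
    intro s hs
    obtain ⟨hmove, hI⟩ := rmI_eq_uniformizer q F L₁ htr hπL s hs
    obtain ⟨η, hη, hsβ⟩ := rmk_kummer_action q F L₁ (1 + x) β hβ0 hβ s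
    -- `u = s y / y`
    have hsy : s (β - 1) = η * β - 1 := by rw [map_sub, map_one, hsβ]
    obtain ⟨u, hu⟩ : ∃ u : L₁, u = (η * β - 1) / (β - 1) := ⟨_, rfl⟩
    have hsyu : s (β - 1) = u * (β - 1) := by rw [hsy, hu, div_mul_cancel₀ _ hy0]
    have hsπ : s ((β - 1) ^ r * (algebraMap F L₁ πF) ^ t) =
        u ^ r * ((β - 1) ^ r * (algebraMap F L₁ πF) ^ t) := by
      rw [map_mul, map_pow, map_zpow₀, s.commutes, hsyu, mul_pow, mul_assoc]
    have hdiff : s ((β - 1) ^ r * (algebraMap F L₁ πF) ^ t) -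
        (β - 1) ^ r * (algebraMap F L₁ πF) ^ t =
        (u ^ r - 1) * ((β - 1) ^ r * (algebraMap F L₁ πF) ^ t) := by
      rw [hsπ]; ring
    have hur1 : u ^ r ≠ 1 := by
      intro h1
      apply hmove
      rw [hsπ, h1, one_mul]
    have hu1 : u ≠ 1 := by
      rintro rfl
      exact hur1 (one_pow r)
    have hu1' : u - 1 = (η - 1) * β * (β - 1)⁻¹ := by
      rw [hu]
      field_simp
      ring
    have hη1 : η ≠ 1 := by
      rintro rfl
      apply hu1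
      rw [hu, one_mul, div_self hy0]
    have hvη := rmk_ord_root_sub_one q F L₁ hζ hη hη1
    rw [hram] at hvη
    have hvu : lfOrd q L₁ (u - 1) = (q : ℤ) * lfOrd q F (ζ - 1) - lfOrd q F x := by
      rw [hu1', lfOrd_mul q L₁ (mul_ne_zero (sub_ne_zero.mpr hη1) hβ0) (inv_ne_zero hy0),
        lfOrd_mul q L₁ (sub_ne_zero.mpr hη1) hβ0, lfOrd_inv, hvη, hvβ, hvy']
      ring
    have hvu1 : 1 ≤ lfOrd q L₁ (u - 1) := by
      rw [hvu]
      have : lfOrd q F x < ((q : ℤ) - 1) * lfOrd q F (ζ - 1) := by rw [hz]; exact h2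
      nlinarith
    obtain ⟨hne0, hveq⟩ := rmk_lfOrd_pow_sub_one q L₁ (sub_ne_zero.mpr hu1) hvu1 r hr
    rw [hI, hdiff, lfOrd_mul q L₁ hne0 hπL0, hveq, hvu, hπL]
  obtain ⟨s₀, hs₀⟩ := hne
  have hconst : ∀ s : L₁ ≃ₐ[F] L₁, s ≠ 1 → rmI q F L₁ s = rmI q F L₁ s₀ := by
    intro s hs
    have := (hI s hs).trans (hI s₀ hs₀).symm
    exact_mod_cast this
  rw [rmk_rmU_of_const q F L₁ htr ⟨s₀, hs₀⟩ (rmI q F L₁ s₀) hconst]
  have h := hI s₀ hs₀
  have h' : ((rmI q F L₁ s₀ : ℤ) : ℚ) =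
      (((q : ℤ) * lfOrd q F (ζ - 1) - lfOrd q F x + 1 : ℤ) : ℚ) := by
    rw [h]
  push_cast at h'
  rw [h']
  ring

end KUd

end Fermat.Agent.S56
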