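/-
S56 / FLAT / RAM block, leaf TT (helper4): tame transfer.
Statements VERBATIM from `Ram/Spec.lean` (helper24 c9614b0), section TT:
`rmI_restrictScalars`, `rmI_eq_one_of_tame`, `rmU_tame_transfer`.
Black boxes: the TR statements (`Ram/SpecTR.lean` = `Ram/Spec.lean` cut to section TR).
-/
import Fermat.Agent.S56.Ram.TotRam

set_option autoImplicit false
set_option linter.unusedSectionVars false
set_option linter.unusedVariables false

namespace Fermat.Agent.S56

open Fermat.Agent.S55 Polynomial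

section TTaux

variable (q : ℕ) [Fact q.Prime]
  (L : Type) [Field L] [Algebra ℚ_[q] L] [FiniteDimensional ℚ_[q] L]

/-- `v_L(n) = 0` for `q ∤ n`. -/
theorem rmtt_lfOrd_natCast (n : ℕ) (hn : ¬ q ∣ n) : lfOrd q L (n : L) = 0 := by
  have h : ((n : ℕ) : L) = algebraMap ℚ_[q] L (n : ℚ_[q]) := (map_natCast _ n).symm
  unfold lfOrd
  rw [h, lfv_lfVq_algebraMap, Padic.valuation_natCast, padicValNat.eq_zero_of_not_dvd hn]
  simp

/-- `v_L(k) ≥ 0` for every natural number `k ≠ 0`. -/
theorem rmtt_lfOrd_natCast_nonneg (k : ℕ) : 0 ≤ lfOrd q L (k : L) := by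
  have h : ((k : ℕ) : L) = algebraMap ℚ_[q] L (k : ℚ_[q]) := (map_natCast _ k).symm
  unfold lfOrd
  rw [h, lfv_lfVq_algebraMap, Padic.valuation_natCast]
  positivity

/-- the predicate "`x = 0` or `v_L(x) ≥ m`". -/
def RmttGe (m : ℤ) (x : L) : Prop := x = 0 ∨ m ≤ lfOrd q L x

theorem rmttGe_add {m : ℤ} {x y : L} (hx : RmttGe q L m x) (hy : RmttGe q L m y) :
    RmttGe q L m (x + y) := by
  rcases hx with rfl | hx
  · rwa [zero_add]
  rcases hy with rfl | hy
  · rw [add_zero]; exact Or.inr hx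
  by_cases hxy : x + y = 0
  · exact Or.inl hxy
  by_cases hx0 : x = 0
  · rw [hx0, zero_add]; exact Or.inr hy
  by_cases hy0 : y = 0
  · rw [hy0, add_zero]; exact Or.inr hx
  exact Or.inr ((le_min hx hy).trans (lfOrd_add_ge q L hx0 hy0 hxy))

theorem rmttGe_natCast_mul {m : ℤ} (k : ℕ) {x : L} (hx : RmttGe q L m x) :
    RmttGe q L m ((k : L) * x) := by
  rcases hx with rfl | hx
  · left; rw [mul_zero]
  by_cases hk : (k : L) = 0
  · left; rw [hk, zero_mul]
  by_cases hx0 : x = 0
  · left; rw [hx0, mul_zero]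
  right
  rw [lfOrd_mul q L hk hx0]
  have := rmtt_lfOrd_natCast_nonneg q L k
  linarith

end TTaux

section TTcore

variable (q : ℕ) [Fact q.Prime]
  (K : Type) [Field K] [Algebra ℚ_[q] K] [FiniteDimensional ℚ_[q] K]
  (L : Type) [Field L] [Algebra ℚ_[q] L] [FiniteDimensional ℚ_[q] L]
  [Algebra K L] [IsScalarTower ℚ_[q] K L] [IsGalois K L]

/-- if `i_G(s) ≥ 2` then `s^k z - z ≡ k (s z - z)` modulo elements of valuation `> v(s z - z)`. -/
theorem rmtt_pow_sub (htr : LfTotRam q K L) (s : L ≃ₐ[K] L) (hs : s ≠ 1)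
    (h2 : 2 ≤ rmI q K L s) (z : L) (hsz : s z ≠ z) (k : ℕ) :
    RmttGe q L (lfOrd q L (s z - z) + 1) ((s ^ k) z - z - (k : L) * (s z - z)) := by
  have hδ : s z - z ≠ 0 := sub_ne_zero.mpr hsz
  induction k with
  | zero => left; simp
  | succ k ih =>
    have h1 : RmttGe q L (lfOrd q L (s z - z) + 1) (s (s z - z) - (s z - z)) := by
      by_cases hfix : s (s z - z) = s z - z
      · left; rw [hfix, sub_self]
      · right
        have h := rm_ord_sub_ge q K L htr s hs hδ hfix
        have h2' : (2 : ℤ) ≤ (rmI q K L s : ℤ) := by exact_mod_cast h2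
        linarith
    have h3 : RmttGe q L (lfOrd q L (s z - z) + 1)
        (s ((s ^ k) z - z - (k : L) * (s z - z))) := by
      rcases ih with h0 | h0
      · left; rw [h0, map_zero]
      · right; rwa [lfOrd_algEquiv]
    have h4 := rmttGe_add q L (rmttGe_natCast_mul q L k h1) h3
    have e : (s ^ (k + 1)) z - z - ((k + 1 : ℕ) : L) * (s z - z)
        = (k : L) * (s (s z - z) - (s z - z)) + s ((s ^ k) z - z - (k : L) * (s z - z)) := by
      have e1 : (s ^ (k + 1)) z = s ((s ^ k) z) := by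
        rw [pow_succ']; rfl
      rw [e1]
      simp only [map_sub, map_mul, map_natCast, Nat.cast_add, Nat.cast_one]
      ring
    rw [e]
    exact h4

/-- if `i_G(s) ≥ 2` and `q ∤ n`, then `s^n` moves every element moved by `s`. -/
theorem rmtt_pow_apply_ne (htr : LfTotRam q K L) (s : L ≃ₐ[K] L) (hs : s ≠ 1)
    (h2 : 2 ≤ rmI q K L s) (z : L) (hsz : s z ≠ z) (n : ℕ) (hn : ¬ q ∣ n) :
    (s ^ n) z ≠ z := by
  intro hfix
  have hδ : s z - z ≠ 0 := sub_ne_zero.mpr hsz
  have hcz : CharZero L :=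
    charZero_of_injective_algebraMap (FaithfulSMul.algebraMap_injective ℚ_[q] L)
  have hn0 : n ≠ 0 := by
    rintro rfl
    exact hn (dvd_zero q)
  have hnL : (n : L) ≠ 0 := Nat.cast_ne_zero.mpr hn0
  have h := rmtt_pow_sub q K L htr s hs h2 z hsz n
  rw [hfix, sub_self, zero_sub] at h
  rcases h with h | h
  · exact (mul_ne_zero hnL hδ) (neg_eq_zero.mp h)
  · rw [lfOrd_neg, lfOrd_mul q L hnL hδ, rmtt_lfOrd_natCast q L n hn] at h
    linarith

end TTcore

/-! ## TT : tame transfer -/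

section TT

variable (q : ℕ) [Fact q.Prime]
  (K : Type) [Field K] [Algebra ℚ_[q] K] [FiniteDimensional ℚ_[q] K]
  (F : Type) [Field F] [Algebra ℚ_[q] F] [FiniteDimensional ℚ_[q] F]
  [Algebra K F] [IsScalarTower ℚ_[q] K F]
  (L : Type) [Field L] [Algebra ℚ_[q] L] [FiniteDimensional ℚ_[q] L]
  [Algebra K L] [IsScalarTower ℚ_[q] K L] [Algebra F L] [IsScalarTower ℚ_[q] F L]
  [IsScalarTower K F L] [IsGalois K L] [IsGalois K F]

/-- `i_G` restricted to `Gal(L/F)` is `i_{Gal(L/F)}`. -/
theorem rmI_restrictScalars (s : L ≃ₐ[F] L) :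
    rmI q K L (s.restrictScalars K) = rmI q F L s := by
  rfl

/-- in a totally ramified tower, both steps are totally ramified. -/
theorem rmtt_totRam_tower (htr : LfTotRam q K L) : LfTotRam q K F ∧ LfTotRam q F L := by
  have h := lfInertiaDeg_tower q K F L
  unfold LfTotRam at htr ⊢
  rw [htr] at h
  exact ⟨Nat.eq_one_of_mul_eq_one_right h.symm, Nat.eq_one_of_mul_eq_one_left h.symm⟩

/-- the order of `Gal(F/K)` is `e(F/K)` when `L/K` is totally ramified. -/
theorem rmtt_card_eq_ramIdx (htr : LfTotRam q K L) :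
    Nat.card (F ≃ₐ[K] F) = lfRamIdx q K F := by
  have hF : FiniteDimensional K F := FiniteDimensional.right ℚ_[q] K F
  rw [IsGalois.card_aut_eq_finrank,
    ← rm_ramIdx_eq_finrank q K F (rmtt_totRam_tower q K F L htr).1]

/-- for `F/K` tame, the elements of `G` outside `Gal(L/F)` have `i_G = 1`. -/
theorem rmI_eq_one_of_tame (htr : LfTotRam q K L) (htame : LfTame q K F) (s : L ≃ₐ[K] L)
    (hs : AlgEquiv.restrictNormalHom F s ≠ 1) : rmI q K L s = 1 := by
  have hs1 : s ≠ 1 := by
    rintro rfl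
    exact hs (map_one _)
  have hpos := rmI_pos q K L htr s hs1
  refine le_antisymm ?_ hpos
  by_contra hlt
  have h2 : 2 ≤ rmI q K L s := by omega
  -- an element of `F` moved by the restriction of `s`
  obtain ⟨z₀, hz₀⟩ : ∃ z₀ : F, AlgEquiv.restrictNormalHom F s z₀ ≠ z₀ := by
    by_contra hall
    simp only [not_exists, ne_eq, not_not] at hall
    exact hs (AlgEquiv.ext hall)
  have hcomm : ∀ (t : L ≃ₐ[K] L) (x : F),
      t (algebraMap F L x) = algebraMap F L (AlgEquiv.restrictNormalHom F t x) :=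
    fun t x => (AlgEquiv.restrictNormal_commutes t F x).symm
  have hsz : s (algebraMap F L z₀) ≠ algebraMap F L z₀ := by
    rw [hcomm]
    exact fun h => hz₀ ((algebraMap F L).injective h)
  have hcard := rmtt_card_eq_ramIdx q K F L htr
  have hn : ¬ q ∣ Nat.card (F ≃ₐ[K] F) := by
    rw [hcard]; exact htame
  refine rmtt_pow_apply_ne q K L htr s hs1 h2 _ hsz _ hn ?_
  rw [hcomm, map_pow, pow_card_eq_one']
  rfl

/-- the restriction to `F` of an element of `Gal(L/F)` is trivial. -/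
theorem rmtt_restrictNormalHom_restrictScalars (h : L ≃ₐ[F] L) :
    AlgEquiv.restrictNormalHom F (h.restrictScalars K) = 1 := by
  ext x
  apply (algebraMap F L).injective
  have h1 := AlgEquiv.restrictNormal_commutes (h.restrictScalars K) F x
  have h2 : AlgEquiv.restrictNormalHom F (h.restrictScalars K) x
      = (h.restrictScalars K).restrictNormal F x := rfl
  rw [h2, h1]
  simp

/-- an element of `G` with trivial restriction to `F` comes from `Gal(L/F)`. -/
theorem rmtt_exists_of_restrictNormalHom_eq_one (s : L ≃ₐ[K] L)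
    (hs : AlgEquiv.restrictNormalHom F s = 1) :
    ∃ h : L ≃ₐ[F] L, h.restrictScalars K = s := by
  have hfix : ∀ x : F, s.toRingEquiv (algebraMap F L x) = algebraMap F L x := by
    intro x
    have h1 := AlgEquiv.restrictNormal_commutes s F x
    have h2 : s.restrictNormal F x = AlgEquiv.restrictNormalHom F s x := rfl
    rw [h2, hs] at h1
    exact h1.symm
  refine ⟨AlgEquiv.ofRingEquiv (f := s.toRingEquiv) hfix, ?_⟩
  ext x
  rfl

theorem rmtt_restrictScalars_ne_one {h : L ≃ₐ[F] L} (hh : h ≠ 1) : h.restrictScalars K ≠ 1 := by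
  intro h1
  apply hh
  ext x
  have := AlgEquiv.congr_fun h1 x
  exact this

/-- `i*_{L/K} = i*_{L/F}`. -/
theorem rmtt_rmIMax_eq (htr : LfTotRam q K L) (htame : LfTame q K F)
    (hne : ∃ s : L ≃ₐ[F] L, s ≠ 1) : rmIMax q K L = rmIMax q F L := by
  have hGalFL : IsGalois F L := IsGalois.tower_top_of_isGalois K F L
  have htrFL := (rmtt_totRam_tower q K F L htr).2
  obtain ⟨s₀, hs₀⟩ := hne
  have hneK : ∃ s : L ≃ₐ[K] L, s ≠ 1 := ⟨_, rmtt_restrictScalars_ne_one K F L hs₀⟩
  apply le_antisymm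
  · obtain ⟨s, hs1, hs⟩ := rm_exists_rmI_eq_rmIMax q K L hneK
    rw [← hs]
    by_cases hbar : AlgEquiv.restrictNormalHom F s = 1
    · obtain ⟨h, rfl⟩ := rmtt_exists_of_restrictNormalHom_eq_one K F L s hbar
      have hh : h ≠ 1 := by
        rintro rfl
        exact hs1 rfl
      rw [rmI_restrictScalars]
      exact rmI_le_rmIMax q F L h hh
    · rw [rmI_eq_one_of_tame q K F L htr htame s hbar]
      exact (rmI_pos q F L htrFL s₀ hs₀).trans (rmI_le_rmIMax q F L s₀ hs₀)
  · obtain ⟨h, hh1, hh⟩ := rm_exists_rmI_eq_rmIMax q F L ⟨s₀, hs₀⟩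
    rw [← hh, ← rmI_restrictScalars q K F L h]
    exact rmI_le_rmIMax q K L _ (rmtt_restrictScalars_ne_one K F L hh1)

/-- `∑ᶠ` over the non-trivial elements of a finite group as a `Finset` sum. -/
theorem rmtt_finsum_ne_one {G : Type} [Group G] [Fintype G] [DecidableEq G] (f : G → ℚ) :
    ∑ᶠ (s : G) (_ : s ≠ 1), f s = ∑ s : G, if s ≠ 1 then f s else 0 := by
  rw [finsum_eq_sum_of_fintype]
  refine Finset.sum_congr rfl fun s _ => ?_
  exact finsum_eq_if

/-- `Φ_{L/K}(i) = Φ_{L/F}(i) + (|G| - |H|)` for `i ≥ 1`. -/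
theorem rmtt_rmPhi_eq (htr : LfTotRam q K L) (htame : LfTame q K F) (i : ℚ) (hi : 1 ≤ i) :
    rmPhi q K L i = rmPhi q F L i + ((Module.finrank K L : ℚ) - (Module.finrank F L : ℚ)) := by
  classical
  have hGalFL : IsGalois F L := IsGalois.tower_top_of_isGalois K F L
  have hKL : FiniteDimensional K L := FiniteDimensional.right ℚ_[q] K L
  have hFL : FiniteDimensional F L := FiniteDimensional.right ℚ_[q] F L
  let _ : Fintype (L ≃ₐ[K] L) := Fintype.ofFinite _
  let _ : Fintype (L ≃ₐ[F] L) := Fintype.ofFinite _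
  set φ : (L ≃ₐ[F] L) → (L ≃ₐ[K] L) := fun h => h.restrictScalars K with hφ
  have hφinj : Function.Injective φ := AlgEquiv.restrictScalars_injective K
  have hfilter : (Finset.univ.filter fun s : L ≃ₐ[K] L => AlgEquiv.restrictNormalHom F s = 1)
      = Finset.univ.image φ := by
    ext s
    simp only [Finset.mem_filter, Finset.mem_univ, true_and, Finset.mem_image]
    constructor
    · intro hs
      exact rmtt_exists_of_restrictNormalHom_eq_one K F L s hs
    · rintro ⟨h, rfl⟩
      exact rmtt_restrictNormalHom_restrictScalars K F L h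
  have hcardG : (Finset.univ : Finset (L ≃ₐ[K] L)).card = Module.finrank K L := by
    rw [Finset.card_univ, ← Nat.card_eq_fintype_card, IsGalois.card_aut_eq_finrank]
  have hcardH : (Finset.univ : Finset (L ≃ₐ[F] L)).card = Module.finrank F L := by
    rw [Finset.card_univ, ← Nat.card_eq_fintype_card, IsGalois.card_aut_eq_finrank]
  unfold rmPhi
  rw [rmtt_finsum_ne_one, rmtt_finsum_ne_one,
    ← Finset.sum_filter_add_sum_filter_not Finset.univ
      (fun s : L ≃ₐ[K] L => AlgEquiv.restrictNormalHom F s = 1), hfilter,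
    Finset.sum_image (fun a _ b _ hab => hφinj hab)]
  have hA : ∀ h : L ≃ₐ[F] L, (if φ h ≠ 1 then min i (rmI q K L (φ h) : ℚ) else 0)
      = if h ≠ 1 then min i (rmI q F L h : ℚ) else 0 := by
    intro h
    by_cases hh : h = 1
    · subst hh
      have : φ 1 = 1 := rfl
      simp [this]
    · have h1 : φ h ≠ 1 := rmtt_restrictScalars_ne_one K F L hh
      rw [if_pos h1, if_pos hh]
      rfl
  have hB : ∀ s ∈ Finset.univ.filter (fun s : L ≃ₐ[K] L => ¬ AlgEquiv.restrictNormalHom F s = 1),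
      (if s ≠ 1 then min i (rmI q K L s : ℚ) else 0) = 1 := by
    intro s hs
    rw [Finset.mem_filter] at hs
    have hs1 : s ≠ 1 := by
      rintro rfl
      exact hs.2 (map_one _)
    rw [if_pos hs1, rmI_eq_one_of_tame q K F L htr htame s hs.2, Nat.cast_one, min_eq_right hi]
  rw [Finset.sum_congr rfl (fun h _ => hA h), Finset.sum_congr rfl hB, Finset.sum_const,
    nsmul_eq_mul, mul_one]
  have hcount := Finset.card_filter_add_card_filter_not (s := Finset.univ)
    (fun s : L ≃ₐ[K] L => AlgEquiv.restrictNormalHom F s = 1)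
  rw [hfilter, Finset.card_image_of_injective _ hφinj, hcardG, hcardH] at hcount
  have hcount' : ((Finset.univ.filter
      (fun s : L ≃ₐ[K] L => ¬ AlgEquiv.restrictNormalHom F s = 1)).card : ℚ)
      = (Module.finrank K L : ℚ) - (Module.finrank F L : ℚ) := by
    rw [← hcount]
    push_cast
    ring
  rw [hcount']
  ring

/-- TAME TRANSFER: `u_{L/K} = 1 - 1/e(F/K) + u_{L/F} / e(F/K)` for `K ⊆ F ⊆ L`, `F/K` tame,
`L/K` totally ramified, `L ≠ F`. -/
theorem rmU_tame_transfer (htr : LfTotRam q K L) (htame : LfTame q K F)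
    (hne : ∃ s : L ≃ₐ[F] L, s ≠ 1) :
    rmU q K L = 1 - 1 / (lfRamIdx q K F : ℚ) + rmU q F L / (lfRamIdx q K F : ℚ) := by
  have hGalFL : IsGalois F L := IsGalois.tower_top_of_isGalois K F L
  have htrFL := (rmtt_totRam_tower q K F L htr).2
  have hmax := rmtt_rmIMax_eq q K F L htr htame hne
  obtain ⟨s₀, hs₀⟩ := hne
  have hi : (1 : ℚ) ≤ (rmIMax q F L : ℚ) := by
    have := (rmI_pos q F L htrFL s₀ hs₀).trans (rmI_le_rmIMax q F L s₀ hs₀)
    exact_mod_cast this
  have hPhi := rmtt_rmPhi_eq q K F L htr htame (rmIMax q F L : ℚ) hi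
  have heKL := rm_ramIdx_eq_finrank q K L htr
  have heFL := rm_ramIdx_eq_finrank q F L htrFL
  have htower := lfRamIdx_tower q K F L
  have h1 : (lfRamIdx q K F : ℚ) ≠ 0 := by
    exact_mod_cast (lfRamIdx_pos q K F).ne'
  have h2 : (lfRamIdx q F L : ℚ) ≠ 0 := by
    exact_mod_cast (lfRamIdx_pos q F L).ne'
  unfold rmU
  rw [hmax, hPhi, ← heKL, ← heFL, htower]
  push_cast
  field_simp
  ring

end TT

end Fermat.Agent.S56
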