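/-
S56 / FLAT / RAM block (helper24), TOP, layer 1: the numerical core on an abstract tower
`ℚ_p ⊆ K₀ ⊆ F₀ ⊆ L₁ ⊆ L` (`K₀/ℚ_p` unramified, `L/K₀` totally ramified Galois, `F₀/K₀` tame Galois,
`L₁ = F₀(b₁^{1/p})` cyclic of degree `p`): Fontaine's bound over `K₀` + tame transfer + Herbrand +
the Kummer break force the level of `b₁` to be `≥ v(p)`.
-/
import Fermat.Agent.S56.Ram.TotRam
import Fermat.Agent.S56.Ram.FontaineII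
import Fermat.Agent.S56.Ram.Tame
import Fermat.Agent.S56.Ram.MaxUnram
import Fermat.Agent.S56.Ram.Herbrand
import Fermat.Agent.S56.Ram.Kummer

set_option autoImplicit false
set_option linter.unusedSectionVars false
set_option linter.unusedVariables false

namespace Fermat.Agent.S56

open Fermat.Agent.S55 Polynomial

section Prime

variable (q : ℕ) [Fact q.Prime]
  (K : Type) [Field K] [Algebra ℚ_[q] K] [FiniteDimensional ℚ_[q] K]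

theorem rm_lfOrd_prime_base : lfOrd q ℚ_[q] ((q : ℕ) : ℚ_[q]) = 1 := by
  have h := lfOrd_prime_mul_lfAbsInertiaDeg q ℚ_[q]
  rw [Module.finrank_self] at h
  have hpos := lro_lfOrd_prime_pos q ℚ_[q]
  exact Int.eq_one_of_mul_eq_one_right hpos.le (by exact_mod_cast h)

/-- `v_K(q) = e(K/ℚ_q)`. -/
theorem rm_lfOrd_prime : lfOrd q K ((q : ℕ) : K) = (lfRamIdx q ℚ_[q] K : ℤ) := by
  have h := lfOrd_algebraMap q ℚ_[q] K ((q : ℕ) : ℚ_[q])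
  rw [map_natCast, rm_lfOrd_prime_base, mul_one] at h
  exact h

end Prime

section Numeric

/-- the arithmetic heart of RAM-TOP. -/
theorem rm_top_numeric (p e₀ e₁ : ℕ) (hp : 2 ≤ p) (he₀ : 0 < e₀) (he₁ : p ≤ e₁)
    (u u' u₁ : ℚ) (t k : ℤ)
    (H1 : ∀ m : ℚ, (p : ℚ) / ((p : ℚ) - 1) < m → u - 1 / ((e₀ * e₁ : ℕ) : ℚ) < m)
    (H2 : u = 1 - 1 / (e₀ : ℚ) + u' / (e₀ : ℚ))
    (H3 : u₁ ≤ u')
    (H4 : u₁ = 1 + (p : ℚ) * (t : ℚ) - (k : ℚ))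
    (Ht : ((p : ℤ) - 1) * t = (e₀ : ℤ)) (Hk : k < (e₀ : ℤ)) : False := by
  have hp0 : (0 : ℚ) < (p : ℚ) := by exact_mod_cast (by omega : 0 < p)
  have hp1 : (0 : ℚ) < (p : ℚ) - 1 := by
    have : (2 : ℚ) ≤ (p : ℚ) := by exact_mod_cast hp
    linarith
  have he₀' : (0 : ℚ) < (e₀ : ℚ) := by exact_mod_cast he₀
  have he₁pos : 0 < e₁ := by omega
  have he₁' : (0 : ℚ) < (e₁ : ℚ) := by exact_mod_cast he₁pos
  -- `u - 1/e_L ≤ p/(p-1)`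
  have h1 : u - 1 / ((e₀ * e₁ : ℕ) : ℚ) ≤ (p : ℚ) / ((p : ℚ) - 1) :=
    le_of_forall_gt_imp_ge_of_dense (fun m hm => (H1 m hm).le)
  -- `u' = e₀ (u - 1) + 1`
  have h2 : u' = (e₀ : ℚ) * (u - 1) + 1 := by
    rw [H2]; field_simp; ring
  have hcast : ((e₀ * e₁ : ℕ) : ℚ) = (e₀ : ℚ) * (e₁ : ℚ) := by push_cast; ring
  rw [hcast] at h1
  have ht : ((p : ℚ) - 1) * (t : ℚ) = (e₀ : ℚ) := by exact_mod_cast Ht
  have hk : (k : ℚ) + 1 ≤ (e₀ : ℚ) := by exact_mod_cast Hk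
  -- `u' ≤ t + 1/e₁ + 1`
  have h3 : u' ≤ (t : ℚ) + 1 / (e₁ : ℚ) + 1 := by
    rw [h2]
    have h4 : u ≤ (p : ℚ) / ((p : ℚ) - 1) + 1 / ((e₀ : ℚ) * (e₁ : ℚ)) := by linarith
    have h5 : (e₀ : ℚ) * (u - 1) ≤
        (e₀ : ℚ) * ((p : ℚ) / ((p : ℚ) - 1) + 1 / ((e₀ : ℚ) * (e₁ : ℚ)) - 1) :=
      mul_le_mul_of_nonneg_left (by linarith) he₀'.le
    have h6 : (e₀ : ℚ) * ((p : ℚ) / ((p : ℚ) - 1) + 1 / ((e₀ : ℚ) * (e₁ : ℚ)) - 1) =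
        (t : ℚ) + 1 / (e₁ : ℚ) := by
      have ht' : (t : ℚ) = (e₀ : ℚ) / ((p : ℚ) - 1) := by
        rw [eq_div_iff hp1.ne']; linarith
      rw [ht']; field_simp; ring
    linarith
  -- `e₀ - k ≤ 1/e₁`
  have h7 : (e₀ : ℚ) - (k : ℚ) ≤ 1 / (e₁ : ℚ) := by
    have : 1 + (p : ℚ) * (t : ℚ) - (k : ℚ) ≤ (t : ℚ) + 1 / (e₁ : ℚ) + 1 := by
      rw [← H4]; exact H3.trans h3
    rw [← ht]; linarith
  have h8 : 1 / (e₁ : ℚ) ≤ 1 / (p : ℚ) :=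
    one_div_le_one_div_of_le hp0 (by exact_mod_cast he₁)
  have h9 : 1 / (p : ℚ) < 1 := by
    rw [div_lt_one hp0]
    have : (2 : ℚ) ≤ (p : ℚ) := by exact_mod_cast hp
    linarith
  linarith

end Numeric

section Core

variable (p : ℕ) [Fact p.Prime]
  (K₀ : Type) [Field K₀] [Algebra ℚ_[p] K₀] [FiniteDimensional ℚ_[p] K₀]
  (F₀ : Type) [Field F₀] [Algebra ℚ_[p] F₀] [FiniteDimensional ℚ_[p] F₀]
  (L₁ : Type) [Field L₁] [Algebra ℚ_[p] L₁] [FiniteDimensional ℚ_[p] L₁]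
  (L : Type) [Field L] [Algebra ℚ_[p] L] [FiniteDimensional ℚ_[p] L]
  [Algebra K₀ F₀] [IsScalarTower ℚ_[p] K₀ F₀]
  [Algebra K₀ L] [IsScalarTower ℚ_[p] K₀ L]
  [Algebra F₀ L] [IsScalarTower ℚ_[p] F₀ L] [IsScalarTower K₀ F₀ L]
  [Algebra F₀ L₁] [IsScalarTower ℚ_[p] F₀ L₁]
  [Algebra L₁ L] [IsScalarTower ℚ_[p] L₁ L] [IsScalarTower F₀ L₁ L]
  [IsGalois K₀ L] [IsGalois K₀ F₀] [IsGalois F₀ L] [IsGalois F₀ L₁]

/-- CORE of RAM-TOP on an abstract tower: a cyclic Kummer subextension `L₁/F₀` of degree `p` of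
`L` cannot have break `u_{L₁/F₀} = 1 + p v(ζ-1) - k` with `k < v_{F₀}(p)`. -/
theorem rm_top_core (hp2 : p ≠ 2) (hur : LfUnramified p ℚ_[p] K₀) (htr : LfTotRam p K₀ L)
    (htame : LfTame p K₀ F₀)
    (hPM : ∀ m : ℚ, (p : ℚ) / ((p : ℚ) - 1) < m → RmPM p K₀ L m)
    {ζ : F₀} (hζ : IsPrimitiveRoot ζ p) (hdeg : Module.finrank F₀ L₁ = p)
    (k : ℤ) (hk : k < lfOrd p F₀ ((p : ℕ) : F₀))
    (hU : rmU p F₀ L₁ = 1 + (p : ℚ) * (lfOrd p F₀ (ζ - 1) : ℚ) - (k : ℚ)) : False := by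
  have hp : p.Prime := Fact.out
  have hfdF₀L : FiniteDimensional F₀ L := FiniteDimensional.right ℚ_[p] F₀ L
  have hfdL₁L : FiniteDimensional L₁ L := FiniteDimensional.right ℚ_[p] L₁ L
  have hfdF₀L₁ : FiniteDimensional F₀ L₁ := FiniteDimensional.right ℚ_[p] F₀ L₁
  obtain ⟨htrK₀F₀, htrF₀L⟩ := rm_totRam_tower p K₀ L F₀ htr
  -- `e(L/F₀) ≥ p`
  have he₁ : p ≤ lfRamIdx p F₀ L := by
    rw [rm_ramIdx_eq_finrank p F₀ L htrF₀L, ← Module.finrank_mul_finrank F₀ L₁ L, hdeg]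
    exact Nat.le_mul_of_pos_right p Module.finrank_pos
  -- non-trivial automorphisms
  have hneF₀ : ∃ s : L ≃ₐ[F₀] L, s ≠ 1 := by
    have hcard := IsGalois.card_aut_eq_finrank F₀ L
    rw [← rm_ramIdx_eq_finrank p F₀ L htrF₀L] at hcard
    have h1 : 1 < Nat.card (L ≃ₐ[F₀] L) := by
      rw [hcard]; exact lt_of_lt_of_le hp.one_lt he₁
    have h2 : Nontrivial (L ≃ₐ[F₀] L) := Finite.one_lt_card_iff_nontrivial.mp h1
    exact exists_ne 1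
  have hneK₀ : ∃ s : L ≃ₐ[K₀] L, s ≠ 1 := by
    obtain ⟨s, hs⟩ := hneF₀
    exact ⟨s.restrictScalars K₀, rmtt_restrictScalars_ne_one K₀ F₀ L hs⟩
  -- the four inputs
  have H1 : ∀ m : ℚ, (p : ℚ) / ((p : ℚ) - 1) < m →
      rmU p K₀ L - 1 / (((lfRamIdx p K₀ F₀) * (lfRamIdx p F₀ L) : ℕ) : ℚ) < m := by
    intro m hm
    have := rm_fontaine_ii p K₀ L htr hneK₀ m (hPM m hm)
    rwa [lfRamIdx_tower p K₀ F₀ L] at this
  have H2 := rmU_tame_transfer p K₀ F₀ L htr htame hneF₀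
  have H3 := rmU_le_of_tower p F₀ L₁ L htrF₀L
  have Ht : ((p : ℤ) - 1) * lfOrd p F₀ (ζ - 1) = (lfRamIdx p K₀ F₀ : ℤ) := by
    rw [rm_ord_zeta_sub_one p F₀ hζ, rm_lfOrd_prime, lfRamIdx_tower p ℚ_[p] K₀ F₀, hur, one_mul]
  have Hk : k < (lfRamIdx p K₀ F₀ : ℤ) := by
    rw [rm_lfOrd_prime, lfRamIdx_tower p ℚ_[p] K₀ F₀, hur, one_mul] at hk
    exact hk
  exact rm_top_numeric p (lfRamIdx p K₀ F₀) (lfRamIdx p F₀ L) hp.two_le (lfRamIdx_pos p K₀ F₀)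
    he₁ _ _ _ _ k H1 H2 H3 hU Ht Hk

end Core

section Mid

variable (p : ℕ) [Fact p.Prime]
  (K₀ : Type) [Field K₀] [Algebra ℚ_[p] K₀] [FiniteDimensional ℚ_[p] K₀]
  (F₀ : Type) [Field F₀] [Algebra ℚ_[p] F₀] [FiniteDimensional ℚ_[p] F₀]
  (L : Type) [Field L] [Algebra ℚ_[p] L] [FiniteDimensional ℚ_[p] L]
  [Algebra K₀ F₀] [IsScalarTower ℚ_[p] K₀ F₀]
  [Algebra K₀ L] [IsScalarTower ℚ_[p] K₀ L]
  [Algebra F₀ L] [IsScalarTower ℚ_[p] F₀ L] [IsScalarTower K₀ F₀ L]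
  [IsGalois K₀ L] [IsGalois K₀ F₀] [IsGalois F₀ L]

/-- the Kummer extension `F₀(β) ⊆ L`, `β^p = b₁` not a `p`-th power, `ζ_p ∈ F₀`: degree `p` and
Galois. -/
theorem rm_kummer_adjoin {ζ : F₀} (hζ : IsPrimitiveRoot ζ p) (b₁ : F₀) (β : L)
    (hβ : β ^ p = algebraMap F₀ L b₁) (hnp : ∀ c : F₀, c ^ p ≠ b₁) :
    Module.finrank F₀ ↥(IntermediateField.adjoin F₀ {β}) = p ∧
      IsGalois F₀ ↥(IntermediateField.adjoin F₀ {β}) := by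
  have hp : p.Prime := Fact.out
  have hfd : FiniteDimensional F₀ L := FiniteDimensional.right ℚ_[p] F₀ L
  have hint : IsIntegral F₀ β := Algebra.IsIntegral.isIntegral β
  have hirr : Irreducible (X ^ p - C b₁ : F₀[X]) := X_pow_sub_C_irreducible_of_prime hp hnp
  have hroot : aeval β (X ^ p - C b₁ : F₀[X]) = 0 := by
    rw [map_sub, aeval_X_pow, aeval_C, hβ, sub_self]
  have hmin : (X ^ p - C b₁ : F₀[X]) = minpoly F₀ β :=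
    minpoly.eq_of_irreducible_of_monic hirr hroot (monic_X_pow_sub_C b₁ hp.ne_zero)
  have hdeg : Module.finrank F₀ ↥(IntermediateField.adjoin F₀ {β}) = p := by
    rw [IntermediateField.adjoin.finrank hint, ← hmin, natDegree_X_pow_sub_C]
  refine ⟨hdeg, ?_⟩
  have hmem : β ∈ IntermediateField.adjoin F₀ {β} := IntermediateField.mem_adjoin_simple_self F₀ β
  have hprim : (primitiveRoots p F₀).Nonempty := ⟨ζ, (mem_primitiveRoots hp.pos).mpr hζ⟩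
  have hβ₁ : (⟨β, hmem⟩ : ↥(IntermediateField.adjoin F₀ {β})) ^ p =
      algebraMap F₀ ↥(IntermediateField.adjoin F₀ {β}) b₁ := Subtype.ext hβ
  have hsplit : IsSplittingField F₀ ↥(IntermediateField.adjoin F₀ {β}) (X ^ p - C b₁) := by
    constructor
    · rw [Polynomial.map_sub, Polynomial.map_pow, Polynomial.map_C, Polynomial.map_X]
      exact X_pow_sub_C_splits_of_isPrimitiveRoot
        (hζ.map_of_injective (algebraMap F₀ _).injective) hβ₁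
    · rw [eq_top_iff, ← rmmu_adjoin_subtype_eq_top F₀ L (IntermediateField.adjoin F₀ {β}) β hint
        rfl hmem]
      apply Algebra.adjoin_mono
      rw [Set.singleton_subset_iff, mem_rootSet_of_ne (X_pow_sub_C_ne_zero hp.pos b₁),
        map_sub, aeval_X_pow, aeval_C, hβ₁, sub_self]
  exact isGalois_of_isSplittingField_X_pow_sub_C hprim hirr _

/-- MID layer: constructs `L₁ = F₀(β)` inside `L` and applies the core. -/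
theorem rm_top_mid (hp2 : p ≠ 2) (hur : LfUnramified p ℚ_[p] K₀) (htr : LfTotRam p K₀ L)
    (htame : LfTame p K₀ F₀)
    (hPM : ∀ m : ℚ, (p : ℚ) / ((p : ℚ) - 1) < m → RmPM p K₀ L m)
    {ζ : F₀} (hζ : IsPrimitiveRoot ζ p) (b₁ : F₀) (β : L)
    (hβ : β ^ p = algebraMap F₀ L b₁) (hnp : ∀ c : F₀, c ^ p ≠ b₁)
    (k : ℤ) (hk : k < lfOrd p F₀ ((p : ℕ) : F₀))
    (hbreak : ∀ (L₁ : Type) [Field L₁] [Algebra ℚ_[p] L₁] [FiniteDimensional ℚ_[p] L₁]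
      [Algebra F₀ L₁] [IsScalarTower ℚ_[p] F₀ L₁] [IsGalois F₀ L₁], LfTotRam p F₀ L₁ →
      Module.finrank F₀ L₁ = p → ∀ β₁ : L₁, β₁ ^ p = algebraMap F₀ L₁ b₁ →
      rmU p F₀ L₁ = 1 + (p : ℚ) * (lfOrd p F₀ (ζ - 1) : ℚ) - (k : ℚ)) : False := by
  obtain ⟨hdeg, hgal⟩ := rm_kummer_adjoin p F₀ L hζ b₁ β hβ hnp
  have hfdL₁ := rm_finiteDimensional_intermediate p F₀ L (IntermediateField.adjoin F₀ {β})
  have htow := rmmu_isScalarTower p F₀ L (IntermediateField.adjoin F₀ {β})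
  obtain ⟨_, htrF₀L⟩ := rm_totRam_tower p K₀ L F₀ htr
  have htrL₁ : LfTotRam p F₀ ↥(IntermediateField.adjoin F₀ {β}) :=
    (rm_totRam_tower p F₀ L ↥(IntermediateField.adjoin F₀ {β}) htrF₀L).1
  have hmem : β ∈ IntermediateField.adjoin F₀ {β} := IntermediateField.mem_adjoin_simple_self F₀ β
  have hU := hbreak ↥(IntermediateField.adjoin F₀ {β}) htrL₁ hdeg ⟨β, hmem⟩ (Subtype.ext hβ)
  exact rm_top_core p K₀ F₀ ↥(IntermediateField.adjoin F₀ {β}) L hp2 hur htr htame hPM hζ hdeg k hk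
    hU

/-- shape (A) is impossible. -/
theorem rm_top_caseA (hp2 : p ≠ 2) (hur : LfUnramified p ℚ_[p] K₀) (htr : LfTotRam p K₀ L)
    (htame : LfTame p K₀ F₀)
    (hPM : ∀ m : ℚ, (p : ℚ) / ((p : ℚ) - 1) < m → RmPM p K₀ L m)
    {ζ : F₀} (hζ : IsPrimitiveRoot ζ p) (b₁ : F₀) (hb₁ : b₁ ≠ 0) (β : L)
    (hβ : β ^ p = algebraMap F₀ L b₁) (hA : ¬ (p : ℤ) ∣ lfOrd p F₀ b₁) : False := by
  refine rm_top_mid p K₀ F₀ L hp2 hur htr htame hPM hζ b₁ β hβ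
    (fun c => rm_not_pow_of_ord p F₀ b₁ hb₁ hA c) 0 (lro_lfOrd_prime_pos p F₀) ?_
  intro L₁ _ _ _ _ _ _ htr₁ hdeg β₁ hβ₁
  rw [rmU_kummer_ord p F₀ L₁ hp2 hζ htr₁ hdeg b₁ β₁ hβ₁ hA]
  push_cast; ring

/-- shape (B) is impossible. -/
theorem rm_top_caseB (hp2 : p ≠ 2) (hur : LfUnramified p ℚ_[p] K₀) (htr : LfTotRam p K₀ L)
    (htame : LfTame p K₀ F₀)
    (hPM : ∀ m : ℚ, (p : ℚ) / ((p : ℚ) - 1) < m → RmPM p K₀ L m)
    {ζ : F₀} (hζ : IsPrimitiveRoot ζ p) (x₁ : F₀) (hx₁ : x₁ ≠ 0) (β : L)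
    (hβ : β ^ p = algebraMap F₀ L (1 + x₁)) (h1 : 1 ≤ lfOrd p F₀ x₁)
    (h2 : lfOrd p F₀ x₁ < lfOrd p F₀ ((p : ℕ) : F₀)) (h3 : ¬ (p : ℤ) ∣ lfOrd p F₀ x₁) : False := by
  refine rm_top_mid p K₀ F₀ L hp2 hur htr htame hPM hζ (1 + x₁) β hβ
    (fun c => rm_not_pow_of_level p F₀ x₁ hx₁ h1 h2 h3 c) (lfOrd p F₀ x₁) h2 ?_
  intro L₁ _ _ _ _ _ _ htr₁ hdeg β₁ hβ₁
  rw [rmU_kummer_level p F₀ L₁ hp2 hζ htr₁ hdeg x₁ hx₁ β₁ hβ₁ h1 h2 h3]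

end Mid

end Fermat.Agent.S56
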