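/-
S56 / FLAT / RAM block (helper24), TOP: instantiation of the abstract tower inside `L`
(`K₀ = ℚ_p(ζ_N)`, `F₀ = F(ζ_N)`, `N = |k_L| - 1`) and the final statement `rm_top`.
-/
import Fermat.Agent.S56.Ram.TopCore

set_option autoImplicit false
set_option linter.unusedSectionVars false
set_option linter.unusedVariables false
set_option linter.style.haveILetI false

namespace Fermat.Agent.S56

open Fermat.Agent.S55 Polynomial

section Inst

variable (p : ℕ) [Fact p.Prime]
  (L : Type) [Field L] [Algebra ℚ_[p] L] [FiniteDimensional ℚ_[p] L]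
  (F : Type) [Field F] [Algebra ℚ_[p] F] [FiniteDimensional ℚ_[p] F] [Algebra F L]
  [IsScalarTower ℚ_[p] F L]

/-- `F(z)` is stable under the `ℚ_p`-automorphisms of `L` fixing `z` (`F/ℚ_p` normal). -/
theorem rm_top_map_mem [Normal ℚ_[p] F] (z : L) (σ : L ≃ₐ[ℚ_[p]] L) (hσ : σ z = z) (y : L)
    (hy : y ∈ IntermediateField.adjoin F {z}) : σ y ∈ IntermediateField.adjoin F {z} := by
  have h1 : (IntermediateField.adjoin F {z}).toSubfield ≤
      (IntermediateField.adjoin F {z}).toSubfield.comap (σ : L →+* L) := by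
    conv_lhs => rw [IntermediateField.adjoin_toSubfield]
    rw [Subfield.closure_le]
    rintro x (⟨a, rfl⟩ | hx)
    · change σ (algebraMap F L a) ∈ IntermediateField.adjoin F {z}
      rw [← AlgEquiv.restrictNormal_commutes σ F a]
      exact (IntermediateField.adjoin F {z}).algebraMap_mem _
    · rw [Set.mem_singleton_iff] at hx
      subst hx
      change σ x ∈ IntermediateField.adjoin F {x}
      rw [hσ]
      exact IntermediateField.mem_adjoin_simple_self F x
  exact h1 hy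

/-- `ℚ_p(z) ⊆ F(z)` inside `L`. -/
theorem rm_top_le (z : L) (y : L) (hy : y ∈ IntermediateField.adjoin ℚ_[p] {z}) :
    y ∈ IntermediateField.adjoin F {z} := by
  have h1 : IntermediateField.adjoin ℚ_[p] {z} ≤
      (IntermediateField.adjoin F {z}).restrictScalars ℚ_[p] := by
    rw [IntermediateField.adjoin_le_iff]
    rintro x hx
    rw [Set.mem_singleton_iff] at hx
    subst hx
    exact IntermediateField.mem_adjoin_simple_self F x
  exact h1 hy

/-- the inclusion `ℚ_p(z) → F(z)`. -/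
def rmTopIncl (z : L) :
    ↥(IntermediateField.adjoin ℚ_[p] {z}) →+* ↥(IntermediateField.adjoin F {z}) where
  toFun x := ⟨x.1, rm_top_le p L F z x.1 x.2⟩
  map_one' := rfl
  map_mul' _ _ := rfl
  map_zero' := rfl
  map_add' _ _ := rfl

/-- `F(z)/ℚ_p(z)` is Galois when `L/ℚ_p` and `F/ℚ_p` are. -/
theorem rm_top_isGalois [IsGalois ℚ_[p] L] [IsGalois ℚ_[p] F] (z : L) :
    letI := (rmTopIncl p L F z).toAlgebra
    IsGalois ↥(IntermediateField.adjoin ℚ_[p] {z}) ↥(IntermediateField.adjoin F {z}) := by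
  letI := (rmTopIncl p L F z).toAlgebra
  haveI t1 : IsScalarTower ↥(IntermediateField.adjoin ℚ_[p] {z})
      ↥(IntermediateField.adjoin F {z}) L := IsScalarTower.of_algebraMap_eq (fun _ => rfl)
  haveI t2 : IsScalarTower ℚ_[p] ↥(IntermediateField.adjoin ℚ_[p] {z})
      ↥(IntermediateField.adjoin F {z}) := IsScalarTower.of_algebraMap_eq (fun _ => rfl)
  haveI hfd := rm_finiteDimensional_intermediate p F L (IntermediateField.adjoin F {z})
  haveI hfd' : FiniteDimensional ↥(IntermediateField.adjoin ℚ_[p] {z})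
      ↥(IntermediateField.adjoin F {z}) := FiniteDimensional.right ℚ_[p] _ _
  haveI hchar : CharZero ↥(IntermediateField.adjoin ℚ_[p] {z}) := lrt_charZero p _
  have hzmem : z ∈ IntermediateField.adjoin ℚ_[p] {z} :=
    IntermediateField.mem_adjoin_simple_self ℚ_[p] z
  have hnorm : Normal ↥(IntermediateField.adjoin ℚ_[p] {z})
      ↥(IsScalarTower.toAlgHom ↥(IntermediateField.adjoin ℚ_[p] {z})
        ↥(IntermediateField.adjoin F {z}) L).fieldRange := by
    rw [IntermediateField.normal_iff_forall_map_le']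
    rintro σ x ⟨y, ⟨w, rfl⟩, rfl⟩
    have hσz : (σ.restrictScalars ℚ_[p]) z = z := σ.commutes ⟨z, hzmem⟩
    have h1 := rm_top_map_mem p L F z (σ.restrictScalars ℚ_[p]) hσz (w : L) w.2
    exact ⟨⟨_, h1⟩, rfl⟩
  have hnorm' : Normal ↥(IntermediateField.adjoin ℚ_[p] {z}) ↥(IntermediateField.adjoin F {z}) :=
    Normal.of_algEquiv (IsScalarTower.toAlgHom ↥(IntermediateField.adjoin ℚ_[p] {z})
        ↥(IntermediateField.adjoin F {z}) L).equivFieldRange.symm
  exact isGalois_iff.mpr ⟨inferInstance, hnorm'⟩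

end Inst

section Top

variable (p : ℕ) [Fact p.Prime]
  (L : Type) [Field L] [Algebra ℚ_[p] L] [FiniteDimensional ℚ_[p] L] [IsGalois ℚ_[p] L]

/-- the two bad shapes are impossible for Kummer generators of `L` over `F`. -/
theorem rm_top_aux (hp2 : p ≠ 2)
    (hPM : ∀ (K' : Type) [Field K'] [Algebra ℚ_[p] K'] [FiniteDimensional ℚ_[p] K'] [Algebra K' L]
      [IsScalarTower ℚ_[p] K' L], LfUnramified p ℚ_[p] K' →
      ∀ m : ℚ, (p : ℚ) / ((p : ℚ) - 1) < m → RmPM p K' L m)
    (F : Type) [Field F] [Algebra ℚ_[p] F] [FiniteDimensional ℚ_[p] F] [Algebra F L]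
    [IsScalarTower ℚ_[p] F L] [IsGalois ℚ_[p] F] (htame : LfTame p ℚ_[p] F)
    {ζ : F} (hζ : IsPrimitiveRoot ζ p) (b' : F) (β' : L)
    (hβ' : β' ^ p = algebraMap F L b')
    (hshape : (b' ≠ 0 ∧ ¬ (p : ℤ) ∣ lfOrd p F b') ∨
      (∃ x : F, x ≠ 0 ∧ b' = 1 + x ∧ 1 ≤ lfOrd p F x ∧
        lfOrd p F x < lfOrd p F ((p : ℕ) : F) ∧ ¬ (p : ℤ) ∣ lfOrd p F x)) : False := by
  obtain ⟨z, hz⟩ := rmmu_exists_primitiveRoot p L
  letI algKF : Algebra ↥(IntermediateField.adjoin ℚ_[p] {z}) ↥(IntermediateField.adjoin F {z}) :=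
    (rmTopIncl p L F z).toAlgebra
  haveI t1 : IsScalarTower ↥(IntermediateField.adjoin ℚ_[p] {z})
      ↥(IntermediateField.adjoin F {z}) L := IsScalarTower.of_algebraMap_eq (fun _ => rfl)
  haveI t2 : IsScalarTower ℚ_[p] ↥(IntermediateField.adjoin ℚ_[p] {z})
      ↥(IntermediateField.adjoin F {z}) := IsScalarTower.of_algebraMap_eq (fun _ => rfl)
  haveI hfdF := rm_finiteDimensional_intermediate p F L (IntermediateField.adjoin F {z})
  haveI t3 := rmmu_isScalarTower p F L (IntermediateField.adjoin F {z})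
  haveI g2 : IsGalois ↥(IntermediateField.adjoin F {z}) L :=
    IsGalois.tower_top_of_isGalois ℚ_[p] ↥(IntermediateField.adjoin F {z}) L
  haveI g3 : IsGalois ↥(IntermediateField.adjoin ℚ_[p] {z}) ↥(IntermediateField.adjoin F {z}) :=
    rm_top_isGalois p L F z
  obtain ⟨hurK, htrK⟩ := rmmu_maxUnram_of_eq p ℚ_[p] L (IntermediateField.adjoin ℚ_[p] {z}) z hz rfl
  obtain ⟨hurF, htrF⟩ := rmmu_maxUnram_of_eq p F L (IntermediateField.adjoin F {z}) z hz rfl
  -- `e(F₀/K₀) = e(F/ℚ_p)`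
  have he : lfRamIdx p ↥(IntermediateField.adjoin ℚ_[p] {z}) ↥(IntermediateField.adjoin F {z}) =
      lfRamIdx p ℚ_[p] F := by
    have h1 := lfRamIdx_tower p ℚ_[p] ↥(IntermediateField.adjoin ℚ_[p] {z})
      ↥(IntermediateField.adjoin F {z})
    have h2 := lfRamIdx_tower p ℚ_[p] F ↥(IntermediateField.adjoin F {z})
    unfold LfUnramified at hurK hurF
    rw [hurK, one_mul] at h1
    rw [hurF, mul_one] at h2
    rw [← h1, h2]
  have htame' : LfTame p ↥(IntermediateField.adjoin ℚ_[p] {z})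
      ↥(IntermediateField.adjoin F {z}) := by
    unfold LfTame at htame ⊢
    rw [he]; exact htame
  have hPM' := hPM ↥(IntermediateField.adjoin ℚ_[p] {z}) hurK
  have hζ' : IsPrimitiveRoot (algebraMap F ↥(IntermediateField.adjoin F {z}) ζ) p :=
    hζ.map_of_injective (algebraMap F ↥(IntermediateField.adjoin F {z})).injective
  -- valuations do not change from `F` to `F₀`
  have hord : ∀ y : F, lfOrd p ↥(IntermediateField.adjoin F {z})
      (algebraMap F ↥(IntermediateField.adjoin F {z}) y) = lfOrd p F y := by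
    intro y
    unfold LfUnramified at hurF
    rw [lfOrd_algebraMap, hurF]; simp
  have hβ'' : β' ^ p = algebraMap ↥(IntermediateField.adjoin F {z}) L
      (algebraMap F ↥(IntermediateField.adjoin F {z}) b') := by
    rw [← IsScalarTower.algebraMap_apply]; exact hβ'
  rcases hshape with ⟨hb0, hA⟩ | ⟨x, hx0, hbx, h1, h2, h3⟩
  · refine rm_top_caseA p ↥(IntermediateField.adjoin ℚ_[p] {z}) ↥(IntermediateField.adjoin F {z}) L
      hp2 hurK htrK htame' hPM' hζ' (algebraMap F _ b') ?_ β' hβ'' ?_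
    · exact (_root_.map_ne_zero _).mpr hb0
    · rw [hord]; exact hA
  · refine rm_top_caseB p ↥(IntermediateField.adjoin ℚ_[p] {z}) ↥(IntermediateField.adjoin F {z}) L
      hp2 hurK htrK htame' hPM' hζ' (algebraMap F _ x) ((_root_.map_ne_zero _).mpr hx0) β' ?_ ?_ ?_ ?_
    · rw [hβ'', hbx, map_add, map_one]
    · rw [hord]; exact h1
    · rw [hord, ← map_natCast (algebraMap F ↥(IntermediateField.adjoin F {z})), hord]; exact h2
    · rw [hord]; exact h3

/-- **RAM-TOP.**  `hPM` : Fontaine's `(P_m)`, `m > p/(p-1)`, over every unramified base inside `L`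
(as delivered by the Hopf block).  Then the Kummer generators of `L` over a tame Galois subfield
`F ∋ ζ_p` are congruent to `1` modulo `p` up to `p`-th powers. -/
theorem rm_top (hp2 : p ≠ 2)
    (hPM : ∀ (K' : Type) [Field K'] [Algebra ℚ_[p] K'] [FiniteDimensional ℚ_[p] K'] [Algebra K' L]
      [IsScalarTower ℚ_[p] K' L], LfUnramified p ℚ_[p] K' →
      ∀ m : ℚ, (p : ℚ) / ((p : ℚ) - 1) < m → RmPM p K' L m)
    (F : Type) [Field F] [Algebra ℚ_[p] F] [FiniteDimensional ℚ_[p] F] [Algebra F L]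
    [IsScalarTower ℚ_[p] F L] [IsGalois ℚ_[p] F] (htame : LfTame p ℚ_[p] F)
    {ζ : F} (hζ : IsPrimitiveRoot ζ p) (b : F) (hb : b ≠ 0) (β : L)
    (hβ : β ^ p = algebraMap F L b) :
    ∃ c : F, c ≠ 0 ∧ (b * c ^ p = 1 ∨ lfOrd p F (p : F) ≤ lfOrd p F (b * c ^ p - 1)) := by
  rcases rm_level_trichotomy p F b hb with hA | ⟨c, x, hc, hx, hbc, h1, h2, h3⟩ | hC
  · exact (rm_top_aux p L hp2 hPM F htame hζ b β hβ (Or.inl ⟨hb, hA⟩)).elim
  · refine (rm_top_aux p L hp2 hPM F htame hζ (b * c ^ p) (β * algebraMap F L c) ?_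
      (Or.inr ⟨x, hx, hbc, h1, h2, h3⟩)).elim
    rw [mul_pow, hβ, ← map_pow, ← map_mul]
  · exact hC

end Top

end Fermat.Agent.S56
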