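/-
S56 / FLAT / RAM block (helper24), leaf F2: Fontaine's Proposition 1.5 (ii),
`(P_m) ⟹ m > u_{L/K} - 1/e(L/K)` for a totally ramified Galois extension `L ≠ K`.
Statement VERBATIM from `Ram/Spec.lean`, section F2.
-/
import Fermat.Agent.S56.Ram.TotRam

set_option autoImplicit false
set_option linter.unusedSectionVars false
set_option linter.unusedVariables false

namespace Fermat.Agent.S56

open Fermat.Agent.S55 Polynomial

section F2aux

variable (q : ℕ) [Fact q.Prime]
  (K : Type) [Field K] [Algebra ℚ_[q] K] [FiniteDimensional ℚ_[q] K]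

theorem rm_lfRamIdx_self : lfRamIdx q K K = 1 := by
  obtain ⟨ϖ, hϖ⟩ := exists_isLfUniformizer q K
  have h := (lfv_ramIdx_eq q K K hϖ).1
  have h1 : lfOrd q K ϖ = 1 := hϖ
  rw [Algebra.algebraMap_self_apply, h1] at h
  exact_mod_cast h

/-- the perturbed Eisenstein polynomial `P + ϖ^a X^j`. -/
theorem rm_perturb (P : K[X]) (hP : P.Monic) {n : ℕ} (hn : P.natDegree = n)
    (hcoeff : ∀ k, k < n → P.coeff k = 0 ∨ 0 < lfOrd q K (P.coeff k))
    (h0 : lfOrd q K (P.coeff 0) = 1) (h00 : P.coeff 0 ≠ 0)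
    {ϖ : K} (hϖ : IsLfUniformizer q K ϖ) (a j : ℕ) (ha : 1 ≤ a) (hj : j < n)
    (haj : 2 ≤ a ∨ 1 ≤ j) :
    (P + C (ϖ ^ a) * X ^ j).Monic ∧ (P + C (ϖ ^ a) * X ^ j).natDegree = n ∧
      (∀ k, k < n → (P + C (ϖ ^ a) * X ^ j).coeff k = 0 ∨
        0 < lfOrd q K ((P + C (ϖ ^ a) * X ^ j).coeff k)) ∧
      lfOrd q K ((P + C (ϖ ^ a) * X ^ j).coeff 0) = 1 ∧ (P + C (ϖ ^ a) * X ^ j).coeff 0 ≠ 0 := by
  have hϖ0 : ϖ ≠ 0 := IsLfUniformizer.ne_zero q K hϖ
  have hϖ1 : lfOrd q K ϖ = 1 := hϖ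
  have hc0 : ϖ ^ a ≠ 0 := pow_ne_zero _ hϖ0
  have hcord : lfOrd q K (ϖ ^ a) = a := by rw [lfOrd_pow, hϖ1, mul_one]
  have hdegP : P.degree = n := by
    rw [degree_eq_natDegree hP.ne_zero, hn]
  have hdlt : (C (ϖ ^ a) * X ^ j).degree < P.degree := by
    rw [hdegP]
    exact lt_of_le_of_lt (degree_C_mul_X_pow_le j _) (by exact_mod_cast hj)
  have hnlt : (C (ϖ ^ a) * X ^ j).natDegree < P.natDegree := by
    rw [hn]
    exact lt_of_le_of_lt (natDegree_C_mul_X_pow_le _ j) hj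
  refine ⟨hP.add_of_left hdlt, by rw [natDegree_add_eq_left_of_natDegree_lt hnlt, hn], ?_, ?_⟩
  · intro k hk
    rw [coeff_add, coeff_C_mul_X_pow]
    have h1 : RmGe q K 1 (P.coeff k) := by
      rcases hcoeff k hk with h | h
      · exact Or.inl h
      · exact Or.inr (by omega)
    have h2 : RmGe q K 1 (if k = j then ϖ ^ a else 0) := by
      split_ifs
      · exact Or.inr (by rw [hcord]; exact_mod_cast ha)
      · exact rmGe_zero _
    rcases h1.add h2 with h | h
    · exact Or.inl h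
    · exact Or.inr (by omega)
  · rw [coeff_add, coeff_C_mul_X_pow]
    rcases haj with h2 | h1
    · by_cases hj0 : 0 = j
      · rw [if_pos hj0]
        have h3 : RmGe q K (lfOrd q K (P.coeff 0) + 1) (ϖ ^ a) := by
          refine Or.inr ?_
          rw [hcord, h0]
          exact_mod_cast h2
        obtain ⟨h4, h5⟩ := rm_ord_add_of_gt (q := q) (K := K) h00 h3
        exact ⟨h5.trans h0, h4⟩
      · rw [if_neg hj0, add_zero]; exact ⟨h0, h00⟩
    · have hj0 : ¬ (0 = j) := by omega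
      rw [if_neg hj0, add_zero]; exact ⟨h0, h00⟩

end F2aux

section F2

variable (q : ℕ) [Fact q.Prime]
  (K : Type) [Field K] [Algebra ℚ_[q] K] [FiniteDimensional ℚ_[q] K]
  (L : Type) [Field L] [Algebra ℚ_[q] L] [FiniteDimensional ℚ_[q] L]
  [Algebra K L] [IsScalarTower ℚ_[q] K L] [IsGalois K L]

/-- `Φ(i*)` is a natural number `≥ 2`. -/
theorem rmPhi_rmIMax_nat (htr : LfTotRam q K L) (hne : ∃ s : L ≃ₐ[K] L, s ≠ 1) :
    ∃ Φ : ℕ, 2 ≤ Φ ∧ rmPhi q K L (rmIMax q K L) = (Φ : ℚ) := by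
  classical
  have hfd : FiniteDimensional K L := FiniteDimensional.right ℚ_[q] K L
  have hfin : Finite (L ≃ₐ[K] L) := inferInstance
  let _ : Fintype (L ≃ₐ[K] L) := Fintype.ofFinite _
  obtain ⟨s₀, hs₀, hmax⟩ := rm_exists_rmI_eq_rmIMax q K L hne
  have hpos := rmI_pos q K L htr s₀ hs₀
  refine ⟨rmIMax q K L + ∑ s ∈ (Finset.univ : Finset (L ≃ₐ[K] L)).erase 1,
    min (rmIMax q K L) (rmI q K L s), ?_, ?_⟩
  · have h1 : min (rmIMax q K L) (rmI q K L s₀) ≤
        ∑ s ∈ (Finset.univ : Finset (L ≃ₐ[K] L)).erase 1, min (rmIMax q K L) (rmI q K L s) :=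
      Finset.single_le_sum (f := fun s => min (rmIMax q K L) (rmI q K L s))
        (fun s _ => Nat.zero_le _) (Finset.mem_erase.mpr ⟨hs₀, Finset.mem_univ s₀⟩)
    rw [hmax, min_self] at h1
    omega
  · rw [rmPhi_eq_sum]
    push_cast
    rfl

/-- **Fontaine 1.5 (ii)** for a totally ramified Galois extension `L ≠ K`:
`(P_m) ⟹ m > u_{L/K} - 1/e(L/K)`. -/
theorem rm_fontaine_ii (htr : LfTotRam q K L) (hne : ∃ s : L ≃ₐ[K] L, s ≠ 1) (m : ℚ)
    (hPM : RmPM q K L m) :
    rmU q K L - 1 / (lfRamIdx q K L : ℚ) < m := by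
  by_contra hcon
  rw [not_lt] at hcon
  have hfd : FiniteDimensional K L := FiniteDimensional.right ℚ_[q] K L
  have he := rm_ramIdx_eq_finrank q K L htr
  obtain ⟨π, hπ⟩ := exists_isLfUniformizer q L
  have hgen := rm_rmGen_uniformizer q K L htr hπ
  obtain ⟨hPdeg, hPcoeff, hP0, hP00⟩ := rm_minpoly_uniformizer q K L htr hπ
  have hint : IsIntegral K π := Algebra.IsIntegral.isIntegral π
  have hPmonic := minpoly.monic hint
  obtain ⟨Φ, hΦ2, hΦ⟩ := rmPhi_rmIMax_nat q K L htr hne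
  have hnpos : 0 < Module.finrank K L := Module.finrank_pos
  have hn0 : (0 : ℚ) < (Module.finrank K L : ℚ) := by exact_mod_cast hnpos
  -- `m n ≤ Φ - 1`
  have hm : m * (Module.finrank K L : ℚ) ≤ (Φ : ℚ) - 1 := by
    unfold rmU at hcon
    rw [hΦ, he] at hcon
    have h1 : (Φ : ℚ) / (Module.finrank K L : ℚ) - 1 / (Module.finrank K L : ℚ) =
        ((Φ : ℚ) - 1) / (Module.finrank K L : ℚ) := by ring
    rw [h1, le_div_iff₀ hn0] at hcon
    exact hcon
  obtain ⟨N, hN⟩ : ∃ N : ℕ, Φ = N + 1 := ⟨Φ - 1, by omega⟩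
  have hΦN : (Φ : ℚ) - 1 = (N : ℚ) := by rw [hN]; push_cast; ring
  rw [hΦN] at hm
  rcases le_or_gt N (Module.finrank K L) with hNn | hNn
  · -- trivial case: `E = K`, `y = 0`
    have haev0 : aeval (0 : K) (minpoly K π) = (minpoly K π).coeff 0 := by
      rw [← coeff_zero_eq_aeval_zero']; rfl
    have h1 := hPM π hgen K (0 : K) (lfInt q K).zero_mem (by rw [haev0]; exact hP00)
      (by
        rw [rm_lfRamIdx_self, haev0, hP0]
        push_cast
        have h2 : m * (Module.finrank K L : ℚ) ≤ (Module.finrank K L : ℚ) :=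
          hm.trans (by exact_mod_cast hNn)
        have h3 : m ≤ 1 := by
          by_contra h4
          rw [not_le] at h4
          nlinarith
        linarith)
    obtain ⟨f⟩ := h1
    have h2 : Module.finrank K L ≤ 1 := by
      have h3 := LinearMap.finrank_le_finrank_of_injective (f := f.toLinearMap)
        (f.toRingHom.injective)
      rwa [Module.finrank_self] at h3
    obtain ⟨s, hs⟩ := hne
    have hcard := IsGalois.card_aut_eq_finrank K L
    have h3 : Nat.card (L ≃ₐ[K] L) = 1 := by omega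
    have h4 := (Nat.card_eq_one_iff_unique.mp h3).1
    exact hs (Subsingleton.elim _ _)
  · -- main case: perturbed Eisenstein polynomial
    obtain ⟨ϖ, hϖ⟩ := exists_isLfUniformizer q K
    have hϖ0 := IsLfUniformizer.ne_zero q K hϖ
    have hϖ1 : lfOrd q K ϖ = 1 := hϖ
    obtain ⟨a, j, hNaj, hjn⟩ : ∃ a j : ℕ, N = Module.finrank K L * a + j ∧
        j < Module.finrank K L :=
      ⟨N / Module.finrank K L, N % Module.finrank K L, (Nat.div_add_mod N _).symm,
        Nat.mod_lt N hnpos⟩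
    have ha1 : 1 ≤ a := by
      by_contra h
      have : a = 0 := by omega
      rw [this, mul_zero, zero_add] at hNaj
      omega
    have haj : 2 ≤ a ∨ 1 ≤ j := by
      by_contra h
      push Not at h
      have h1 : a = 1 := by omega
      have h2 : j = 0 := by omega
      rw [h1, h2, mul_one, add_zero] at hNaj
      omega
    obtain ⟨hQmonic, hQdeg, hQcoeff, hQ0, hQ00⟩ := rm_perturb q K (minpoly K π) hPmonic hPdeg
      (fun k hk => (hPcoeff k hk).2) hP0 hP00 hϖ a j ha1 hjn haj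
    have hQpos : 0 < (minpoly K π + C (ϖ ^ a) * X ^ j).natDegree := by rw [hQdeg]; exact hnpos
    obtain ⟨g, hgirr, hgQ⟩ := exists_irreducible_of_natDegree_pos hQpos
    have hfact : Fact (Irreducible g) := ⟨hgirr⟩
    have hg0 : g ≠ 0 := hgirr.ne_zero
    have hfdE : FiniteDimensional K (AdjoinRoot g) := (AdjoinRoot.powerBasis hg0).finite
    have hfdE' : FiniteDimensional ℚ_[q] (AdjoinRoot g) := Module.Finite.trans K (AdjoinRoot g)
    have hrankE : Module.finrank K (AdjoinRoot g) ≤ Module.finrank K L := by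
      rw [(AdjoinRoot.powerBasis hg0).finrank, AdjoinRoot.powerBasis_dim, ← hQdeg]
      exact natDegree_le_of_dvd hgQ hQmonic.ne_zero
    have hyQ : aeval (AdjoinRoot.root g) (minpoly K π + C (ϖ ^ a) * X ^ j) = 0 := by
      rw [AdjoinRoot.aeval_eq, AdjoinRoot.mk_eq_zero]; exact hgQ
    obtain ⟨hy0, hyord⟩ := rm_eisenstein_root q K (AdjoinRoot g) _ hQmonic hQpos
      (by rw [hQdeg]; exact hQcoeff) hQ0 hQ00 (AdjoinRoot.root g) hyQ
    rw [hQdeg] at hyord
    have hyP : aeval (AdjoinRoot.root g) (minpoly K π) =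
        - (algebraMap K (AdjoinRoot g) (ϖ ^ a) * (AdjoinRoot.root g) ^ j) := by
      have h1 := hyQ
      rw [map_add, map_mul, aeval_C, aeval_X_pow] at h1
      linear_combination h1
    have hca0 : algebraMap K (AdjoinRoot g) (ϖ ^ a) ≠ 0 :=
      lfv_algebraMap_ne_zero K (AdjoinRoot g) (pow_ne_zero _ hϖ0)
    have hepos' : 0 < lfRamIdx q K (AdjoinRoot g) := lfRamIdx_pos q K (AdjoinRoot g)
    have hwpos : 0 < lfOrd q (AdjoinRoot g) (AdjoinRoot.root g) := by
      by_contra h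
      rw [not_lt] at h
      have h1 : (Module.finrank K L : ℤ) * lfOrd q (AdjoinRoot g) (AdjoinRoot.root g) ≤ 0 :=
        mul_nonpos_of_nonneg_of_nonpos (by positivity) h
      have h2 : (0 : ℤ) < (lfRamIdx q K (AdjoinRoot g) : ℤ) := by exact_mod_cast hepos'
      omega
    have hyint : AdjoinRoot.root g ∈ lfInt q (AdjoinRoot g) :=
      (mem_lfInt_iff_lfOrd q (AdjoinRoot g) hy0).mpr hwpos.le
    have hyPne : aeval (AdjoinRoot.root g) (minpoly K π) ≠ 0 := by
      rw [hyP, neg_ne_zero]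
      exact mul_ne_zero hca0 (pow_ne_zero _ hy0)
    have hord : lfOrd q (AdjoinRoot g) (aeval (AdjoinRoot.root g) (minpoly K π)) =
        (lfRamIdx q K (AdjoinRoot g) : ℤ) * a +
          j * lfOrd q (AdjoinRoot g) (AdjoinRoot.root g) := by
      rw [hyP, lfOrd_neg, lfOrd_mul q (AdjoinRoot g) hca0 (pow_ne_zero _ hy0), lfOrd_algebraMap,
        lfOrd_pow, lfOrd_pow, hϖ1, mul_one]
    have hineq : m * (lfRamIdx q K (AdjoinRoot g) : ℚ) ≤
        (lfOrd q (AdjoinRoot g) (aeval (AdjoinRoot.root g) (minpoly K π)) : ℚ) := by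
      rw [hord]
      push_cast
      have h1 : (Module.finrank K L : ℚ) * (lfOrd q (AdjoinRoot g) (AdjoinRoot.root g) : ℚ) =
          (lfRamIdx q K (AdjoinRoot g) : ℚ) := by exact_mod_cast hyord
      have h2 : (0 : ℚ) ≤ (lfOrd q (AdjoinRoot g) (AdjoinRoot.root g) : ℚ) := by
        exact_mod_cast hwpos.le
      have h3 : (N : ℚ) = (Module.finrank K L : ℚ) * a + j := by exact_mod_cast hNaj
      have h4 := mul_le_mul_of_nonneg_right hm h2
      rw [← h1]
      nlinarith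
    obtain ⟨ι⟩ := hPM π hgen (AdjoinRoot g) (AdjoinRoot.root g) hyint hyPne hineq
    have hιinj : Function.Injective ι := ι.toRingHom.injective
    have hrank : Module.finrank K L = Module.finrank K (AdjoinRoot g) :=
      le_antisymm (LinearMap.finrank_le_finrank_of_injective (f := ι.toLinearMap) hιinj) hrankE
    have hιsurj : Function.Surjective ι :=
      (LinearMap.injective_iff_surjective_of_finrank_eq_finrank (f := ι.toLinearMap) hrank).mp hιinj
    obtain ⟨y₀, hy₀⟩ := hιsurj (AdjoinRoot.root g)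
    have hy₀Q : aeval y₀ (minpoly K π + C (ϖ ^ a) * X ^ j) = 0 := by
      apply hιinj
      rw [← aeval_algHom_apply, hy₀, hyQ, map_zero]
    obtain ⟨hy₀0, hy₀ord⟩ := rm_eisenstein_root q K L _ hQmonic hQpos
      (by rw [hQdeg]; exact hQcoeff) hQ0 hQ00 y₀ hy₀Q
    rw [hQdeg, he] at hy₀ord
    have hy₀1 : lfOrd q L y₀ = 1 := by
      have h1 : (Module.finrank K L : ℤ) * lfOrd q L y₀ = (Module.finrank K L : ℤ) * 1 := by
        rw [mul_one]; exact hy₀ord
      exact mul_left_cancel₀ (by exact_mod_cast hnpos.ne') h1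
    have hy₀P : aeval y₀ (minpoly K π) = - (algebraMap K L (ϖ ^ a) * y₀ ^ j) := by
      have h1 := hy₀Q
      rw [map_add, map_mul, aeval_C, aeval_X_pow] at h1
      linear_combination h1
    have hcaL : algebraMap K L (ϖ ^ a) ≠ 0 := lfv_algebraMap_ne_zero K L (pow_ne_zero _ hϖ0)
    have hy₀Pne : aeval y₀ (minpoly K π) ≠ 0 := by
      rw [hy₀P, neg_ne_zero]
      exact mul_ne_zero hcaL (pow_ne_zero _ hy₀0)
    have hordL : lfOrd q L (aeval y₀ (minpoly K π)) = (N : ℤ) := by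
      rw [hy₀P, lfOrd_neg, lfOrd_mul q L hcaL (pow_ne_zero _ hy₀0), lfOrd_algebraMap,
        lfOrd_pow, lfOrd_pow, hϖ1, hy₀1, he, hNaj]
      push_cast
      ring
    have hy₀int : y₀ ∈ lfInt q L := (mem_lfInt_iff_lfOrd q L hy₀0).mpr (by rw [hy₀1]; norm_num)
    obtain ⟨i₀, hi₀⟩ := rm_ord_aeval_minpoly q K L htr hπ hy₀int hy₀Pne
    rw [hordL] at hi₀
    have hi₀' : (N : ℚ) = rmPhi q K L (i₀ : ℚ) := by exact_mod_cast hi₀
    rcases lt_or_ge i₀ (rmIMax q K L) with hlt | hge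
    · have h1 := rmPhi_pred_le q K L hne hlt
      rw [hΦ, ← hi₀', hN] at h1
      push_cast at h1
      linarith
    · have h1 := rmPhi_mono q K L (i := (rmIMax q K L : ℚ)) (j := (i₀ : ℚ)) (by exact_mod_cast hge)
      rw [hΦ, ← hi₀', hN] at h1
      push_cast at h1
      linarith

end F2

end Fermat.Agent.S56
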